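import Fermat.Agent.CFT.Loc.Krasner
import Fermat.Agent.Frob.Basic

/-!
# Local Galois group = decomposition group

`r = localGaloisToGlobal l : Gal(ℚ̄_l/ℚ_l) → Gal(ℚ̄/ℚ)` is injective with image the decomposition
group of `padicPlace l`; inertia corresponds to inertia; the levels on the local Galois group
defined by finite extensions of `ℚ_l` agree with those pulled back from number fields.
-/

set_option autoImplicit false

open Polynomial IntermediateField

namespace Fermat.Agent.CFT.Loc

variable (l : ℕ) [Fact l.Prime]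

/-- levels of the local Galois group are cofinal with those coming from number fields -/
theorem exists_comap_fixingSubgroup_le (E : IntermediateField ℚ_[l] (PadicAlgCl l))
    [FiniteDimensional ℚ_[l] E] :
    ∃ F : IntermediateField ℚ (AlgebraicClosure ℚ), FiniteDimensional ℚ F ∧
      F.fixingSubgroup.comap (localGaloisToGlobal l) = E.fixingSubgroup := by
  obtain ⟨b, hb, -⟩ := exists_eq_adjoin l E
  have hbint : IsIntegral ℚ b := (Algebra.IsAlgebraic.isAlgebraic b).isIntegral
  refine ⟨ℚ⟮b⟯, adjoin.finiteDimensional hbint, ?_⟩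
  ext τ
  rw [Subgroup.mem_comap, ← hb]
  rw [mem_fixingSubgroup_adjoin_simple_iff, mem_fixingSubgroup_adjoin_simple_iff,
    ← padicEmbedding_localGaloisToGlobal]
  exact (padicEmbedding l).toRingHom.injective.eq_iff.symm

/-- The finite extension of `ℚ_l` generated by a number field. -/
theorem comap_fixingSubgroup_eq (F : IntermediateField ℚ (AlgebraicClosure ℚ)) :
    F.fixingSubgroup.comap (localGaloisToGlobal l) =
      (IntermediateField.adjoin ℚ_[l] (padicEmbedding l '' F)).fixingSubgroup := by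
  ext τ
  rw [Subgroup.mem_comap, IntermediateField.mem_fixingSubgroup_iff, mem_fixingSubgroup_adjoin_iff]
  constructor
  · rintro h _ ⟨x, hx, rfl⟩
    rw [← padicEmbedding_localGaloisToGlobal, h x hx]
  · intro h x hx
    apply (padicEmbedding l).toRingHom.injective
    show padicEmbedding l _ = padicEmbedding l _
    rw [padicEmbedding_localGaloisToGlobal]
    exact h _ ⟨x, hx, rfl⟩

theorem finiteDimensional_adjoin (F : IntermediateField ℚ (AlgebraicClosure ℚ))
    [FiniteDimensional ℚ F] :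
    FiniteDimensional ℚ_[l] (IntermediateField.adjoin ℚ_[l] (padicEmbedding l '' F)) := by
  obtain ⟨α, -, hα'⟩ := exists_mem_adjoin_simple_eq F
  have hle : IntermediateField.adjoin ℚ_[l] (padicEmbedding l '' F) ≤
      ℚ_[l]⟮padicEmbedding l α⟯ := by
    rw [adjoin_le_iff]
    rintro _ ⟨y, hy, rfl⟩
    have hy' : y ∈ ℚ⟮(α : AlgebraicClosure ℚ)⟯ := hα'.symm ▸ hy
    have : ℚ⟮(α : AlgebraicClosure ℚ)⟯ ≤
        (ℚ_[l]⟮padicEmbedding l α⟯.restrictScalars ℚ).comap (padicEmbedding l) := by
      rw [adjoin_simple_le_iff]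
      exact mem_adjoin_simple_self ℚ_[l] (padicEmbedding l α)
    exact this hy'
  have : FiniteDimensional ℚ_[l] ℚ_[l]⟮padicEmbedding l α⟯ :=
    adjoin.finiteDimensional (Algebra.IsAlgebraic.isAlgebraic _).isIntegral
  exact FiniteDimensional.of_injective (IntermediateField.inclusion hle).toLinearMap
      (IntermediateField.inclusion_injective hle)

theorem localGaloisToGlobal_injective : Function.Injective (localGaloisToGlobal l) := by
  rw [injective_iff_map_eq_one]
  intro τ hτ
  ext x
  have hint : IsIntegral ℚ_[l] x := (Algebra.IsAlgebraic.isAlgebraic x).isIntegral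
  have : FiniteDimensional ℚ_[l] ℚ_[l]⟮x⟯ := adjoin.finiteDimensional hint
  obtain ⟨F, -, hF⟩ := exists_comap_fixingSubgroup_le l ℚ_[l]⟮x⟯
  have h : τ ∈ ℚ_[l]⟮x⟯.fixingSubgroup := by
    rw [← hF, Subgroup.mem_comap, hτ]; exact one_mem _
  exact (mem_fixingSubgroup_adjoin_simple_iff _ _).1 h

section Isometry

variable {l}

/-- an element of the decomposition group of `padicPlace l` is an isometry -/
theorem norm_padicEmbedding_apply {σ : GalGlob}
    (hσ : σ ∈ (padicPlace l).decompositionSubgroup ℚ) (x : AlgebraicClosure ℚ) :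
    ‖padicEmbedding l (σ x)‖ = ‖padicEmbedding l x‖ := by
  have hl : (0:ℝ) < l := by exact_mod_cast (Fact.out : l.Prime).pos
  have hl1 : (1:ℝ) < l := by exact_mod_cast (Fact.out : l.Prime).one_lt
  have hnl : ‖(l : PadicAlgCl l)‖ = (l:ℝ)⁻¹ := by
    have := PadicAlgCl.valuation_p l
    rw [PadicAlgCl.valuation_def] at this
    have h := congrArg NNReal.toReal this
    simpa using h
  have hmem : ∀ y : AlgebraicClosure ℚ, y ∈ padicPlace l ↔ ‖padicEmbedding l y‖ ≤ 1 := by
    intro y; rw [mem_padicPlace_iff]; rfl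
  -- key: if `‖ι x‖ < ‖ι y‖` where `y = σ^{±1} x`, contradiction
  have key : ∀ (σ : GalGlob), σ ∈ (padicPlace l).decompositionSubgroup ℚ → ∀ x,
      ‖padicEmbedding l (σ x)‖ ≤ ‖padicEmbedding l x‖ := by
    intro σ hσ x
    by_contra hlt
    push Not at hlt
    have hx0 : x ≠ 0 := by
      rintro rfl
      simp at hlt
    have hxpos : 0 < ‖padicEmbedding l x‖ := by
      rw [norm_pos_iff]
      exact (map_ne_zero (padicEmbedding l)).2 hx0
    have hypos : 0 < ‖padicEmbedding l (σ x)‖ := hxpos.trans hlt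
    set a := ‖padicEmbedding l x‖
    set b := ‖padicEmbedding l (σ x)‖
    obtain ⟨n, hn⟩ := pow_unbounded_of_one_lt (l:ℝ) ((one_lt_div hxpos).2 hlt)
    have hn' : (l:ℝ) * a ^ n < b ^ n := by
      rw [div_pow, lt_div_iff₀ (by positivity)] at hn
      exact hn
    obtain ⟨m, hm1, hm2⟩ := exists_mem_Ioc_zpow (show 0 < (l:ℝ) * a ^ n by positivity) hl1
    -- l^m < l a^n ≤ l^(m+1), i.e. a^n ≤ l^m < l a^n < b^n
    have ha : a ^ n ≤ (l:ℝ) ^ m := by
      have : (l:ℝ) * a ^ n ≤ l * l ^ m := by
        rw [zpow_add_one₀ hl.ne'] at hm2; linarith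
      exact le_of_mul_le_mul_left this hl
    have hb : (l:ℝ) ^ m < b ^ n := hm1.trans hn'
    have h1 : x ^ n * (l:AlgebraicClosure ℚ) ^ m ∈ padicPlace l := by
      rw [hmem, map_mul, map_pow, map_zpow₀, map_natCast, norm_mul, norm_pow, norm_zpow, hnl,
        inv_zpow]
      rw [mul_inv_le_iff₀ (by positivity), one_mul]
      exact ha
    have h2 : σ (x ^ n * (l:AlgebraicClosure ℚ) ^ m) ∈ padicPlace l :=
      (Frob.apply_mem_iff hσ).2 h1
    rw [hmem, map_mul, map_pow, map_zpow₀, map_natCast, map_mul, map_pow, map_zpow₀, map_natCast,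
      norm_mul, norm_pow, norm_zpow, hnl, inv_zpow, mul_inv_le_iff₀ (by positivity), one_mul] at h2
    exact absurd h2 (not_le.2 hb)
  apply le_antisymm (key σ hσ x)
  have := key σ⁻¹ (inv_mem hσ) (σ x)
  have h' : σ⁻¹ (σ x) = x := by
    change (σ⁻¹ * σ) x = x
    simp
  rwa [h'] at this

/-- polynomials over `ℚ_l` transform well under an isometry of `ℚ̄` -/
theorem aeval_apply_eq_zero {σ : GalGlob}
    (hσ : σ ∈ (padicPlace l).decompositionSubgroup ℚ) {b : AlgebraicClosure ℚ} {P : ℚ_[l][X]}
    (hPm : P.Monic) (hP : aeval (padicEmbedding l b) P = 0) :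
    aeval (padicEmbedding l (σ b)) P = 0 := by
  rw [← norm_eq_zero]
  apply le_antisymm _ (norm_nonneg _)
  set N := P.natDegree with hN
  set M : ℝ := max ‖padicEmbedding l b‖ 1 with hM
  have hMpos : 0 < M := lt_max_of_lt_right one_pos
  -- estimate of the difference of two polynomials
  have est : ∀ (ε : ℝ), 0 < ε → ∀ (g : ℚ[X]), g.natDegree = N →
      (∀ n, ‖(g.map (algebraMap ℚ ℚ_[l])).coeff n - P.coeff n‖ < ε) →
      ∀ y : PadicAlgCl l, ‖y‖ ≤ M → ‖aeval y g - aeval y P‖ ≤ (N + 1) * (ε * M ^ N) := by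
    intro ε hε g hg hcoeff y hy
    have h1 : aeval y g - aeval y P =
        ∑ i ∈ Finset.range (N + 1), algebraMap ℚ_[l] (PadicAlgCl l)
          ((g.map (algebraMap ℚ ℚ_[l])).coeff i - P.coeff i) * y ^ i := by
      have h2 : aeval y g = aeval y (g.map (algebraMap ℚ ℚ_[l])) := by
        rw [aeval_map_algebraMap]
      rw [h2, ← map_sub, aeval_eq_sum_range' (n := N + 1)]
      · simp only [coeff_sub, Algebra.smul_def]
      · refine lt_of_le_of_lt (natDegree_sub_le _ _) ?_
        rw [natDegree_map, hg]; simp [hN]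
    rw [h1]
    refine (norm_sum_le _ _).trans ?_
    have h3 : ∀ i ∈ Finset.range (N + 1), ‖algebraMap ℚ_[l] (PadicAlgCl l)
          ((g.map (algebraMap ℚ ℚ_[l])).coeff i - P.coeff i) * y ^ i‖ ≤ ε * M ^ N := by
      intro i hi
      rw [norm_mul, norm_pow, norm_algebraMap']
      apply mul_le_mul (hcoeff i).le _ (by positivity) hε.le
      refine (pow_le_pow_left₀ (norm_nonneg _) hy i).trans ?_
      exact pow_le_pow_right₀ (le_max_right _ _) (Nat.lt_succ_iff.1 (Finset.mem_range.1 hi))
    refine (Finset.sum_le_sum h3).trans ?_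
    simp
  have hbd : ∀ ε : ℝ, 0 < ε →
      ‖aeval (padicEmbedding l (σ b)) P‖ ≤ 2 * ((N + 1) * (ε * M ^ N)) := by
    intro ε hε
    obtain ⟨g, gmon, gdeg, gcoeff⟩ :=
      exists_monic_and_natDegree_eq_and_norm_map_algebraMap_coeff_sub_lt (denseRange_rat l) hPm
        hε
    have e1 := est ε hε g gdeg.symm gcoeff (padicEmbedding l b) (le_max_left _ _)
    have e2 := est ε hε g gdeg.symm gcoeff (padicEmbedding l (σ b))
      (by rw [norm_padicEmbedding_apply hσ]; exact le_max_left _ _)
    rw [hP, sub_zero] at e1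
    have e3 : ‖aeval (padicEmbedding l (σ b)) g‖ = ‖aeval (padicEmbedding l b) g‖ := by
      rw [aeval_algHom_apply, aeval_algHom_apply, aeval_algHom_apply,
        norm_padicEmbedding_apply hσ]
    calc ‖aeval (padicEmbedding l (σ b)) P‖
        = ‖aeval (padicEmbedding l (σ b)) g - (aeval (padicEmbedding l (σ b)) g -
            aeval (padicEmbedding l (σ b)) P)‖ := by congr 1; ring
      _ ≤ ‖aeval (padicEmbedding l (σ b)) g‖ + ‖aeval (padicEmbedding l (σ b)) g -
            aeval (padicEmbedding l (σ b)) P‖ := norm_sub_le _ _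
      _ ≤ _ := by rw [e3]; linarith
  -- let `ε → 0`
  by_contra hpos
  push Not at hpos
  set c := ‖aeval (padicEmbedding l (σ b)) P‖ with hc
  have hD : 0 < (N + 1 : ℝ) * M ^ N := by positivity
  have := hbd (c / (4 * ((N + 1) * M ^ N))) (by positivity)
  have h2 : 2 * ((N + 1 : ℝ) * (c / (4 * ((N + 1) * M ^ N)) * M ^ N)) = c / 2 := by
    field_simp
    norm_num
  rw [h2] at this
  linarith

/-- conjugates under the decomposition group are conjugate over `ℚ_l` -/
theorem exists_algEquiv_apply {σ : GalGlob}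
    (hσ : σ ∈ (padicPlace l).decompositionSubgroup ℚ) (b : AlgebraicClosure ℚ) :
    ∃ τ : GalLoc l, τ (padicEmbedding l b) = padicEmbedding l (σ b) := by
  have hint : IsIntegral ℚ_[l] (padicEmbedding l b) :=
    (Algebra.IsAlgebraic.isAlgebraic _).isIntegral
  have h := aeval_apply_eq_zero hσ (minpoly.monic hint) (minpoly.aeval ℚ_[l] (padicEmbedding l b))
  have h2 : minpoly ℚ_[l] (padicEmbedding l b) = minpoly ℚ_[l] (padicEmbedding l (σ b)) :=
    minpoly.eq_of_irreducible_of_monic (minpoly.irreducible hint) h (minpoly.monic hint)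
  have h3 : IsConjRoot ℚ_[l] (padicEmbedding l (σ b)) (padicEmbedding l b) := h2.symm
  obtain ⟨τ, hτ⟩ := isConjRoot_iff_exists_algEquiv.mp h3
  exact ⟨τ, hτ⟩

end Isometry

/-- the image of the local Galois group is the decomposition group -/
theorem range_localGaloisToGlobal :
    (localGaloisToGlobal l).range = (padicPlace l).decompositionSubgroup ℚ := by
  apply le_antisymm
  · rintro _ ⟨τ, rfl⟩
    exact localGaloisToGlobal_mem_decompositionSubgroup l τ
  intro σ hσ
  let T : AlgebraicClosure ℚ → Set (GalLoc l) := fun b =>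
    {τ | τ (padicEmbedding l b) = padicEmbedding l (σ b)}
  have hne : ∀ b, (T b).Nonempty := fun b => exists_algEquiv_apply hσ b
  have hcl : ∀ b, IsClosed (T b) := by
    intro b
    obtain ⟨τ₀, hτ₀⟩ := hne b
    have hint : IsIntegral ℚ_[l] (padicEmbedding l b) :=
      (Algebra.IsAlgebraic.isAlgebraic _).isIntegral
    have : FiniteDimensional ℚ_[l] ℚ_[l]⟮padicEmbedding l b⟯ := adjoin.finiteDimensional hint
    have h := (IntermediateField.fixingSubgroup_isClosed ℚ_[l]⟮padicEmbedding l b⟯).leftCoset τ₀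
    convert h using 1
    ext τ
    simp only [T, Set.mem_ofPred_eq]
    rw [Set.mem_smul_set]
    constructor
    · intro hτ
      refine ⟨τ₀⁻¹ * τ, ?_, ?_⟩
      · show _ ∈ ℚ_[l]⟮padicEmbedding l b⟯.fixingSubgroup
        rw [mem_fixingSubgroup_adjoin_simple_iff]
        show τ₀.symm (τ _) = _
        rw [hτ, ← hτ₀, AlgEquiv.symm_apply_apply]
      · simp
    · rintro ⟨ρ, hρ, rfl⟩
      have hρ' : ρ (padicEmbedding l b) = padicEmbedding l b :=
        (mem_fixingSubgroup_adjoin_simple_iff _ _).1 hρ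
      show τ₀ (ρ _) = _
      rw [hρ', hτ₀]
  have hdir : Directed (fun A B => A ⊇ B) T := by
    intro b b'
    have hb : IsIntegral ℚ b := (Algebra.IsAlgebraic.isAlgebraic b).isIntegral
    have hb' : IsIntegral ℚ b' := (Algebra.IsAlgebraic.isAlgebraic b').isIntegral
    have : FiniteDimensional ℚ ℚ⟮b⟯ := adjoin.finiteDimensional hb
    have : FiniteDimensional ℚ ℚ⟮b'⟯ := adjoin.finiteDimensional hb'
    have : FiniteDimensional ℚ (ℚ⟮b⟯ ⊔ ℚ⟮b'⟯ : IntermediateField ℚ (AlgebraicClosure ℚ)) :=
      IntermediateField.finiteDimensional_sup _ _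
    obtain ⟨c, -, hc⟩ := exists_mem_adjoin_simple_eq
      (ℚ⟮b⟯ ⊔ ℚ⟮b'⟯ : IntermediateField ℚ (AlgebraicClosure ℚ))
    have key : ∀ x ∈ ℚ⟮c⟯, T c ⊆ T x := by
      intro x hx τ hτ
      have : ℚ⟮c⟯ ≤ IntermediateField.mk
          (AlgHom.equalizer ((τ.toAlgHom.restrictScalars ℚ).comp (padicEmbedding l))
            ((padicEmbedding l).comp σ.toAlgHom)) (by
              intro y hy
              show τ (padicEmbedding l y⁻¹) = padicEmbedding l (σ y⁻¹)
              have hy' : τ (padicEmbedding l y) = padicEmbedding l (σ y) := hy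
              rw [map_inv₀, map_inv₀, hy', map_inv₀, map_inv₀]) := by
        rw [adjoin_simple_le_iff]
        exact hτ
      exact this hx
    refine ⟨c, key b ?_, key b' ?_⟩
    · rw [hc]; exact (le_sup_left : ℚ⟮b⟯ ≤ _) (mem_adjoin_simple_self ℚ b)
    · rw [hc]; exact (le_sup_right : ℚ⟮b'⟯ ≤ _) (mem_adjoin_simple_self ℚ b')
  obtain ⟨τ, hτ⟩ := IsCompact.nonempty_iInter_of_directed_nonempty_isCompact_isClosed T hdir hne
    (fun b => (hcl b).isCompact) hcl
  refine ⟨τ, ?_⟩
  ext b
  apply (padicEmbedding l).toRingHom.injective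
  show padicEmbedding l _ = padicEmbedding l _
  rw [padicEmbedding_localGaloisToGlobal]
  exact Set.mem_iInter.1 hτ b

/-- the local Galois group is isomorphic to the decomposition group. -/
noncomputable def decompEquiv : GalLoc l ≃* (padicPlace l).decompositionSubgroup ℚ :=
  (MonoidHom.ofInjective (localGaloisToGlobal_injective l)).trans
    (MulEquiv.subgroupCongr (range_localGaloisToGlobal l))

@[simp] lemma coe_decompEquiv (τ : GalLoc l) :
    (decompEquiv l τ : GalGlob) = localGaloisToGlobal l τ := rfl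

/-- the inertia subgroup of the local Galois group -/
def inertiaLoc : Subgroup (GalLoc l) where
  carrier := {τ | ∀ x : PadicAlgCl l, ‖x‖ ≤ 1 → ‖τ x - x‖ < 1}
  one_mem' := by intro x _; simp
  mul_mem' := by
    intro τ τ' h h' x hx
    have h1 := h (τ' x) (by rwa [norm_apply])
    have h2 := h' x hx
    have : (τ * τ') x - x = (τ (τ' x) - τ' x) + (τ' x - x) := by
      show τ (τ' x) - x = _; ring
    rw [this]
    exact lt_of_le_of_lt (IsUltrametricDist.norm_add_le_max _ _) (max_lt h1 h2)
  inv_mem' := by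
    intro τ h x hx
    have h1 := h (τ⁻¹ x) (by rwa [norm_apply])
    have h2 : τ (τ⁻¹ x) = x := AlgEquiv.apply_symm_apply τ x
    rw [h2] at h1
    rwa [← norm_neg, neg_sub]

lemma mem_inertiaLoc {τ : GalLoc l} :
    τ ∈ inertiaLoc l ↔ ∀ x : PadicAlgCl l, ‖x‖ ≤ 1 → ‖τ x - x‖ < 1 := Iff.rfl

lemma mem_padicPlace_nonunits {x : AlgebraicClosure ℚ} :
    x ∈ (padicPlace l).nonunits ↔ ‖padicEmbedding l x‖ < 1 := by
  rw [Frob.mem_nonunits_iff_inv, mem_padicPlace_iff]
  constructor
  · rintro (rfl | h)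
    · simp
    · rw [not_le] at h
      have h' : 1 < ‖padicEmbedding l x⁻¹‖ := h
      rw [map_inv₀, norm_inv] at h'
      by_contra hx
      push Not at hx
      exact absurd h' (not_lt.2 (inv_le_one_of_one_le₀ hx))
  · intro h
    by_cases hx : x = 0
    · exact Or.inl hx
    · right
      rw [not_le]
      show 1 < ‖padicEmbedding l x⁻¹‖
      rw [map_inv₀, norm_inv]
      have : 0 < ‖padicEmbedding l x‖ := norm_pos_iff.2 ((map_ne_zero (padicEmbedding l)).2 hx)
      exact (one_lt_inv₀ this).2 h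

/-- inertia corresponds to inertia -/
theorem localGaloisToGlobal_mem_inertia_iff (τ : GalLoc l) :
    localGaloisToGlobal l τ ∈ (padicPlace l).inertiaSubgroupIn ℚ ↔ τ ∈ inertiaLoc l := by
  rw [Frob.mem_inertiaSubgroupIn_iff, mem_inertiaLoc]
  constructor
  · rintro ⟨-, h⟩ x hx
    obtain ⟨y, hy⟩ := Metric.denseRange_iff.1 (denseRange_padicEmbedding l) x 1 one_pos
    rw [dist_eq_norm] at hy
    have hy1 : ‖padicEmbedding l y‖ ≤ 1 := by
      have : padicEmbedding l y = x - (x - padicEmbedding l y) := by ring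
      rw [this, sub_eq_add_neg]
      refine (IsUltrametricDist.norm_add_le_max _ _).trans (max_le hx ?_)
      rw [norm_neg]; exact hy.le
    have h1 := h y ((mem_padicPlace_iff l).2 hy1)
    rw [mem_padicPlace_nonunits, map_sub, padicEmbedding_localGaloisToGlobal] at h1
    have h2 : τ x - x = τ (x - padicEmbedding l y) +
        ((τ (padicEmbedding l y) - padicEmbedding l y) + (padicEmbedding l y - x)) := by
      rw [map_sub]; ring
    rw [h2]
    refine lt_of_le_of_lt (IsUltrametricDist.norm_add_le_max _ _) (max_lt ?_ ?_)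
    · rwa [norm_apply]
    · refine lt_of_le_of_lt (IsUltrametricDist.norm_add_le_max _ _) (max_lt h1 ?_)
      rwa [← norm_neg, neg_sub]
  · intro h
    refine ⟨localGaloisToGlobal_mem_decompositionSubgroup l τ, fun x hx => ?_⟩
    rw [mem_padicPlace_nonunits, map_sub, padicEmbedding_localGaloisToGlobal]
    exact h _ ((mem_padicPlace_iff l).1 hx)

theorem map_inertiaLoc :
    (inertiaLoc l).map (localGaloisToGlobal l) = (padicPlace l).inertiaSubgroupIn ℚ := by
  ext σ
  rw [Subgroup.mem_map]
  constructor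
  · rintro ⟨τ, hτ, rfl⟩
    exact (localGaloisToGlobal_mem_inertia_iff l τ).2 hτ
  · intro hσ
    have h1 : σ ∈ (padicPlace l).decompositionSubgroup ℚ :=
      ((Frob.mem_inertiaSubgroupIn_iff _ _).1 hσ).1
    rw [← range_localGaloisToGlobal] at h1
    obtain ⟨τ, rfl⟩ := h1
    exact ⟨τ, (localGaloisToGlobal_mem_inertia_iff l τ).1 hσ, rfl⟩

lemma padicPlace_liesOverPrime : (padicPlace l).LiesOverPrime l := by
  rw [ValuationSubring.LiesOverPrime, mem_padicPlace_nonunits, map_natCast]
  have := PadicAlgCl.valuation_p l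
  rw [PadicAlgCl.valuation_def] at this
  have h := congrArg NNReal.toReal this
  have h' : ‖(l : PadicAlgCl l)‖ = (l:ℝ)⁻¹ := by simpa using h
  rw [h']
  exact inv_lt_one_of_one_lt₀ (by exact_mod_cast (Fact.out : l.Prime).one_lt)

end Fermat.Agent.CFT.Loc
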