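import Fermat.Agent.CFT.GalLevels
import Fermat.Agent.CFT.Loc.Decomp

/-!
# `locLevels q` is the Krull level structure
-/

set_option autoImplicit false

open Polynomial IntermediateField

namespace Fermat.Agent.CFT

theorem Levels.ext' {G : Type*} [Group G] {𝓛 𝓛' : Levels G} (h : ∀ H, H ∈ 𝓛 ↔ H ∈ 𝓛') :
    𝓛 = 𝓛' := by
  have hc : 𝓛.carrier = 𝓛'.carrier := Set.ext h
  cases 𝓛
  cases 𝓛'
  congr

namespace Loc

variable (l : ℕ) [Fact l.Prime]

instance isGalois_padicAlgCl : IsGalois ℚ_[l] (PadicAlgCl l) := inferInstance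

theorem mem_locLevels_iff {H : Subgroup (GalLoc l)} :
    H ∈ locLevels l ↔ ∃ E : IntermediateField ℚ_[l] (PadicAlgCl l), FiniteDimensional ℚ_[l] E ∧
      E.fixingSubgroup ≤ H := by
  constructor
  · rintro ⟨J, hJ, h⟩
    obtain ⟨F, hF, hFJ⟩ := mem_galLevels.1 hJ
    refine ⟨_, finiteDimensional_adjoin l F, ?_⟩
    rw [← comap_fixingSubgroup_eq]
    exact (Subgroup.comap_mono hFJ).trans h
  · rintro ⟨E, hE, h⟩
    obtain ⟨F, hF, hFE⟩ := exists_comap_fixingSubgroup_le l E
    exact ⟨F.fixingSubgroup, fixingSubgroup_mem_galLevels F, hFE.le.trans h⟩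

/-- the local levels are exactly the open subgroups of the local Galois group -/
theorem locLevels_eq : locLevels l = galLevels ℚ_[l] (PadicAlgCl l) :=
  Levels.ext' fun _ => (mem_locLevels_iff l).trans mem_galLevels.symm

end Loc

end Fermat.Agent.CFT
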