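import Fermat.Agent.CFT.Loc.Unram
import Fermat.Agent.CFT.Loc.LocLevels
import Fermat.Agent.CFT.Procyclic

/-!
# Value groups of unramified extensions; Kummer theory and inertia; unramified characters
-/

set_option autoImplicit false

open Polynomial IntermediateField

namespace Fermat.Agent.CFT.Loc

variable {l : ℕ} [Fact l.Prime]

lemma apply_eq_of_mem {K : IntermediateField ℚ_[l] (PadicAlgCl l)} {g : GalLoc l}
    (hg : g ∈ K.fixingSubgroup) {x : PadicAlgCl l} (hx : x ∈ K) : g x = x :=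
  (IntermediateField.mem_fixingSubgroup_iff _ _).1 hg x hx

lemma mem_of_forall_apply_eq {K : IntermediateField ℚ_[l] (PadicAlgCl l)} {x : PadicAlgCl l}
    (h : ∀ g ∈ K.fixingSubgroup, g x = x) : x ∈ K := by
  have := InfiniteGalois.fixedField_fixingSubgroup K
  rw [← this, IntermediateField.mem_fixedField_iff]
  exact fun f hf => h f hf

/-- A finite unramified extension has the same value group. -/
theorem Unr.exists_norm_eq {K E : IntermediateField ℚ_[l] (PadicAlgCl l)} (hu : Unr K E)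
    (hKE : K ≤ E) [FiniteDimensional ℚ_[l] E] {y : PadicAlgCl l} (hyE : y ∈ E) (hy : y ≠ 0) :
    ∃ z ∈ K, ‖z‖ = ‖y‖ := by
  classical
  set Q := K.fixingSubgroup ⧸ (E.fixingSubgroup.subgroupOf K.fixingSubgroup) with hQ
  have hfi : E.fixingSubgroup.FiniteIndex := finiteIndex_fixingSubgroup E
  have : Finite Q := by
    have : (E.fixingSubgroup.subgroupOf K.fixingSubgroup).FiniteIndex :=
      Subgroup.instFiniteIndex_subgroupOf _ _
    exact Subgroup.finite_quotient_of_finiteIndex
  have := Fintype.ofFinite Q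
  -- the value of a coset on an element of `E`
  let F : Q → PadicAlgCl l → PadicAlgCl l := fun q x => (q.out : GalLoc l) x
  have hF : ∀ (g : K.fixingSubgroup) (x : PadicAlgCl l), x ∈ E →
      F (QuotientGroup.mk g) x = (g : GalLoc l) x := by
    intro g x hx
    obtain ⟨s, hs⟩ := QuotientGroup.mk_out_eq_mul
      (E.fixingSubgroup.subgroupOf K.fixingSubgroup) g
    show ((QuotientGroup.mk g : Q).out : GalLoc l) x = _
    rw [hs]
    show (g : GalLoc l) (((s : K.fixingSubgroup) : GalLoc l) x) = (g : GalLoc l) x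
    have : (((s : K.fixingSubgroup) : GalLoc l)) x = x := apply_eq_of_mem s.2 hx
    exact congrArg _ this
  have hF' : ∀ (g : K.fixingSubgroup) (q : Q) (x : PadicAlgCl l), x ∈ E →
      (g : GalLoc l) (F q x) = F (g • q) x := by
    intro g q x hx
    have h1 : q = QuotientGroup.mk q.out := (QuotientGroup.out_eq' q).symm
    have h2 : g • q = QuotientGroup.mk (g * q.out) := by
      conv_lhs => rw [h1]
      rfl
    rw [h2, hF _ _ hx]
    rfl
  -- the traces
  let T : PadicAlgCl l → PadicAlgCl l := fun x => ∑ q : Q, F q x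
  have hT : ∀ x ∈ E, T x ∈ K := by
    intro x hx
    apply mem_of_forall_apply_eq
    intro g hg
    show g (∑ q : Q, F q x) = ∑ q : Q, F q x
    rw [map_sum]
    have h1 : ∀ q : Q, g (F q x) = F ((⟨g, hg⟩ : K.fixingSubgroup) • q) x := fun q =>
      hF' ⟨g, hg⟩ q x hx
    simp_rw [h1]
    exact Equiv.sum_comp (MulAction.toPerm (⟨g, hg⟩ : K.fixingSubgroup)) (fun q => F q x)
  -- linear independence of characters
  let χ : Q → (resSub l E →* ResF l) := fun q =>
    ((resAct l (q.out : GalLoc l)).comp (resSub l E).subtype : resSub l E →+* ResF l)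
  have hχ : Function.Injective χ := by
    intro q q' h
    have h1 : ∀ r ∈ resSub l E, resAct l (q.out : GalLoc l) r = resAct l (q'.out : GalLoc l) r :=
      fun r hr => DFunLike.congr_fun h ⟨r, hr⟩
    have h2 := hu.eqOn_of_resAct hKE q.out.2 q'.out.2 h1
    rw [← QuotientGroup.out_eq' q, ← QuotientGroup.out_eq' q', eq_comm, QuotientGroup.eq]
    exact h2
  have hyn : ∀ g : GalLoc l, ‖g y / y‖ = 1 := fun g => by
    rw [norm_div, norm_apply, div_self (norm_ne_zero_iff.2 hy)]
  let ε : Q → ResF l := fun q => red l ((q.out : GalLoc l) y / y) (hyn _).le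
  have hε : ∀ q, ε q ≠ 0 := by
    intro q h
    have h0 : ε q = red l 0 (by simp) := by rw [h]; exact (map_zero _).symm
    rw [red_eq_red_iff, sub_zero, hyn] at h0
    exact lt_irrefl _ h0
  have hli := linearIndependent_monoidHom (resSub l E) (ResF l)
  have hli2 : LinearIndependent (ResF l) (fun q : Q => (χ q : resSub l E → ResF l)) :=
    hli.comp χ hχ
  have hnz : ∃ r : resSub l E, ∑ q : Q, ε q * χ q r ≠ 0 := by
    by_contra hcon
    push Not at hcon
    have h0 : ∑ q : Q, ε q • (χ q : resSub l E → ResF l) = 0 := by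
      ext r
      rw [Finset.sum_apply]
      exact hcon r
    have := Fintype.linearIndependent_iff.1 hli2 ε h0
    exact hε (QuotientGroup.mk 1) (this _)
  obtain ⟨⟨r, hr⟩, hrne⟩ := hnz
  obtain ⟨u, hu1, huE, rfl⟩ := hr
  refine ⟨T (u * y), hT _ (mul_mem huE hyE), ?_⟩
  have hint : ∀ q : Q, ‖(q.out : GalLoc l) y / y * (q.out : GalLoc l) u‖ ≤ 1 := fun q => by
    rw [norm_mul, hyn, norm_apply, one_mul]; exact hu1
  have hsum : T (u * y) = (∑ q : Q, (q.out : GalLoc l) y / y * (q.out : GalLoc l) u) * y := by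
    show ∑ q : Q, (q.out : GalLoc l) (u * y) = _
    rw [Finset.sum_mul]
    refine Finset.sum_congr rfl fun q _ => ?_
    rw [map_mul]
    field_simp
  have hle : ‖∑ q : Q, (q.out : GalLoc l) y / y * (q.out : GalLoc l) u‖ ≤ 1 := by
    have : (∑ q : Q, (q.out : GalLoc l) y / y * (q.out : GalLoc l) u) ∈ padicIntegers l :=
      sum_mem fun q _ => hint q
    exact this
  have hred : red l _ hle ≠ 0 := by
    have h1 : (⟨∑ q : Q, (q.out : GalLoc l) y / y * (q.out : GalLoc l) u, hle⟩ :
        padicIntegers l) = ∑ q : Q, ⟨(q.out : GalLoc l) y / y * (q.out : GalLoc l) u, hint q⟩ := by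
      apply Subtype.ext
      simp
    rw [red, h1, map_sum]
    intro h0
    apply hrne
    rw [← h0]
    refine Finset.sum_congr rfl fun q _ => ?_
    have h2 : χ q ⟨red l u hu1, ⟨u, hu1, huE, rfl⟩⟩ =
      resAct l (q.out : GalLoc l) (red l u hu1) := rfl
    rw [h2, resAct_red]
    show IsLocalRing.residue (padicIntegers l) _ * IsLocalRing.residue (padicIntegers l) _ = _
    rw [← map_mul]
    rfl
  have hone : ‖∑ q : Q, (q.out : GalLoc l) y / y * (q.out : GalLoc l) u‖ = 1 := by
    apply le_antisymm hle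
    by_contra hlt
    push Not at hlt
    apply hred
    have := (red_eq_red_iff (l := l) (y := 0) hle (by simp)).2 (by simpa using hlt)
    rw [this]; exact map_zero _
  rw [hsum, norm_mul, hone, one_mul]

section Roots

variable {p : ℕ}

/-- distinct `p`-th roots of unity are incongruent if `p ≠ l`. -/
theorem eq_one_of_pow_eq_one (hp : p.Prime) (hpl : p ≠ l) {ζ : PadicAlgCl l} (hζ : ζ ^ p = 1)
    (h : ‖ζ - 1‖ < 1) : ζ = 1 := by
  by_contra hne
  have hn : ‖ζ‖ ≤ 1 := by
    have h1 : ‖ζ‖ ^ p = 1 := by rw [← norm_pow, hζ, norm_one]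
    exact le_of_eq ((pow_eq_one_iff_of_nonneg (norm_nonneg _) hp.ne_zero).1 h1)
  have hsum : ∑ i ∈ Finset.range p, ζ ^ i = 0 := by
    have h1 : (∑ i ∈ Finset.range p, ζ ^ i) * (ζ - 1) = 0 := by
      rw [geom_sum_mul, hζ, sub_self]
    exact (mul_eq_zero.1 h1).resolve_right (sub_ne_zero.2 hne)
  have hr : red l ζ hn = 1 := by
    have h1 := (red_eq_red_iff (l := l) (y := 1) hn (by simp)).2 h
    rw [h1]; exact map_one _
  have h2 : (∑ i ∈ Finset.range p, (⟨ζ, hn⟩ : padicIntegers l) ^ i) = 0 := by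
    apply Subtype.ext
    push_cast
    exact hsum
  have h3 := congrArg (IsLocalRing.residue (padicIntegers l)) h2
  rw [map_sum, map_zero] at h3
  have h4 : ∀ i ∈ Finset.range p, IsLocalRing.residue (padicIntegers l)
      ((⟨ζ, hn⟩ : padicIntegers l) ^ i) = 1 := by
    intro i _
    rw [map_pow]
    have : IsLocalRing.residue (padicIntegers l) (⟨ζ, hn⟩ : padicIntegers l) = 1 := hr
    rw [this, one_pow]
  rw [Finset.sum_congr rfl h4, Finset.sum_const, Finset.card_range, nsmul_one] at h3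
  have h5 := (CharP.cast_eq_zero_iff (ResF l) l p).1 h3
  exact hpl ((Nat.prime_dvd_prime_iff_eq Fact.out hp).1 h5).symm

/-- If `|y^p|` is the `p`-th power of the absolute value of an element of `K` and `p ≠ l`, then
`K(y)/K` is unramified. -/
theorem apply_eq_of_mem_inertia {K : IntermediateField ℚ_[l] (PadicAlgCl l)} (hp : p.Prime)
    (hpl : p ≠ l) {y z : PadicAlgCl l} (hz : z ∈ K) (hyK : y ^ p ∈ K) (hyz : ‖y‖ = ‖z‖)
    {g : GalLoc l} (hg : g ∈ inertiaLoc l) (hgK : g ∈ K.fixingSubgroup) : g y = y := by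
  by_cases hy : y = 0
  · rw [hy, map_zero]
  have hz0 : z ≠ 0 := by
    rintro rfl
    rw [norm_zero, norm_eq_zero] at hyz
    exact hy hyz
  have h1 : (g y / y) ^ p = 1 := by
    rw [div_pow, ← map_pow, apply_eq_of_mem hgK hyK, div_self (pow_ne_zero _ hy)]
  have hw : ‖y / z‖ = 1 := by rw [norm_div, hyz, div_self (norm_ne_zero_iff.2 hz0)]
  have h2 : ‖g (y / z) - y / z‖ < 1 := hg _ hw.le
  have h3 : g (y / z) - y / z = (g y / y - 1) * (y / z) := by
    rw [map_div₀, apply_eq_of_mem hgK hz]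
    field_simp
  rw [h3, norm_mul, hw, mul_one] at h2
  have h4 := eq_one_of_pow_eq_one hp hpl h1 h2
  rwa [div_eq_one_iff_eq hy] at h4

/-- Conversely if inertia fixes `y`, then `|y|` is in the value group. -/
theorem exists_norm_eq_of_inertia {K : IntermediateField ℚ_[l] (PadicAlgCl l)}
    [FiniteDimensional ℚ_[l] K] {y : PadicAlgCl l} (hy : y ≠ 0)
    (h : ∀ g ∈ inertiaLoc l, g ∈ K.fixingSubgroup → g y = y) : ∃ z ∈ K, ‖z‖ = ‖y‖ := by
  have hint : IsIntegral ℚ_[l] y := (Algebra.IsAlgebraic.isAlgebraic y).isIntegral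
  have : FiniteDimensional ℚ_[l] ℚ_[l]⟮y⟯ := adjoin.finiteDimensional hint
  have : FiniteDimensional ℚ_[l] (K ⊔ ℚ_[l]⟮y⟯ : IntermediateField ℚ_[l] (PadicAlgCl l)) :=
    IntermediateField.finiteDimensional_sup _ _
  refine Unr.exists_norm_eq (K := K) (E := K ⊔ ℚ_[l]⟮y⟯) ?_ le_sup_left
    ((le_sup_right : ℚ_[l]⟮y⟯ ≤ _) (mem_adjoin_simple_self _ y)) hy
  rintro g ⟨hg, hgK⟩
  rw [IntermediateField.fixingSubgroup_sup]
  exact ⟨hgK, (mem_fixingSubgroup_adjoin_simple_iff _ _).2 (h g hg hgK)⟩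

end Roots

end Fermat.Agent.CFT.Loc
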