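import Fermat.Agent.CFT.Loc.Package

/-!
# (LP3) local indices and the sum formula `∑_{v ∣ l} [L_v : ℚ_l] = [L : ℚ]`
-/

set_option autoImplicit false
set_option linter.unusedSectionVars false

open Polynomial IntermediateField NumberField IsDedekindDomain
open scoped Pointwise

namespace Fermat.Agent.CFT.Loc

section Root

variable (l : ℕ) [Fact l.Prime]

/-- every root of `jg l g x` comes from `ℚ̄`. -/
lemma exists_root_jg {p : ℕ} (hp : p.Prime) (g : GalGlob) {x : AlgebraicClosure ℚ}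
    {z : PadicAlgCl l} (hz : z ^ p = jg l g x) :
    ∃ w : AlgebraicClosure ℚ, w ^ p = x ∧ jg l g w = z := by
  have : NeZero p := ⟨hp.ne_zero⟩
  obtain ⟨w, hw⟩ := IsAlgClosed.exists_pow_nat_eq x hp.pos
  by_cases hz0 : z = 0
  · subst hz0
    rw [zero_pow hp.ne_zero] at hz
    have hx : x = 0 := (_root_.map_eq_zero _).1 hz.symm
    exact ⟨0, by rw [hx, zero_pow hp.ne_zero], map_zero _⟩
  obtain ⟨ξ, hξ⟩ : ∃ ξ : AlgebraicClosure ℚ, IsPrimitiveRoot ξ p :=
    HasEnoughRootsOfUnity.exists_primitiveRoot (AlgebraicClosure ℚ) p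
  have hjw : jg l g w ^ p = z ^ p := by rw [← map_pow, hw, hz]
  have hw0 : jg l g w ≠ 0 := by
    intro h
    rw [h, zero_pow hp.ne_zero] at hjw
    exact pow_ne_zero _ hz0 hjw.symm
  have h1 : (z / jg l g w) ^ p = 1 := by
    rw [div_pow, hjw, div_self]
    exact pow_ne_zero _ hz0
  have hξ' : IsPrimitiveRoot (jg l g ξ) p := hξ.map_of_injective (jg_injective l g)
  obtain ⟨i, -, hi⟩ := hξ'.eq_pow_of_pow_eq_one h1
  refine ⟨ξ ^ i * w, ?_, ?_⟩
  · rw [mul_pow, hw, ← pow_mul, mul_comm i p, pow_mul, hξ.pow_eq_one, one_pow, one_mul]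
  · rw [map_mul, map_pow, hi]; field_simp

variable (L : IntermediateField ℚ (AlgebraicClosure ℚ))

/-- elements fixed by the decomposition group -/
lemma fixed_iff_mem_KL (g : GalGlob) (w : AlgebraicClosure ℚ) :
    (∀ u ∈ UA (g • padicPlace l) L, u w = w) ↔ jg l g w ∈ KL l L g := by
  constructor
  · intro h
    apply mem_of_forall_apply_eq
    intro τ hτ
    rw [← jg_rg, h _ ((rg_mem_UA_iff l L g τ).2 hτ)]
  · intro h u hu
    obtain ⟨τ, hτ⟩ := (eU l L g).surjective ⟨u, hu⟩
    have hτ' : u = rg l g τ := by rw [← coe_eU, hτ]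
    apply jg_injective l g
    rw [hτ', jg_rg]
    exact apply_eq_of_mem τ.2 h

/-- `PA` in terms of the local field -/
lemma mem_PA_iff_jg {p : ℕ} (hp : p.Prime) (g : GalGlob) (x : Lˣ) :
    x ∈ PA p (g • padicPlace l) L ↔
      ∃ z ∈ KL l L g, z ^ p = jg l g ((x : L) : AlgebraicClosure ℚ) := by
  constructor
  · rintro ⟨y, hy, h⟩
    exact ⟨jg l g y, (fixed_iff_mem_KL l L g y).1 h, by rw [← map_pow, hy]⟩
  · rintro ⟨z, hz, hzx⟩
    obtain ⟨w, hw, hjw⟩ := exists_root_jg l hp g hzx
    exact ⟨w, hw, (fixed_iff_mem_KL l L g w).2 (by rw [hjw]; exact hz)⟩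

/-- `Lˣ → Kˣ` -/
noncomputable def toKu (g : GalGlob) : Lˣ →* (KL l L g)ˣ :=
  Units.map (((jg l g).toRingHom.comp L.subtype).codRestrict (KL l L g).toSubfield
    (fun x => jg_mem_KL l L g x.2) : L →+* KL l L g)

lemma coe_toKu (g : GalGlob) (x : Lˣ) :
    (((toKu l L g x : (KL l L g)ˣ) : KL l L g) : PadicAlgCl l) =
      jg l g ((x : L) : AlgebraicClosure ℚ) := rfl

/-- index of `PA` -/
theorem index_PA_eq [FiniteDimensional ℚ L] {p : ℕ} [Fact p.Prime] {ζ : AlgebraicClosure ℚ}
    (hζ : IsPrimitiveRoot ζ p) (hζL : ζ ∈ L) (g : GalGlob) :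
    (PA p (g • padicPlace l) L).index =
      p ^ 2 * (if p = l then p ^ Module.finrank ℚ_[l] (KL l L g) else 1) := by
  have hp : p.Prime := Fact.out
  have : NeZero p := ⟨hp.ne_zero⟩
  have h1 : PA p (g • padicPlace l) L =
      (powMonoidHom p : (KL l L g)ˣ →* (KL l L g)ˣ).range.comap (toKu l L g) := by
    ext x
    rw [mem_PA_iff_jg l L hp, Subgroup.mem_comap]
    constructor
    · rintro ⟨z, hz, hzx⟩
      have hz0 : (⟨z, hz⟩ : KL l L g) ≠ 0 := by
        intro h
        have : z = 0 := congrArg Subtype.val h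
        rw [this, zero_pow hp.ne_zero] at hzx
        exact (_root_.map_ne_zero _).2 (by exact_mod_cast x.ne_zero) hzx.symm
      refine ⟨Units.mk0 _ hz0, ?_⟩
      apply Units.ext
      apply Subtype.ext
      exact hzx
    · rintro ⟨z, hz⟩
      refine ⟨((z : KL l L g) : PadicAlgCl l), (z : KL l L g).2, ?_⟩
      have := congrArg (fun u : (KL l L g)ˣ => ((u : KL l L g) : PadicAlgCl l)) hz
      exact this
  have h2 : (powMonoidHom p : (KL l L g)ˣ →* (KL l L g)ˣ).range ⊔ (toKu l L g).range = ⊤ := by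
    rw [eq_top_iff]
    intro z _
    obtain ⟨x, hx, hx0, y, hy, hy0, hxy⟩ := exists_mul_pow_eq l L hp g
      (z := ((z : KL l L g) : PadicAlgCl l)) (z : KL l L g).2 (by exact_mod_cast z.ne_zero)
    have hx0' : (⟨x, hx⟩ : L) ≠ 0 := fun h => hx0 (congrArg Subtype.val h)
    have hy0' : (⟨y, hy⟩ : KL l L g) ≠ 0 := fun h => hy0 (congrArg Subtype.val h)
    have h3 : z = (Units.mk0 _ hy0' ^ p)⁻¹ * toKu l L g (Units.mk0 _ hx0') := by
      rw [eq_inv_mul_iff_mul_eq, mul_comm]
      apply Units.ext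
      apply Subtype.ext
      exact hxy.symm
    rw [h3]
    exact Subgroup.mul_mem_sup (Subgroup.inv_mem _ ⟨_, rfl⟩) ⟨_, rfl⟩
  rw [h1, Subgroup.index_comap, ← Subgroup.relIndex_sup_right, sup_comm, h2,
    Subgroup.relIndex_top_right, LocalF.index_range_pow l (KL l L g) hp]
  have hζK : IsPrimitiveRoot (⟨jg l g ζ, jg_mem_KL l L g hζL⟩ : KL l L g) p := by
    have hj := jg_primitive (ζ := ζ) l hζ g
    exact IsPrimitiveRoot.of_map_of_injective (f := (KL l L g).val) hj (KL l L g).val.injective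
  have hcard : Nat.card (powMonoidHom p : (KL l L g)ˣ →* (KL l L g)ˣ).ker = p := by
    have hc : Nat.card (rootsOfUnity p (KL l L g)) = p := hζK.card_rootsOfUnity
    refine Eq.trans ?_ hc
    congr 1
  rw [hcard]
  ring

end Root

section Sum

variable (l : ℕ) [Fact l.Prime] (L : IntermediateField ℚ (AlgebraicClosure ℚ)) [NumberField L]

/-- The sum formula. -/
theorem sum_finrank_KL (S : Finset (HeightOneSpectrum (𝓞 L)))
    (hS : ∀ v, v ∈ S ↔ (l : 𝓞 L) ∈ v.asIdeal) (g : HeightOneSpectrum (𝓞 L) → GalGlob)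
    (hg : ∀ v ∈ S, Frob.below (𝓞 L) (g v • padicPlace l) = v.asIdeal) :
    ∑ v ∈ S, Module.finrank ℚ_[l] (KL l L (g v)) = Module.finrank ℚ L := by
  classical
  have hl : l.Prime := Fact.out
  have hfi : L.fixingSubgroup.FiniteIndex := finiteIndex_fixingSubgroup L
  have hXf : Finite (GalGlob ⧸ L.fixingSubgroup) := Subgroup.finite_quotient_of_finiteIndex
  have hX : Nat.card (GalGlob ⧸ L.fixingSubgroup) = Module.finrank ℚ L := by
    rw [IntermediateField.finrank_eq_fixingSubgroup_index]; rfl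
  -- `below` is unchanged by elements of `G_L`
  have hinv : ∀ (s : GalGlob), s ∈ L.fixingSubgroup → ∀ A : ValuationSubring (AlgebraicClosure ℚ),
      Frob.below (𝓞 L) (s • A) = Frob.below (𝓞 L) A := by
    intro s hs A
    ext a
    rw [Frob.mem_below, Frob.mem_below, Frob.mem_nonunits_smul_iff]
    have : s⁻¹ (algebraMap (𝓞 L) (AlgebraicClosure ℚ) a) = algebraMap (𝓞 L) (AlgebraicClosure ℚ) a :=
      (IntermediateField.mem_fixingSubgroup_iff _ _).1 (inv_mem hs) _ (a : L).2
    rw [this]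
  -- the place attached to a coset
  have hex : ∀ h : GalGlob, ∃ v : HeightOneSpectrum (𝓞 L),
      Frob.below (𝓞 L) (h⁻¹ • padicPlace l) = v.asIdeal := fun h =>
    exists_heightOne_below l (smul_padicPlace_liesOverPrime l h⁻¹)
  choose π₀ hπ₀ using hex
  let π : GalGlob ⧸ L.fixingSubgroup → HeightOneSpectrum (𝓞 L) :=
    Quotient.lift π₀ (by
      intro a b hab
      have h1 : a⁻¹ * b ∈ L.fixingSubgroup := QuotientGroup.leftRel_apply.1 hab
      apply HeightOneSpectrum.ext
      rw [← hπ₀, ← hπ₀]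
      have h2 : a⁻¹ • padicPlace l = (a⁻¹ * b) • (b⁻¹ • padicPlace l) := by
        rw [smul_smul]; congr 1; group
      rw [h2, hinv _ h1])
  have hπ : ∀ h : GalGlob, π (h : GalGlob ⧸ L.fixingSubgroup) = π₀ h := fun h => rfl
  have hmapS : ∀ x : GalGlob ⧸ L.fixingSubgroup, π x ∈ S := by
    intro x
    induction x using QuotientGroup.induction_on with | _ h => ?_
    rw [hπ, hS, ← hπ₀]
    exact Frob.natCast_mem_below (smul_padicPlace_liesOverPrime l h⁻¹)
  -- the fibres
  have hfib : ∀ v ∈ S, Nat.card {x : GalGlob ⧸ L.fixingSubgroup // π x = v} =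
      Module.finrank ℚ_[l] (KL l L (g v)) := by
    intro v hv
    have hKfin : (KL l L (g v)).fixingSubgroup.index = Module.finrank ℚ_[l] (KL l L (g v)) :=
      (IntermediateField.finrank_eq_fixingSubgroup_index _ (KL l L (g v))).symm
    rw [← hKfin]
    have hwd : ∀ τ τ' : GalLoc l, (((localGaloisToGlobal l τ * (g v)⁻¹ : GalGlob) :
        GalGlob ⧸ L.fixingSubgroup) = ((localGaloisToGlobal l τ' * (g v)⁻¹ : GalGlob) :
        GalGlob ⧸ L.fixingSubgroup)) ↔ τ⁻¹ * τ' ∈ (KL l L (g v)).fixingSubgroup := by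
      intro τ τ'
      rw [QuotientGroup.eq, ← comap_rg_fixingSubgroup, Subgroup.mem_comap, rg_apply, map_mul,
        map_inv]
      have : (localGaloisToGlobal l τ * (g v)⁻¹)⁻¹ * (localGaloisToGlobal l τ' * (g v)⁻¹) =
        g v * ((localGaloisToGlobal l τ)⁻¹ * localGaloisToGlobal l τ') * (g v)⁻¹ := by group
      rw [this]
    have hbel : ∀ τ : GalLoc l, Frob.below (𝓞 L)
        ((localGaloisToGlobal l τ * (g v)⁻¹)⁻¹ • padicPlace l) = v.asIdeal := by
      intro τ
      rw [← hg v hv]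
      have h1 : (localGaloisToGlobal l τ)⁻¹ • padicPlace l = padicPlace l := by
        have := localGaloisToGlobal_mem_decompositionSubgroup l τ⁻¹
        rw [map_inv] at this
        exact this
      rw [mul_inv_rev, inv_inv, mul_smul, h1]
    let F : GalLoc l ⧸ (KL l L (g v)).fixingSubgroup → {x : GalGlob ⧸ L.fixingSubgroup // π x = v} :=
      Quotient.lift (fun τ => ⟨((localGaloisToGlobal l τ * (g v)⁻¹ : GalGlob) :
        GalGlob ⧸ L.fixingSubgroup), by
          rw [hπ]
          apply HeightOneSpectrum.ext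
          rw [← hπ₀, hbel]⟩) (by
        intro τ τ' h
        exact Subtype.ext ((hwd τ τ').2 (QuotientGroup.leftRel_apply.1 h)))
    have hF : Function.Bijective F := by
      constructor
      · intro a b hab
        induction a using QuotientGroup.induction_on with | _ τ => ?_
        induction b using QuotientGroup.induction_on with | _ τ' => ?_
        exact QuotientGroup.eq.2 ((hwd τ τ').1 (congrArg Subtype.val hab))
      · rintro ⟨x, hx⟩
        induction x using QuotientGroup.induction_on with | _ h => ?_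
        rw [hπ] at hx
        have h1 : Frob.below (𝓞 L) (g v • padicPlace l) =
            Frob.below (𝓞 L) (h⁻¹ • padicPlace l) := by
          rw [hg v hv, hπ₀, hx]
        have : IsGalois L (AlgebraicClosure ℚ) := IsGalois.tower_top_of_isGalois ℚ L _
        obtain ⟨s, hs⟩ := Frob.exists_smul_eq_of_below_eq (K := L) hl
          (smul_padicPlace_liesOverPrime l (g v)) h1
        let s' : GalGlob := s.restrictScalars ℚ
        have hs' : s' ∈ L.fixingSubgroup := by
          rw [IntermediateField.mem_fixingSubgroup_iff]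
          intro x hx
          exact s.commutes ⟨x, hx⟩
        have hs2 : h⁻¹ • padicPlace l = s' • g v • padicPlace l := hs
        have h3 : h * s' * g v ∈ (padicPlace l).decompositionSubgroup ℚ := by
          show (h * s' * g v) • padicPlace l = padicPlace l
          rw [mul_smul, mul_smul, ← hs2, smul_inv_smul]
        rw [← range_localGaloisToGlobal] at h3
        obtain ⟨τ, hτ⟩ := h3
        refine ⟨(τ : GalLoc l ⧸ (KL l L (g v)).fixingSubgroup), ?_⟩
        apply Subtype.ext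
        show ((localGaloisToGlobal l τ * (g v)⁻¹ : GalGlob) : GalGlob ⧸ L.fixingSubgroup) = _
        rw [QuotientGroup.eq, hτ]
        have h4 : (h * s' * g v * (g v)⁻¹)⁻¹ * h = s'⁻¹ := by group
        rw [h4]
        exact inv_mem hs'
    exact (Nat.card_congr (Equiv.ofBijective F hF)).symm
  -- count
  have := Fintype.ofFinite (GalGlob ⧸ L.fixingSubgroup)
  rw [← hX, Nat.card_eq_fintype_card, ← Finset.card_univ,
    Finset.card_eq_sum_card_fiberwise (f := π) (t := S) (fun x _ => hmapS x)]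
  refine Finset.sum_congr rfl fun v hv => ?_
  rw [← hfib v hv, Nat.card_eq_fintype_card, Fintype.card_subtype]

/-- (LP3), away from `p` -/
theorem lp3 {p : ℕ} [Fact p.Prime] {ζ : AlgebraicClosure ℚ}
    (hζ : IsPrimitiveRoot ζ p) (hζL : ζ ∈ L) {l : ℕ} (hl : l.Prime) (hpl : p ≠ l)
    {A : ValuationSubring (AlgebraicClosure ℚ)} (hA : A.LiesOverPrime l) :
    (PA p A L).index = p ^ 2 := by
  have : Fact l.Prime := ⟨hl⟩
  obtain ⟨g, rfl⟩ := exists_eq_smul_padicPlace l hA
  rw [index_PA_eq l L hζ hζL, if_neg hpl, mul_one]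

/-- (LP3), above `p` -/
theorem lp3_prod {p : ℕ} [Fact p.Prime] {ζ : AlgebraicClosure ℚ}
    (hζ : IsPrimitiveRoot ζ p) (hζL : ζ ∈ L) (S : Finset (HeightOneSpectrum (𝓞 L)))
    (hS : ∀ v, v ∈ S ↔ (p : 𝓞 L) ∈ v.asIdeal)
    (A : HeightOneSpectrum (𝓞 L) → ValuationSubring (AlgebraicClosure ℚ))
    (hA : ∀ v ∈ S, Frob.below (𝓞 L) (A v) = v.asIdeal) :
    ∏ v ∈ S, (PA p (A v) L).index = p ^ (2 * S.card + Module.finrank ℚ L) := by
  classical
  have hlies : ∀ v ∈ S, (A v).LiesOverPrime p := by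
    intro v hv
    apply Frob.liesOverPrime_of_mem_below (R := 𝓞 L)
    rw [hA v hv]
    exact (hS v).1 hv
  have hex : ∀ v : HeightOneSpectrum (𝓞 L), ∃ g : GalGlob, v ∈ S → A v = g • padicPlace p := by
    intro v
    by_cases hv : v ∈ S
    · obtain ⟨g, hg⟩ := exists_eq_smul_padicPlace p (hlies v hv)
      exact ⟨g, fun _ => hg⟩
    · exact ⟨1, fun h => absurd h hv⟩
  choose g hg using hex
  have h1 : ∀ v ∈ S, (PA p (A v) L).index = p ^ (2 + Module.finrank ℚ_[p] (KL p L (g v))) := by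
    intro v hv
    rw [hg v hv, index_PA_eq p L hζ hζL, if_pos rfl, pow_add]
  rw [Finset.prod_congr rfl h1, Finset.prod_pow_eq_pow_sum, Finset.sum_add_distrib,
    sum_finrank_KL p L S hS g (fun v hv => by rw [← hg v hv]; exact hA v hv)]
  simp [mul_comm]

end Sum

end Fermat.Agent.CFT.Loc
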