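import Fermat.Agent.CFT.Loc.UnrH2
import Fermat.Agent.CFT.Transport
import Fermat.Agent.Frob.Places

/-!
# Dictionary between decomposition groups in `Gal(ℚ̄/ℚ)` and local Galois groups

For `g : Gal(ℚ̄/ℚ)` we have the embedding `jg l g = ι ∘ g⁻¹ : ℚ̄ → ℚ̄_l`, whose place is
`g • padicPlace l`, and `rg l g τ = g * r τ * g⁻¹`.
-/

set_option autoImplicit false

open Polynomial IntermediateField
open scoped Pointwise

namespace Fermat.Agent.CFT.Loc

variable (l : ℕ) [Fact l.Prime]

/-- the embedding attached to `g` -/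
noncomputable def jg (g : GalGlob) : AlgebraicClosure ℚ →ₐ[ℚ] PadicAlgCl l :=
  (padicEmbedding l).comp ((g⁻¹ : GalGlob) : AlgebraicClosure ℚ →ₐ[ℚ] AlgebraicClosure ℚ)

lemma jg_apply (g : GalGlob) (x : AlgebraicClosure ℚ) :
    jg l g x = padicEmbedding l (g⁻¹ x) := rfl

lemma jg_injective (g : GalGlob) : Function.Injective (jg l g) := (jg l g).toRingHom.injective

/-- the local Galois group as a subgroup of the global one, attached to `g` -/
noncomputable def rg (g : GalGlob) : GalLoc l →* GalGlob :=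
  (MulAut.conj g).toMonoidHom.comp (localGaloisToGlobal l)

lemma rg_apply (g : GalGlob) (τ : GalLoc l) :
    rg l g τ = g * localGaloisToGlobal l τ * g⁻¹ := rfl

lemma jg_rg (g : GalGlob) (τ : GalLoc l) (x : AlgebraicClosure ℚ) :
    jg l g (rg l g τ x) = τ (jg l g x) := by
  rw [jg_apply, jg_apply, rg_apply, ← padicEmbedding_localGaloisToGlobal]
  congr 1
  exact inv_smul_smul g (localGaloisToGlobal l τ (g⁻¹ x))

lemma rg_injective (g : GalGlob) : Function.Injective (rg l g) :=
  (MulAut.conj g).injective.comp (localGaloisToGlobal_injective l)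

lemma range_rg (g : GalGlob) :
    (rg l g).range = (g • padicPlace l).decompositionSubgroup ℚ := by
  ext σ
  rw [Frob.mem_decompositionSubgroup_smul_iff, ← range_localGaloisToGlobal]
  constructor
  · rintro ⟨τ, rfl⟩
    exact ⟨τ, by rw [rg_apply]; group⟩
  · rintro ⟨τ, hτ⟩
    exact ⟨τ, by rw [rg_apply, hτ]; group⟩

lemma rg_mem_decomposition (g : GalGlob) (τ : GalLoc l) :
    rg l g τ ∈ (g • padicPlace l).decompositionSubgroup ℚ := by
  rw [← range_rg]; exact ⟨τ, rfl⟩

lemma mem_smul_padicPlace_iff (g : GalGlob) (x : AlgebraicClosure ℚ) :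
    x ∈ g • padicPlace l ↔ ‖jg l g x‖ ≤ 1 := by
  rw [ValuationSubring.mem_pointwise_smul_iff_inv_smul_mem, mem_padicPlace_iff]; rfl

lemma mem_nonunits_smul_padicPlace_iff (g : GalGlob) (x : AlgebraicClosure ℚ) :
    x ∈ (g • padicPlace l).nonunits ↔ ‖jg l g x‖ < 1 := by
  rw [Frob.mem_nonunits_smul_iff, mem_padicPlace_nonunits]; rfl

lemma smul_padicPlace_liesOverPrime (g : GalGlob) : (g • padicPlace l).LiesOverPrime l :=
  Frob.liesOverPrime_smul (padicPlace_liesOverPrime l) g

lemma exists_eq_smul_padicPlace {A : ValuationSubring (AlgebraicClosure ℚ)}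
    (hA : A.LiesOverPrime l) : ∃ g : GalGlob, A = g • padicPlace l :=
  Frob.exists_smul_eq (Fact.out : l.Prime) (padicPlace_liesOverPrime l) hA

lemma rg_mem_inertia_iff (g : GalGlob) (τ : GalLoc l) :
    rg l g τ ∈ (g • padicPlace l).inertiaSubgroupIn ℚ ↔ τ ∈ inertiaLoc l := by
  rw [Frob.mem_inertiaSubgroupIn_smul_iff, rg_apply,
    ← localGaloisToGlobal_mem_inertia_iff]
  have : g⁻¹ * (g * localGaloisToGlobal l τ * g⁻¹) * g = localGaloisToGlobal l τ := by group
  rw [this]

variable (L : IntermediateField ℚ (AlgebraicClosure ℚ))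

/-- the local field attached to `L` and `g` -/
noncomputable def KL (g : GalGlob) : IntermediateField ℚ_[l] (PadicAlgCl l) :=
  IntermediateField.adjoin ℚ_[l] (jg l g '' L)

lemma jg_mem_KL (g : GalGlob) {x : AlgebraicClosure ℚ} (hx : x ∈ L) : jg l g x ∈ KL l L g :=
  subset_adjoin _ _ ⟨x, hx, rfl⟩

lemma comap_rg_fixingSubgroup (g : GalGlob) :
    L.fixingSubgroup.comap (rg l g) = (KL l L g).fixingSubgroup := by
  ext τ
  rw [Subgroup.mem_comap, IntermediateField.mem_fixingSubgroup_iff, KL,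
    mem_fixingSubgroup_adjoin_iff]
  constructor
  · rintro h _ ⟨x, hx, rfl⟩
    rw [← jg_rg, h x hx]
  · intro h x hx
    apply jg_injective l g
    rw [jg_rg]
    exact h _ ⟨x, hx, rfl⟩

lemma KL_eq (g : GalGlob) : KL l L g = IntermediateField.adjoin ℚ_[l]
    (padicEmbedding l '' (L.map ((g⁻¹ : GalGlob) :
      AlgebraicClosure ℚ →ₐ[ℚ] AlgebraicClosure ℚ) : Set (AlgebraicClosure ℚ))) := by
  rw [KL]
  congr 1
  ext y
  constructor
  · rintro ⟨x, hx, rfl⟩
    exact ⟨g⁻¹ x, ⟨x, hx, rfl⟩, rfl⟩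
  · rintro ⟨_, ⟨x, hx, rfl⟩, rfl⟩
    exact ⟨x, hx, rfl⟩

instance finiteDimensional_KL (g : GalGlob) [FiniteDimensional ℚ L] :
    FiniteDimensional ℚ_[l] (KL l L g) := by
  have : FiniteDimensional ℚ (L.map ((g⁻¹ : GalGlob) :
      AlgebraicClosure ℚ →ₐ[ℚ] AlgebraicClosure ℚ)) :=
    LinearEquiv.finiteDimensional (L.equivMap _).toLinearEquiv
  rw [KL_eq]
  exact finiteDimensional_adjoin l _

/-- the decomposition group of a place in `Gal(ℚ̄/L)` -/
noncomputable abbrev UA (A : ValuationSubring (AlgebraicClosure ℚ))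
    (L : IntermediateField ℚ (AlgebraicClosure ℚ)) : Subgroup GalGlob :=
  A.decompositionSubgroup ℚ ⊓ L.fixingSubgroup

lemma rg_mem_UA_iff (g : GalGlob) (τ : GalLoc l) :
    rg l g τ ∈ UA (g • padicPlace l) L ↔ τ ∈ (KL l L g).fixingSubgroup := by
  rw [← comap_rg_fixingSubgroup, Subgroup.mem_comap]
  exact ⟨fun h => h.2, fun h => ⟨rg_mem_decomposition l g τ, h⟩⟩

/-- the isomorphism between the local Galois group of `K = ℚ_l(j L)` and the decomposition group. -/
noncomputable def eU (g : GalGlob) :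
    (KL l L g).fixingSubgroup ≃* UA (g • padicPlace l) L :=
  MulEquiv.ofBijective
    (((rg l g).comp (KL l L g).fixingSubgroup.subtype).codRestrict (UA (g • padicPlace l) L)
      (fun τ => (rg_mem_UA_iff l L g τ).2 τ.2))
    (by
      constructor
      · intro τ τ' h
        exact Subtype.ext (rg_injective l g (congrArg Subtype.val h))
      · rintro ⟨σ, hσ⟩
        have h1 : σ ∈ (rg l g).range := by rw [range_rg]; exact hσ.1
        obtain ⟨τ, rfl⟩ := h1
        exact ⟨⟨τ, (rg_mem_UA_iff l L g τ).1 hσ⟩, Subtype.ext rfl⟩)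

@[simp] lemma coe_eU (g : GalGlob) (τ : (KL l L g).fixingSubgroup) :
    (eU l L g τ : GalGlob) = rg l g τ := rfl

lemma jg_eU (g : GalGlob) (τ : (KL l L g).fixingSubgroup) (x : AlgebraicClosure ℚ) :
    jg l g ((eU l L g τ : GalGlob) x) = (τ : GalLoc l) (jg l g x) := jg_rg l g τ x

/-- levels of the decomposition group -/
noncomputable abbrev levU (A : ValuationSubring (AlgebraicClosure ℚ))
    (L : IntermediateField ℚ (AlgebraicClosure ℚ)) : Levels (UA A L) :=
  (galLevels ℚ (AlgebraicClosure ℚ)).restrict (UA A L)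

/-- `eU` matches up the levels -/
theorem homeo_eU (g : GalGlob) :
    Levels.Homeo (levK l (KL l L g)) (levU (g • padicPlace l) L) (eU l L g) := by
  intro H
  constructor
  · rintro ⟨H₀, hH₀, h⟩
    obtain ⟨F, hF, hFH⟩ := mem_galLevels.1 hH₀
    refine ⟨(KL l F g).fixingSubgroup, fixingSubgroup_mem_galLevels _, ?_⟩
    intro τ hτ
    rw [Subgroup.mem_subgroupOf, ← comap_rg_fixingSubgroup, Subgroup.mem_comap] at hτ
    exact h (show (eU l L g τ : GalGlob) ∈ H₀ from hFH hτ)
  · rintro ⟨H₀, hH₀, h⟩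
    obtain ⟨E, hE, hEH⟩ := mem_galLevels.1 hH₀
    obtain ⟨F, hF, hFE⟩ := exists_comap_fixingSubgroup_le l E
    refine ⟨(F.map (g : AlgebraicClosure ℚ →ₐ[ℚ] AlgebraicClosure ℚ)).fixingSubgroup, ?_, ?_⟩
    · have : FiniteDimensional ℚ (F.map (g : AlgebraicClosure ℚ →ₐ[ℚ] AlgebraicClosure ℚ)) :=
        LinearEquiv.finiteDimensional (F.equivMap _).toLinearEquiv
      exact fixingSubgroup_mem_galLevels _
    · intro u hu
      obtain ⟨τ, rfl⟩ := (eU l L g).surjective u
      apply h
      show (τ : GalLoc l) ∈ H₀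
      apply hEH
      rw [← hFE, Subgroup.mem_comap]
      rw [Subgroup.mem_subgroupOf, coe_eU, IntermediateField.mem_fixingSubgroup_iff] at hu
      rw [IntermediateField.mem_fixingSubgroup_iff]
      intro x hx
      have h1 := hu (g x) ⟨x, hx, rfl⟩
      rw [rg_apply] at h1
      have h2 : (g * localGaloisToGlobal l τ * g⁻¹) (g x) = g (localGaloisToGlobal l τ x) := by
        show g (localGaloisToGlobal l τ (g⁻¹ (g x))) = _
        congr 2
        exact inv_smul_smul g x
      rw [h2] at h1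
      exact g.injective h1

end Fermat.Agent.CFT.Loc
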