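import Mathlib
import Fermat.Prelude.Def_GaloisRep_CompletionBridge
import Fermat.Agent.Frob.Basic

/-!
# Approximation of local fields by global fields

`ι = padicEmbedding l : ℚ̄ → ℚ̄_l` has dense image; every finite extension of `ℚ_l` is generated by
an element of `ι(ℚ̄)` (Krasner); `r = localGaloisToGlobal l` is injective, its image is the
decomposition group of `padicPlace l`, and it matches up inertia groups.
-/

set_option autoImplicit false

open Polynomial IntermediateField

namespace Fermat.Agent.CFT.Loc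

variable (l : ℕ) [Fact l.Prime]

/-- the local Galois group -/
abbrev GalLoc := PadicAlgCl l ≃ₐ[ℚ_[l]] PadicAlgCl l

/-- the global Galois group -/
abbrev GalGlob := AlgebraicClosure ℚ ≃ₐ[ℚ] AlgebraicClosure ℚ

/-- primitive element theorem for finite intermediate fields -/
theorem exists_mem_adjoin_simple_eq {K L : Type*} [Field K] [Field L] [Algebra K L] [CharZero K]
    (F : IntermediateField K L) [FiniteDimensional K F] : ∃ α ∈ F, K⟮α⟯ = F := by
  obtain ⟨α, hα⟩ := Field.exists_primitive_element K F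
  refine ⟨α, α.2, ?_⟩
  have h := congrArg (fun K' => K'.map F.val) hα
  rw [← AlgHom.fieldRange_eq_map, IntermediateField.fieldRange_val] at h
  refine Eq.trans ?_ h
  rw [adjoin_map, Set.image_singleton]
  rfl

/-- membership in the fixing subgroup of a simple extension -/
theorem mem_fixingSubgroup_adjoin_iff {K L : Type*} [Field K] [Field L] [Algebra K L]
    (s : Set L) (τ : L ≃ₐ[K] L) : τ ∈ (IntermediateField.adjoin K s).fixingSubgroup ↔
      ∀ x ∈ s, τ x = x := by
  rw [IntermediateField.mem_fixingSubgroup_iff]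
  constructor
  · intro h x hx; exact h x (subset_adjoin _ _ hx)
  · intro h x hx
    have : IntermediateField.adjoin K s ≤
        IntermediateField.fixedField (Subgroup.zpowers τ) := by
      rw [adjoin_le_iff]
      intro y hy
      show _ ∈ IntermediateField.fixedField (Subgroup.zpowers τ)
      rw [IntermediateField.mem_fixedField_iff]
      intro f hf
      have hτ : τ ∈ MulAction.stabilizer (L ≃ₐ[K] L) y := h y hy
      exact (Subgroup.zpowers_le.2 hτ hf : _ ∈ MulAction.stabilizer _ y)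
    exact (IntermediateField.mem_fixedField_iff _ _).1 (this hx) _ (Subgroup.mem_zpowers _)

theorem mem_fixingSubgroup_adjoin_simple_iff {K L : Type*} [Field K] [Field L] [Algebra K L]
    (x : L) (τ : L ≃ₐ[K] L) : τ ∈ K⟮x⟯.fixingSubgroup ↔ τ x = x := by
  rw [mem_fixingSubgroup_adjoin_iff]; simp

variable {l}

lemma norm_apply (τ : GalLoc l) (y : PadicAlgCl l) : ‖τ y‖ = ‖y‖ := by
  have := nnnorm_padicAlgCl_algEquiv l τ y
  exact congrArg NNReal.toReal this

variable (l)

/-- Rational numbers are dense in the `l`-adic numbers. -/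
lemma denseRange_rat : DenseRange (algebraMap ℚ ℚ_[l]) := by
  have := Padic.denseRange_ratCast l
  have h : (algebraMap ℚ ℚ_[l] : ℚ → ℚ_[l]) = Rat.cast := by
    ext x; exact eq_ratCast _ x
  rw [h]; exact this

/-- Approximation of an element algebraic of degree `n` over `ℚ_l` by a root of
a monic rational polynomial of degree `n`. -/
theorem exists_approx (α : PadicAlgCl l) {δ : ℝ} (hδ : 0 < δ) :
    ∃ (b : AlgebraicClosure ℚ) (g : ℚ[X]), g.Monic ∧ g.natDegree = (minpoly ℚ_[l] α).natDegree ∧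
      aeval b g = 0 ∧ ‖α - padicEmbedding l b‖ < δ := by
  set f := minpoly ℚ_[l] α with hf
  have hint : IsIntegral ℚ_[l] α := (Algebra.IsAlgebraic.isAlgebraic α).isIntegral
  have fmon : f.Monic := minpoly.monic hint
  have fdeg : 0 < f.natDegree := minpoly.natDegree_pos hint
  have hM : (0:ℝ) < max ‖α‖ 1 := lt_max_of_lt_right one_pos
  set ε : ℝ := (δ / (max ‖α‖ 1)) ^ f.natDegree / (f.natDegree + 1) with hε
  have hεpos : ε > 0 := by positivity
  obtain ⟨g, gmon, gdeg, gcoeff⟩ :=
    exists_monic_and_natDegree_eq_and_norm_map_algebraMap_coeff_sub_lt (denseRange_rat l) fmon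
      hεpos
  have hsplit : ((g.map (algebraMap ℚ ℚ_[l])).map (algebraMap ℚ_[l] (PadicAlgCl l))).Splits :=
    IsAlgClosed.splits _
  obtain ⟨b, hb, hab⟩ := exists_aroots_norm_sub_lt_of_norm_coeff_sub_lt
      hεpos (minpoly.aeval ℚ_[l] α) fmon (gmon.map _) (gdeg ▸ (g.natDegree_map _)) gcoeff hsplit
  have hab : ‖α - b‖ < δ := by
    rw [← hf, hε, ← Real.rpow_natCast, ← mul_comm_div, div_self, one_mul,
        ← Real.rpow_mul (div_pos hδ (by positivity)).le, mul_inv_cancel₀] at hab
    · simpa [mul_assoc, div_mul_cancel₀ _ (by positivity : (max ‖α‖ 1) > 0).ne'] using hab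
    · exact_mod_cast fdeg.ne'
    · positivity
  have hgb : aeval b g = 0 := by
    have := (mem_aroots'.1 hb).2
    rwa [aeval_map_algebraMap] at this
  -- `b` lies in the image of `ι`
  have hsp : (g.map (algebraMap ℚ (AlgebraicClosure ℚ))).Splits := IsAlgClosed.splits _
  obtain ⟨b', hb'⟩ : ∃ b' : AlgebraicClosure ℚ, padicEmbedding l b' = b := by
    have h1 : b ∈ g.rootSet (PadicAlgCl l) := by
      rw [mem_rootSet]
      exact ⟨gmon.ne_zero, hgb⟩
    rw [← hsp.image_rootSet (padicEmbedding l)] at h1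
    obtain ⟨b', _, h⟩ := h1
    exact ⟨b', h⟩
  refine ⟨b', g, gmon, gdeg.symm, ?_, by rwa [hb']⟩
  apply (padicEmbedding l).toRingHom.injective
  rw [map_zero]
  have : (padicEmbedding l) (aeval b' g) = aeval (padicEmbedding l b') g :=
    (aeval_algHom_apply (padicEmbedding l) b' g).symm
  rw [hb', hgb] at this
  exact this

theorem denseRange_padicEmbedding : DenseRange (padicEmbedding l) := by
  rw [Metric.denseRange_iff]
  intro x r hr
  obtain ⟨b, _, _, _, _, h⟩ := exists_approx l x hr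
  exact ⟨b, by rwa [dist_eq_norm]⟩

/-- **Krasner**: every element of `ℚ̄_l` is generated over `ℚ_l` by an algebraic number of
degree at most (hence equal to) its degree. -/
theorem exists_adjoin_simple_eq (α : PadicAlgCl l) :
    ∃ (b : AlgebraicClosure ℚ), ℚ_[l]⟮padicEmbedding l b⟯ = ℚ_[l]⟮α⟯ ∧
      (minpoly ℚ b).natDegree = (minpoly ℚ_[l] α).natDegree := by
  have hint : IsIntegral ℚ_[l] α := (Algebra.IsAlgebraic.isAlgebraic α).isIntegral
  -- distance to the other conjugates
  obtain ⟨δ, hδ, hconj⟩ : ∃ δ : ℝ, 0 < δ ∧ ∀ x' : PadicAlgCl l, IsConjRoot ℚ_[l] α x' → α ≠ x' →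
      δ ≤ ‖α - x'‖ := by
    classical
    let S : Finset (PadicAlgCl l) :=
      ((minpoly ℚ_[l] α).rootSet (PadicAlgCl l)).toFinset.filter (fun x => α ≠ x)
    have hmem : ∀ x', IsConjRoot ℚ_[l] α x' → α ≠ x' → x' ∈ S := by
      intro x' hx' hne
      simp only [S, Finset.mem_filter, Set.mem_toFinset]
      exact ⟨(isConjRoot_iff_mem_minpoly_rootSet hint).1 hx', hne⟩
    by_cases hS : S.Nonempty
    · refine ⟨(S.image (fun x => ‖α - x‖)).min' (Finset.image_nonempty.mpr hS), ?_, ?_⟩
      · have := Finset.min'_mem (S.image (fun x => ‖α - x‖)) (Finset.image_nonempty.mpr hS)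
        rw [Finset.mem_image] at this
        obtain ⟨x, hx, hx'⟩ := this
        rw [← hx', norm_pos_iff, sub_ne_zero]
        exact (Finset.mem_filter.1 hx).2
      · intro x' h1 h2
        exact Finset.min'_le _ _ (Finset.mem_image_of_mem _ (hmem x' h1 h2))
    · exact ⟨1, one_pos, fun x' h1 h2 => absurd ⟨x', hmem x' h1 h2⟩ hS⟩
  obtain ⟨b, g, gmon, gdeg, hgb, hb⟩ := exists_approx l α hδ
  set β := padicEmbedding l b with hβ
  have hβint : IsIntegral ℚ_[l] β := (Algebra.IsAlgebraic.isAlgebraic β).isIntegral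
  have hmem : α ∈ ℚ_[l]⟮β⟯ := by
    refine IsKrasner.krasner (minpoly.irreducible hint).separable (IsAlgClosed.splits _) hβint ?_
    intro x' h1 h2
    exact lt_of_lt_of_le hb (hconj x' h1 h2)
  have hle : ℚ_[l]⟮α⟯ ≤ ℚ_[l]⟮β⟯ := by
    rw [adjoin_simple_le_iff]; exact hmem
  have : FiniteDimensional ℚ_[l] ℚ_[l]⟮β⟯ := adjoin.finiteDimensional hβint
  have : FiniteDimensional ℚ_[l] ℚ_[l]⟮α⟯ := adjoin.finiteDimensional hint
  -- degrees
  have hgβ : aeval β g = 0 := by
    rw [hβ, aeval_algHom_apply, hgb, map_zero]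
  have hdvd : minpoly ℚ_[l] β ∣ g.map (algebraMap ℚ ℚ_[l]) := by
    apply minpoly.dvd
    rw [aeval_map_algebraMap]; exact hgβ
  have hdeg1 : (minpoly ℚ_[l] β).natDegree ≤ (minpoly ℚ_[l] α).natDegree := by
    have := natDegree_le_of_dvd hdvd (gmon.map _).ne_zero
    rwa [natDegree_map, gdeg] at this
  have heq : ℚ_[l]⟮α⟯ = ℚ_[l]⟮β⟯ := by
    apply IntermediateField.eq_of_le_of_finrank_le hle
    rw [adjoin.finrank hβint, adjoin.finrank hint]
    exact hdeg1
  refine ⟨b, heq.symm, ?_⟩
  have hbint : IsIntegral ℚ b := (Algebra.IsAlgebraic.isAlgebraic b).isIntegral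
  apply le_antisymm
  · rw [← gdeg]
    exact natDegree_le_of_dvd (minpoly.dvd ℚ b hgb) gmon.ne_zero
  · rw [← adjoin.finrank hint, heq, adjoin.finrank hβint]
    have h1 : minpoly ℚ_[l] β ∣ (minpoly ℚ b).map (algebraMap ℚ ℚ_[l]) := by
      apply minpoly.dvd
      rw [aeval_map_algebraMap, hβ, aeval_algHom_apply, minpoly.aeval, map_zero]
    have := natDegree_le_of_dvd h1 ((minpoly.monic hbint).map _).ne_zero
    rwa [natDegree_map] at this

/-- **Krasner**: every finite extension `E` of `ℚ_l` inside `ℚ̄_l` is `ℚ_l(ι b)` with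
`[ℚ(b) : ℚ] = [E : ℚ_l]`. -/
theorem exists_eq_adjoin (E : IntermediateField ℚ_[l] (PadicAlgCl l))
    [FiniteDimensional ℚ_[l] E] :
    ∃ (b : AlgebraicClosure ℚ), ℚ_[l]⟮padicEmbedding l b⟯ = E ∧
      Module.finrank ℚ ℚ⟮b⟯ = Module.finrank ℚ_[l] E := by
  obtain ⟨α, -, hα'⟩ := exists_mem_adjoin_simple_eq E
  obtain ⟨b, hb, hdeg⟩ := exists_adjoin_simple_eq l (α : PadicAlgCl l)
  refine ⟨b, hb.trans hα', ?_⟩
  have hbint : IsIntegral ℚ b := (Algebra.IsAlgebraic.isAlgebraic b).isIntegral
  have hint : IsIntegral ℚ_[l] (α : PadicAlgCl l) :=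
    (Algebra.IsAlgebraic.isAlgebraic (α : PadicAlgCl l)).isIntegral
  rw [adjoin.finrank hbint, hdeg, ← adjoin.finrank hint, hα']

end Fermat.Agent.CFT.Loc
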