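import Fermat.Agent.Frob.Basic
import Fermat.Agent.CFT.Loc.Krasner

/-!
# Only finitely many primes ramify
-/

set_option autoImplicit false

open Polynomial IntermediateField

namespace Fermat.Agent.CFT.Loc

/-- A nonzero algebraic integer is a unit at almost all places. -/
theorem exists_nat_of_integral {L : Type*} [Field L] [CharZero L] {δ : L}
    (hδ : IsIntegral ℤ δ) (hδ0 : δ ≠ 0) :
    ∃ c : ℕ, c ≠ 0 ∧ ∀ (l : ℕ), l.Prime → ∀ A : ValuationSubring L,
      A.LiesOverPrime l → δ ∈ A.nonunits → l ∣ c := by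
  let s : integralClosure ℤ L := ⟨δ, hδ⟩
  have hs : s ≠ 0 := fun h => hδ0 (congrArg Subtype.val h)
  have hs' : s ∈ nonZeroDivisors (integralClosure ℤ L) := mem_nonZeroDivisors_of_ne_zero hs
  have halg : IsAlgebraic ℤ s := (Algebra.IsIntegral.isIntegral (R := ℤ) s).isAlgebraic
  obtain ⟨r, hr, e, he⟩ := halg.exists_nonzero_dvd hs'
  refine ⟨r.natAbs, Int.natAbs_ne_zero.2 hr, fun l hl A hA hmem => ?_⟩
  by_contra hdvd
  have h1 : (r : L) = δ * (e : L) := by
    have := congrArg Subtype.val he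
    simpa [s] using this
  have h2 : ((r : ℤ) : L) ∈ A.nonunits := by
    rw [h1]
    have h5 := Frob.mem_of_isIntegral A e.2
    rw [ValuationSubring.mem_nonunits_iff] at hmem ⊢
    rw [map_mul]
    exact mul_lt_one_of_lt_of_le hmem ((A.valuation_le_one_iff _).2 h5)
  exact Frob.natCast_notMem_nonunits A hl hA (by rwa [← Int.natCast_dvd] at hdvd) h2

/-- Only finitely many primes ramify in a number field. -/
theorem exists_nat_ramified {L : Type*} [Field L] [CharZero L] [Algebra ℚ L] [IsGalois ℚ L]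
    (F : IntermediateField ℚ L) [FiniteDimensional ℚ F] :
    ∃ N : ℕ, N ≠ 0 ∧ ∀ l : ℕ, l.Prime → ¬ l ∣ N → ∀ A : ValuationSubring L,
      A.LiesOverPrime l → A.inertiaSubgroupIn ℚ ≤ F.fixingSubgroup := by
  classical
  obtain ⟨α, hαF, hα⟩ := exists_mem_adjoin_simple_eq F
  have halg : IsAlgebraic ℤ α := by
    have h1 : IsAlgebraic ℚ α := (Algebra.IsAlgebraic.isAlgebraic α)
    exact (IsFractionRing.isAlgebraic_iff ℤ ℚ L).2 h1
  obtain ⟨m, hm0, hm⟩ := halg.exists_integral_multiple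
  set β : L := m • α with hβ
  have hmL : (m : L) ≠ 0 := by exact_mod_cast hm0
  have hβα : α = (m : L)⁻¹ * β := by rw [hβ, zsmul_eq_mul]; field_simp
  -- the conjugates of `β`
  have hβint : IsIntegral ℚ β := (Algebra.IsAlgebraic.isAlgebraic β).isIntegral
  let R : Finset L := ((minpoly ℚ β).rootSet L).toFinset
  have hR : ∀ σ : L ≃ₐ[ℚ] L, σ β ∈ R := by
    intro σ
    rw [Set.mem_toFinset, mem_rootSet]
    refine ⟨minpoly.ne_zero hβint, ?_⟩
    have : aeval (σ β) (minpoly ℚ β) = σ (aeval β (minpoly ℚ β)) :=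
      aeval_algHom_apply (σ : L →ₐ[ℚ] L) β _
    rw [this, minpoly.aeval, map_zero]
  have hRint : ∀ σ : L ≃ₐ[ℚ] L, IsIntegral ℤ (σ β) := fun σ => hm.map (σ.toRingEquiv.toRingHom.toIntAlgHom)
  -- choose bounds for differences
  have hex : ∀ δ : L, ∃ c : ℕ, c ≠ 0 ∧ (IsIntegral ℤ δ → δ ≠ 0 → ∀ (l : ℕ), l.Prime →
      ∀ A : ValuationSubring L, A.LiesOverPrime l → δ ∈ A.nonunits → l ∣ c) := by
    intro δ
    by_cases h : IsIntegral ℤ δ ∧ δ ≠ 0
    · obtain ⟨c, hc, hc'⟩ := exists_nat_of_integral h.1 h.2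
      exact ⟨c, hc, fun _ _ => hc'⟩
    · exact ⟨1, one_ne_zero, fun h1 h2 => absurd ⟨h1, h2⟩ h⟩
  choose c hc0 hc using hex
  refine ⟨∏ x ∈ R, c (x - β), Finset.prod_ne_zero_iff.2 fun x _ => hc0 _, ?_⟩
  intro l hl hdvd A hA σ hσ
  rw [← hα, mem_fixingSubgroup_adjoin_simple_iff]
  have hfix : σ β = β := by
    by_contra hne
    apply hdvd
    have h1 : σ β - β ∈ A.nonunits :=
      ((Frob.mem_inertiaSubgroupIn_iff A σ).1 hσ).2 β (Frob.mem_of_isIntegral A hm)
    have h2 := hc (σ β - β) ((hRint σ).sub hm) (sub_ne_zero.2 hne) l hl A hA h1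
    exact h2.trans (Finset.dvd_prod_of_mem (fun x => c (x - β)) (hR σ))
  rw [hβα, map_mul, map_inv₀, map_intCast, hfix]

end Fermat.Agent.CFT.Loc
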