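import Fermat.Agent.CFT.Loc.UnrGlob
import Fermat.Agent.CFT.Loc.RamFinite
import Fermat.Agent.CFT.GalInst
import Fermat.Agent.LocalF.H2Local

/-!
# The local package for class field theory

All statements are in terms of `UA A L = A.decompositionSubgroup ℚ ⊓ L.fixingSubgroup`, for a
number field `L ⊆ ℚ̄` containing the `p`-th roots of unity, with the levels `levU A L` induced from
the Krull topology of `Gal(ℚ̄/ℚ)`.
-/

set_option autoImplicit false
set_option linter.unusedSectionVars false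

open Polynomial IntermediateField NumberField IsDedekindDomain
open scoped Pointwise

namespace Fermat.Agent.CFT.Loc

variable {p : ℕ} [Fact p.Prime] {ζ : AlgebraicClosure ℚ}

section Dictionary

variable (l : ℕ) [Fact l.Prime] (L : IntermediateField ℚ (AlgebraicClosure ℚ))

lemma jg_primitive (hζ : IsPrimitiveRoot ζ p) (g : GalGlob) : IsPrimitiveRoot (jg l g ζ) p :=
  hζ.map_of_injective (jg_injective l g)

lemma smul_eq_of_mem_UA {A : ValuationSubring (AlgebraicClosure ℚ)} (u : UA A L)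
    {x : AlgebraicClosure ℚ} (hx : x ∈ L) : (u : GalGlob) • x = x :=
  (IntermediateField.mem_fixingSubgroup_iff _ _).1 u.2.2 x hx

/-- the Kummer character in the dictionary -/
lemma kummer_eU (hζ : IsPrimitiveRoot ζ p) (g : GalGlob)
    {y : AlgebraicClosure ℚ} (hy0 : y ≠ 0) (hy : y ^ p ∈ L) (τ : (KL l L g).fixingSubgroup) :
    kummer p (jg l g ζ) (jg l g y) τ = kummer p ζ y (eU l L g τ : GalGlob) := by
  have : NeZero p := ⟨(Fact.out : p.Prime).ne_zero⟩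
  apply kummer_unique' (jg_primitive l hζ g)
  · exact (_root_.map_ne_zero _).2 hy0
  · have h1 := kummer_spec hζ hy0 (g := (eU l L g τ : GalGlob))
      (smul_eq_of_mem_UA L (eU l L g τ) hy)
    have h2 := congrArg (jg l g) h1
    rw [map_mul, map_pow] at h2
    rw [← h2]
    exact (jg_eU l L g τ y).symm

/-- cup products of Kummer characters in the dictionary -/
lemma cup_mem_B2_iff_loc (hζ : IsPrimitiveRoot ζ p) (g : GalGlob)
    {y w : AlgebraicClosure ℚ} (hy0 : y ≠ 0) (hy : y ^ p ∈ L) (hw0 : w ≠ 0) (hw : w ^ p ∈ L) :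
    cup (fun u : UA (g • padicPlace l) L => kummer p ζ y (u : GalGlob))
        (fun u => kummer p ζ w (u : GalGlob)) ∈
      B2 (levU (g • padicPlace l) L) (triv p (UA (g • padicPlace l) L)) ↔
    cup (fun τ : (KL l L g).fixingSubgroup => kummer p (jg l g ζ) (jg l g y) τ)
        (fun τ => kummer p (jg l g ζ) (jg l g w) τ) ∈
      B2 (levK l (KL l L g)) (triv p (KL l L g).fixingSubgroup) := by
  rw [(homeo_eU l L g).mem_B2_iff (ρ' := triv p (KL l L g).fixingSubgroup) (fun _ _ => rfl)]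
  have : (fun τ τ' => cup (fun u : UA (g • padicPlace l) L => kummer p ζ y (u : GalGlob))
        (fun u => kummer p ζ w (u : GalGlob)) (eU l L g τ) (eU l L g τ')) =
      cup (fun τ : (KL l L g).fixingSubgroup => kummer p (jg l g ζ) (jg l g y) τ)
        (fun τ => kummer p (jg l g ζ) (jg l g w) τ) := by
    ext τ τ'
    rw [cup_apply, cup_apply, kummer_eU l L hζ g hy0 hy, kummer_eU l L hζ g hw0 hw]
  rw [this]

end Dictionary

section Package

variable (L : IntermediateField ℚ (AlgebraicClosure ℚ)) [NumberField L]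

/-- (LP1) -/
theorem lp1 (hζ : IsPrimitiveRoot ζ p) (hζL : ζ ∈ L) {l : ℕ} (hl : l.Prime)
    {A : ValuationSubring (AlgebraicClosure ℚ)} (hA : A.LiesOverPrime l) :
    Module.finrank (ZMod p) (H2 (levU A L) (triv p (UA A L))) = 1 := by
  have : Fact l.Prime := ⟨hl⟩
  obtain ⟨g, rfl⟩ := exists_eq_smul_padicPlace l hA
  rw [((homeo_eU l L g).H2Equiv (ρ := triv p _) (ρ' := triv p (KL l L g).fixingSubgroup)
    (fun _ _ => rfl)).finrank_eq]
  exact LocalF.finrank_H2_fixingSubgroup _ (jg_primitive l hζ g) (jg_mem_KL l L g hζL)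

/-- (LP2) -/
theorem lp2 (hζ : IsPrimitiveRoot ζ p) (hζL : ζ ∈ L) {l : ℕ} (hl : l.Prime)
    {A : ValuationSubring (AlgebraicClosure ℚ)} (hA : A.LiesOverPrime l)
    {y : AlgebraicClosure ℚ} (hy0 : y ≠ 0) (hy : y ^ p ∈ L)
    (H : ∀ w : AlgebraicClosure ℚ, w ≠ 0 → w ^ p ∈ L →
      cup (fun u : UA A L => kummer p ζ y (u : GalGlob)) (fun u => kummer p ζ w (u : GalGlob)) ∈
        B2 (levU A L) (triv p (UA A L))) (u : UA A L) :
    kummer p ζ y (u : GalGlob) = 0 := by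
  have : Fact l.Prime := ⟨hl⟩
  have : NeZero p := ⟨(Fact.out : p.Prime).ne_zero⟩
  obtain ⟨g, rfl⟩ := exists_eq_smul_padicPlace l hA
  obtain ⟨τ, rfl⟩ := (eU l L g).surjective u
  rw [← kummer_eU l L hζ g hy0 hy]
  have hζ' := jg_primitive l hζ g
  have hζK := jg_mem_KL l L g hζL
  refine LocalF.kummer_eq_zero_of_forall _ hζ' hζK ((_root_.map_ne_zero _).2 hy0)
    (by rw [← map_pow]; exact jg_mem_KL l L g hy) (fun β hβ0 hβ => ?_) τ
  -- replace `β` by an element coming from `L`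
  obtain ⟨x, hx, hx0, z, hz, hz0, hxz⟩ := exists_mul_pow_eq l L (Fact.out : p.Prime) g hβ
    (pow_ne_zero _ hβ0)
  obtain ⟨w, hw⟩ := IsAlgClosed.exists_pow_nat_eq x (Fact.out : p.Prime).pos
  have hw0 : w ≠ 0 := by
    rintro rfl
    rw [zero_pow (Fact.out : p.Prime).ne_zero] at hw
    exact hx0 hw.symm
  have h1 := (cup_mem_B2_iff_loc l L hζ g hy0 hy hw0 (by rw [hw]; exact hx)).1
    (H w hw0 (by rw [hw]; exact hx))
  convert h1 using 2
  ext τ'
  have hfix : ∀ {a : PadicAlgCl l}, a ∈ KL l L g → τ' • a = a := fun ha =>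
    apply_eq_of_mem τ'.2 ha
  have hjw : (jg l g w) ^ p = (β * z) ^ p := by rw [← map_pow, hw, hxz, mul_pow]
  have h2 : kummer p (jg l g ζ) (jg l g w) τ' = kummer p (jg l g ζ) (β * z) τ' :=
    kummer_eq_of_pow_eq hζ' ((_root_.map_ne_zero _).2 hw0) hjw (hfix hζK)
      (by rw [hjw, mul_pow]; exact hfix (mul_mem hβ (pow_mem hz p)))
  rw [h2, kummer_mul hζ' hβ0 hz0 (hfix hβ) (hfix (pow_mem hz p)),
    kummer_of_fixed hζ' hz0 (hfix hz), add_zero]

/-- the action of the fixing subgroup of a local field -/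
lemma kummer_LC_loc {l : ℕ} [Fact l.Prime] (K : IntermediateField ℚ_[l] (PadicAlgCl l))
    {ζ' : PadicAlgCl l} (hζ' : IsPrimitiveRoot ζ' p) (hζK : ζ' ∈ K) {β : PadicAlgCl l}
    (hβ0 : β ≠ 0) (hβ : β ^ p ∈ K) :
    (levK l K).LC (fun τ : K.fixingSubgroup => kummer p ζ' β τ) := by
  have : NeZero p := ⟨(Fact.out : p.Prime).ne_zero⟩
  exact kummer_LC hζ' (isGal_galLevels.restrict K.fixingSubgroup) hβ0
    (fun g => apply_eq_of_mem g.2 hζK) (fun g => apply_eq_of_mem g.2 hβ)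

/-- (LP4) -/
theorem lp4 (hζ : IsPrimitiveRoot ζ p) (hζL : ζ ∈ L) {l : ℕ} (hl : l.Prime) (hpl : p ≠ l)
    {A : ValuationSubring (AlgebraicClosure ℚ)} (hA : A.LiesOverPrime l)
    {v : HeightOneSpectrum (𝓞 L)} (hv : Frob.below (𝓞 L) A = v.asIdeal)
    {x x' : Lˣ} (hx : (p : ℤ) ∣ ordH L v (Additive.ofMul x))
    (hx' : (p : ℤ) ∣ ordH L v (Additive.ofMul x'))
    {y w : AlgebraicClosure ℚ} (hy : y ^ p = ((x : L) : AlgebraicClosure ℚ))
    (hw : w ^ p = ((x' : L) : AlgebraicClosure ℚ)) :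
    cup (fun u : UA A L => kummer p ζ y (u : GalGlob)) (fun u => kummer p ζ w (u : GalGlob)) ∈
        B2 (levU A L) (triv p (UA A L)) := by
  have : Fact l.Prime := ⟨hl⟩
  have hpp : p.Prime := Fact.out
  have : NeZero p := ⟨hpp.ne_zero⟩
  obtain ⟨g, rfl⟩ := exists_eq_smul_padicPlace l hA
  have hζ' := jg_primitive l hζ g
  have hζK := jg_mem_KL l L g hζL
  obtain ⟨c, hc0, hc1, hc⟩ := exists_norm_jg_eq l g hv
  -- a uniformizer
  obtain ⟨π, hπ⟩ := v.valuation_exists_uniformizer L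
  have hπ0 : π ≠ 0 := by
    rintro rfl
    rw [map_zero] at hπ
    exact WithZero.exp_ne_zero hπ.symm
  let πu : Lˣ := Units.mk0 π hπ0
  have hord : ordH L v (Additive.ofMul πu) = 1 := (ordH_eq_iff v πu 1).2 hπ
  have hπn : ‖jg l g ((πu : L) : AlgebraicClosure ℚ)‖ = c := by
    rw [hc πu, hord, zpow_one]
  -- general facts about the two characters
  have key : ∀ {x : Lˣ} {y : AlgebraicClosure ℚ}, (p : ℤ) ∣ ordH L v (Additive.ofMul x) →
      y ^ p = ((x : L) : AlgebraicClosure ℚ) → y ≠ 0 ∧ y ^ p ∈ L ∧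
      (∀ τ ∈ inertiaK l (KL l L g), kummer p (jg l g ζ) (jg l g y) τ = 0) := by
    intro x y hx hy
    have hx0 : ((x : L) : AlgebraicClosure ℚ) ≠ 0 := by exact_mod_cast x.ne_zero
    have hy0 : y ≠ 0 := by
      rintro rfl
      rw [zero_pow hpp.ne_zero] at hy
      exact hx0 hy.symm
    have hyL : y ^ p ∈ L := by rw [hy]; exact (x : L).2
    refine ⟨hy0, hyL, fun τ hτ => ?_⟩
    obtain ⟨m, hm⟩ := hx
    have hn : ‖jg l g y‖ = ‖(jg l g ((πu : L) : AlgebraicClosure ℚ)) ^ m‖ := by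
      rw [norm_zpow, hπn]
      have h1 : ‖jg l g y‖ ^ p = (c ^ m) ^ p := by
        rw [← norm_pow, ← map_pow, hy, hc x, hm, ← zpow_natCast, ← zpow_mul, mul_comm]
      exact (pow_left_inj₀ (norm_nonneg _) (zpow_nonneg hc0.le _) hpp.ne_zero).1 h1
    have hfix : (τ : GalLoc l) (jg l g y) = jg l g y :=
      apply_eq_of_mem_inertia (K := KL l L g) hpp hpl
        (zpow_mem (jg_mem_KL l L g (πu : L).2) m) (by rw [← map_pow]; exact jg_mem_KL l L g hyL)
        hn hτ τ.2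
    exact kummer_of_fixed hζ' ((_root_.map_ne_zero _).2 hy0) hfix
  obtain ⟨hy0, hyL, hyI⟩ := key hx hy
  obtain ⟨hw0, hwL, hwI⟩ := key hx' hw
  have hjy : (jg l g y) ^ p ∈ KL l L g := by rw [← map_pow]; exact jg_mem_KL l L g hyL
  have hjw : (jg l g w) ^ p ∈ KL l L g := by rw [← map_pow]; exact jg_mem_KL l L g hwL
  have hjy0 : jg l g y ≠ 0 := (_root_.map_ne_zero _).2 hy0
  have hjw0 : jg l g w ≠ 0 := (_root_.map_ne_zero _).2 hw0
  rw [cup_mem_B2_iff_loc l L hζ g hy0 hyL hw0 hwL]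
  refine cup_unr_mem_B2 (kummer_LC_loc _ hζ' hζK hjy0 hjy) (fun g h => ?_) hyI
    (kummer_LC_loc _ hζ' hζK hjw0 hjw) (fun g h => ?_) hwI
  · exact kummer_map_mul hζ' hjy0 (apply_eq_of_mem g.2 hζK) (apply_eq_of_mem g.2 hjy)
      (apply_eq_of_mem h.2 hjy)
  · exact kummer_map_mul hζ' hjw0 (apply_eq_of_mem g.2 hζK) (apply_eq_of_mem g.2 hjw)
      (apply_eq_of_mem h.2 hjw)

/-- (LP5) -/
theorem lp5 {l : ℕ} (hl : l.Prime)
    {A : ValuationSubring (AlgebraicClosure ℚ)} (hA : A.LiesOverPrime l)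
    {v : HeightOneSpectrum (𝓞 L)} (hv : Frob.below (𝓞 L) A = v.asIdeal)
    {x : Lˣ} {y : AlgebraicClosure ℚ} (hy : y ^ p = ((x : L) : AlgebraicClosure ℚ))
    (hfix : ∀ u ∈ UA A L, u y = y) : (p : ℤ) ∣ ordH L v (Additive.ofMul x) := by
  have : Fact l.Prime := ⟨hl⟩
  have hpp : p.Prime := Fact.out
  obtain ⟨g, rfl⟩ := exists_eq_smul_padicPlace l hA
  obtain ⟨c, hc0, hc1, hc⟩ := exists_norm_jg_eq l g hv
  have hx0 : ((x : L) : AlgebraicClosure ℚ) ≠ 0 := by exact_mod_cast x.ne_zero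
  have hy0 : y ≠ 0 := by
    rintro rfl
    rw [zero_pow hpp.ne_zero] at hy
    exact hx0 hy.symm
  have hyK : jg l g y ∈ KL l L g := by
    apply mem_of_forall_apply_eq
    intro τ hτ
    rw [← jg_rg, hfix _ ((rg_mem_UA_iff l L g τ).2 hτ)]
  have hypos : 0 < ‖jg l g y‖ := norm_pos_iff.2 ((_root_.map_ne_zero _).2 hy0)
  obtain ⟨x', hx'L, hx'⟩ := KL_dense l L g hyK hypos
  have hn : ‖jg l g x'‖ = ‖jg l g y‖ := by
    have h1 : jg l g x' = jg l g y + -(jg l g y - jg l g x') := by ring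
    rw [h1, IsUltrametricDist.norm_add_eq_max_of_norm_ne_norm (by rw [norm_neg]; exact hx'.ne'),
      norm_neg, max_eq_left hx'.le]
  have hx'0 : (⟨x', hx'L⟩ : L) ≠ 0 := by
    intro h
    have : x' = 0 := congrArg Subtype.val h
    rw [this, map_zero, norm_zero] at hn
    exact hypos.ne hn
  have h2 := hc (Units.mk0 (⟨x', hx'L⟩ : L) hx'0)
  have h3 : ‖jg l g x'‖ = c ^ ordH L v (Additive.ofMul (Units.mk0 (⟨x', hx'L⟩ : L) hx'0)) := h2
  have h4 := hc x
  rw [← hy, map_pow, norm_pow, ← hn, h3, ← zpow_natCast, ← zpow_mul] at h4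
  have h5 := zpow_right_injective₀ hc0 hc1.ne h4
  exact ⟨_, h5.symm.trans (mul_comm _ _)⟩

/-- elements of `Lˣ` which are locally `p`-th powers at `A` -/
noncomputable def PA (p : ℕ) (A : ValuationSubring (AlgebraicClosure ℚ))
    (L : IntermediateField ℚ (AlgebraicClosure ℚ)) : Subgroup Lˣ where
  carrier := {x | ∃ y : AlgebraicClosure ℚ, y ^ p = ((x : L) : AlgebraicClosure ℚ) ∧
    ∀ u ∈ UA A L, u y = y}
  one_mem' := ⟨1, by simp, fun u _ => map_one u⟩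
  mul_mem' := by
    rintro x x' ⟨y, hy, h⟩ ⟨y', hy', h'⟩
    exact ⟨y * y', by rw [mul_pow, hy, hy']; rfl, fun u hu => by rw [map_mul, h u hu, h' u hu]⟩
  inv_mem' := by
    rintro x ⟨y, hy, h⟩
    refine ⟨y⁻¹, ?_, fun u hu => by rw [map_inv₀, h u hu]⟩
    rw [inv_pow, hy]
    simp

lemma mem_PA {A : ValuationSubring (AlgebraicClosure ℚ)} {x : Lˣ} :
    x ∈ PA p A L ↔ ∃ y : AlgebraicClosure ℚ, y ^ p = ((x : L) : AlgebraicClosure ℚ) ∧
    ∀ u ∈ UA A L, u y = y := Iff.rfl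

lemma mem_PA_iff_kummer (hζ : IsPrimitiveRoot ζ p) (hζL : ζ ∈ L)
    {A : ValuationSubring (AlgebraicClosure ℚ)} {x : Lˣ} {y : AlgebraicClosure ℚ}
    (hy : y ^ p = ((x : L) : AlgebraicClosure ℚ)) :
    x ∈ PA p A L ↔ ∀ u : UA A L, kummer p ζ y (u : GalGlob) = 0 := by
  have hpp : p.Prime := Fact.out
  have : NeZero p := ⟨hpp.ne_zero⟩
  have hx0 : ((x : L) : AlgebraicClosure ℚ) ≠ 0 := by exact_mod_cast x.ne_zero
  have hy0 : y ≠ 0 := by
    rintro rfl
    rw [zero_pow hpp.ne_zero] at hy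
    exact hx0 hy.symm
  have hyL : y ^ p ∈ L := by rw [hy]; exact (x : L).2
  constructor
  · rintro ⟨y', hy', h⟩ u
    have hpow : y ^ p = y' ^ p := by rw [hy, hy']
    rw [kummer_eq_of_pow_eq hζ hy0 hpow (smul_eq_of_mem_UA L u hζL) (smul_eq_of_mem_UA L u hyL)]
    refine kummer_of_fixed hζ ?_ (h u u.2)
    rintro rfl
    rw [zero_pow hpp.ne_zero] at hy'
    exact hx0 hy'.symm
  · intro h
    exact ⟨y, hy, fun u hu => (kummer_eq_zero_iff hζ hy0
      (smul_eq_of_mem_UA L ⟨u, hu⟩ hyL)).1 (h ⟨u, hu⟩)⟩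

/-- (LP6) -/
theorem lp6 (T : Set (HeightOneSpectrum (𝓞 L))) (hT : T.Finite)
    (A : HeightOneSpectrum (𝓞 L) → ValuationSubring (AlgebraicClosure ℚ))
    (hA : ∀ v ∈ T, Frob.below (𝓞 L) (A v) = v.asIdeal) (z : HeightOneSpectrum (𝓞 L) → Lˣ) :
    ∃ x : Lˣ, ∀ v ∈ T, x * (z v)⁻¹ ∈ PA p (A v) L := by
  classical
  have hpp : p.Prime := Fact.out
  have hTf : Finite T := hT.to_subtype
  rcases isEmpty_or_nonempty T with hTe | hTne
  · exact ⟨1, fun v hv => (hTe.false ⟨v, hv⟩).elim⟩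
  -- residue characteristics
  have hl : ∀ v : T, ∃ l : ℕ, l.Prime ∧ (A v).LiesOverPrime l := by
    rintro ⟨v, hv⟩
    have hmax : v.asIdeal.IsMaximal := v.isMaximal
    obtain ⟨q, hq⟩ : ∃ q : ℕ, q.Prime ∧ (q : 𝓞 L) ∈ v.asIdeal := by
      have h1 : (v.asIdeal.under ℤ) ≠ ⊥ := by
        intro h
        exact v.ne_bot (Ideal.eq_bot_of_comap_eq_bot h)
      have h2 : (v.asIdeal.under ℤ).IsPrime := inferInstance
      obtain ⟨n, hn⟩ := (IsPrincipalIdealRing.principal (v.asIdeal.under ℤ)).principal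
      have hn0 : n ≠ 0 := by
        rintro rfl
        apply h1
        rw [hn]; simp
      have hnp : Prime n := by
        rw [← Ideal.span_singleton_prime hn0]
        rw [hn] at h2
        exact h2
      refine ⟨n.natAbs, Int.prime_iff_natAbs_prime.1 hnp, ?_⟩
      have h3 : n ∈ v.asIdeal.under ℤ := by rw [hn]; exact Submodule.mem_span_singleton_self n
      have h4 : (n : 𝓞 L) ∈ v.asIdeal := by simpa using (Ideal.mem_comap.1 h3)
      have h6 : ((n.natAbs : ℕ) : 𝓞 L) = ((n.natAbs : ℤ) : 𝓞 L) := (Int.cast_natCast _).symm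
      rw [h6]
      rcases Int.natAbs_eq n with h | h
      · rw [← h]; exact h4
      · have h7 : (n.natAbs : ℤ) = -n := by omega
        rw [h7, Int.cast_neg]
        exact neg_mem h4
    refine ⟨q, hq.1, ?_⟩
    have h5 : (q : 𝓞 L) ∈ Frob.below (𝓞 L) (A v) := by rw [hA v hv]; exact hq.2
    rw [Frob.mem_below, map_natCast] at h5
    exact h5
  choose l hlp hlA using hl
  have : ∀ v, Fact (l v).Prime := fun v => ⟨hlp v⟩
  choose g hg using fun v => exists_eq_smul_padicPlace (l v) (hlA v)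
  choose ε hε hεp using fun v => exists_pow_of_near (l v) hpp
  let z' : ∀ v : T, PadicAlgCl (l v) := fun v => jg (l v) (g v) ((z v : L) : AlgebraicClosure ℚ)
  have hz'0 : ∀ v, z' v ≠ 0 := fun v =>
    (_root_.map_ne_zero _).2 (by exact_mod_cast (z v).ne_zero)
  obtain ⟨ε₀, hε₀, hε₀'⟩ : ∃ ε₀ : ℝ, 0 < ε₀ ∧ ∀ v, ε₀ ≤ min (ε v) 1 * ‖z' v‖ := by
    have := Fintype.ofFinite T
    have hpos : ∀ v, 0 < min (ε v) 1 * ‖z' v‖ := fun v =>
      mul_pos (lt_min (hε v) one_pos) (norm_pos_iff.2 (hz'0 v))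
    refine ⟨Finset.univ.inf' Finset.univ_nonempty (fun v => min (ε v) 1 * ‖z' v‖), ?_, ?_⟩
    · rw [Finset.lt_inf'_iff]
      exact fun v _ => hpos v
    · intro v
      exact Finset.inf'_le _ (Finset.mem_univ v)
  obtain ⟨x, hx⟩ := weak_approx (L := L) l g (fun v : T => (v : HeightOneSpectrum (𝓞 L)))
    Subtype.val_injective (fun v => by rw [← hg v]; exact hA v v.2) z'
    (fun v => jg_mem_KL (l v) L (g v) (z v : L).2) hε₀
  have hx1 : ∀ v, ‖jg (l v) (g v) (x : AlgebraicClosure ℚ) / z' v - 1‖ < min (ε v) 1 := by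
    intro v
    have h1 : jg (l v) (g v) (x : AlgebraicClosure ℚ) / z' v - 1 =
        -((z' v - jg (l v) (g v) (x : AlgebraicClosure ℚ)) / z' v) := by
      have := hz'0 v
      field_simp
      ring
    rw [h1, norm_neg, norm_div, div_lt_iff₀ (norm_pos_iff.2 (hz'0 v))]
    exact (hx v).trans_le (hε₀' v)
  have hx0 : x ≠ 0 := by
    rintro rfl
    obtain ⟨v⟩ := hTne
    have h1 := (hx1 v).trans_le (min_le_right _ _)
    have h2 : (((0 : L)) : AlgebraicClosure ℚ) = 0 := rfl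
    rw [h2, map_zero, zero_div, zero_sub, norm_neg, norm_one] at h1
    exact lt_irrefl _ h1
  refine ⟨Units.mk0 x hx0, fun v hv => ?_⟩
  have hx2 := hx1 ⟨v, hv⟩
  obtain ⟨y, hyK, hy⟩ := hεp ⟨v, hv⟩ (KL (l ⟨v, hv⟩) L (g ⟨v, hv⟩)) _
    (div_mem (jg_mem_KL (l ⟨v, hv⟩) L (g ⟨v, hv⟩) x.2)
      (jg_mem_KL (l ⟨v, hv⟩) L (g ⟨v, hv⟩) (z v : L).2)) (hx2.trans_le (min_le_left _ _))
  -- a global `p`-th root
  obtain ⟨w, hw⟩ := IsAlgClosed.exists_pow_nat_eq
    (((Units.mk0 x hx0 * (z v)⁻¹ : Lˣ) : L) : AlgebraicClosure ℚ) hpp.pos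
  have hjw : jg (l ⟨v, hv⟩) (g ⟨v, hv⟩) w ^ p = y ^ p := by
    rw [← map_pow, hw, hy]
    have : (((Units.mk0 x hx0 * (z v)⁻¹ : Lˣ) : L) : AlgebraicClosure ℚ) =
      (x : AlgebraicClosure ℚ) / ((z v : L) : AlgebraicClosure ℚ) := by
      rw [div_eq_mul_inv]; push_cast; rfl
    rw [this, map_div₀]
  -- adjust the root
  obtain ⟨w', hw', hjw'⟩ : ∃ w' : AlgebraicClosure ℚ,
      w' ^ p = (((Units.mk0 x hx0 * (z v)⁻¹ : Lˣ) : L) : AlgebraicClosure ℚ) ∧
      jg (l ⟨v, hv⟩) (g ⟨v, hv⟩) w' = y := by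
    have : NeZero p := ⟨hpp.ne_zero⟩
    obtain ⟨ξ, hξ⟩ : ∃ ξ : AlgebraicClosure ℚ, IsPrimitiveRoot ξ p :=
      HasEnoughRootsOfUnity.exists_primitiveRoot (AlgebraicClosure ℚ) p
    have hw0 : jg (l ⟨v, hv⟩) (g ⟨v, hv⟩) w ≠ 0 := by
      intro h
      have h1 : w = 0 := (_root_.map_eq_zero _).1 h
      rw [h1, zero_pow hpp.ne_zero] at hw
      exact (by exact_mod_cast (Units.mk0 x hx0 * (z v)⁻¹).ne_zero :
        (((Units.mk0 x hx0 * (z v)⁻¹ : Lˣ) : L) : AlgebraicClosure ℚ) ≠ 0) hw.symm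
    have h1 : (y / jg (l ⟨v, hv⟩) (g ⟨v, hv⟩) w) ^ p = 1 := by
      rw [div_pow, hjw, div_self]
      rw [← hjw]; exact pow_ne_zero _ hw0
    obtain ⟨i, -, hi⟩ := (jg_primitive (l ⟨v, hv⟩) hξ (g ⟨v, hv⟩)).eq_pow_of_pow_eq_one h1
    refine ⟨ξ ^ i * w, ?_, ?_⟩
    · rw [mul_pow, hw, ← pow_mul, mul_comm i p, pow_mul, hξ.pow_eq_one, one_pow, one_mul]
    · rw [map_mul, map_pow, hi]; field_simp
  refine ⟨w', hw', fun u hu => ?_⟩
  have hgv := hg ⟨v, hv⟩
  simp only at hgv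
  rw [hgv] at hu
  obtain ⟨τ, hτ⟩ := (eU (l ⟨v, hv⟩) L (g ⟨v, hv⟩)).surjective ⟨u, hu⟩
  have hτ' : u = rg (l ⟨v, hv⟩) (g ⟨v, hv⟩) τ := by
    rw [← coe_eU, hτ]
  apply jg_injective (l ⟨v, hv⟩) (g ⟨v, hv⟩)
  rw [hτ', jg_rg, hjw']
  exact apply_eq_of_mem τ.2 hyK

/-- (LP7) -/
theorem lp7 {α : L.fixingSubgroup → L.fixingSubgroup → ZMod p}
    (hα : α ∈ Z2 ((galLevels ℚ (AlgebraicClosure ℚ)).restrict L.fixingSubgroup)
      (triv p L.fixingSubgroup)) :
    ∃ N : ℕ, N ≠ 0 ∧ ∀ l : ℕ, l.Prime → ¬ l ∣ N → ∀ A : ValuationSubring (AlgebraicClosure ℚ),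
      A.LiesOverPrime l →
      (fun u u' : UA A L => α ⟨u, u.2.2⟩ ⟨u', u'.2.2⟩) ∈ B2 (levU A L) (triv p (UA A L)) := by
  have hpp : p.Prime := Fact.out
  obtain ⟨⟨H, hH, hc⟩, hcoc⟩ := hα
  obtain ⟨H₀, hH₀, hHH⟩ := Levels.mem_restrict.1 hH
  obtain ⟨F, hF, hFH⟩ := mem_galLevels.1 hH₀
  obtain ⟨N, hN, hNram⟩ := exists_nat_ramified F
  refine ⟨N, hN, fun l hl hlN A hA => ?_⟩
  have : Fact l.Prime := ⟨hl⟩
  have hram := hNram l hl hlN A hA
  obtain ⟨g, rfl⟩ := exists_eq_smul_padicPlace l hA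
  rw [(homeo_eU l L g).mem_B2_iff (ρ' := triv p (KL l L g).fixingSubgroup) (fun _ _ => rfl)]
  let q : (KL l L g).fixingSubgroup →* L.fixingSubgroup :=
    (Subgroup.inclusion (inf_le_right : UA (g • padicPlace l) L ≤ L.fixingSubgroup)).comp
      (eU l L g).toMonoidHom
  apply B2_unrLev_le
  refine unr_mem_B2 (p := p) hpp.ne_zero (fun v => ?_) (KL l L g)
    ⟨⊤, Levels.top_mem, fun s _ => rfl⟩ ?_
  · rw [nsmul_eq_mul, CharP.cast_eq_zero, zero_mul]
  · refine ⟨⟨((KL l F g).fixingSubgroup).subgroupOf (KL l L g).fixingSubgroup, ⟨?_, ?_⟩, ?_⟩, ?_⟩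
    · exact Levels.mem_restrict.2 ⟨_, fixingSubgroup_mem_galLevels _, le_rfl⟩
    · intro τ hτ
      rw [Subgroup.mem_subgroupOf] at hτ ⊢
      rw [← comap_rg_fixingSubgroup, Subgroup.mem_comap]
      exact hram ((rg_mem_inertia_iff l g _).2 hτ)
    · intro τ τ' s hs s' hs'
      have hs0 : ∀ s : (KL l L g).fixingSubgroup,
          s ∈ ((KL l F g).fixingSubgroup).subgroupOf (KL l L g).fixingSubgroup → q s ∈ H := by
        intro s hs
        apply hHH
        rw [Subgroup.mem_subgroupOf] at hs ⊢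
        apply hFH
        rw [← comap_rg_fixingSubgroup, Subgroup.mem_comap] at hs
        exact hs
      have h1 := hc (q τ) (q τ') _ (hs0 s hs) _ (hs0 s' hs')
      rw [← map_mul, ← map_mul] at h1
      exact h1
    · intro τ τ' τ''
      have h1 := hcoc (q τ) (q τ') (q τ'')
      rw [← map_mul, ← map_mul] at h1
      exact h1

end Package

end Fermat.Agent.CFT.Loc
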