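import Fermat.Agent.CFT.Loc.ValueGroup
import Fermat.Agent.CFT.Symbol

/-!
# Unramified cohomology of local fields

`H²` of the maximal unramified quotient of `Gal(ℚ̄_l/K)` vanishes (torsion coefficients).
-/

set_option autoImplicit false

open Polynomial IntermediateField

namespace Fermat.Agent.CFT.Loc

variable (l : ℕ) [Fact l.Prime]

/-- level structure of `G_K` -/
noncomputable abbrev levK (K : IntermediateField ℚ_[l] (PadicAlgCl l)) :
    Levels K.fixingSubgroup := (galLevels ℚ_[l] (PadicAlgCl l)).restrict K.fixingSubgroup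

/-- inertia subgroup of `G_K` -/
noncomputable abbrev inertiaK (K : IntermediateField ℚ_[l] (PadicAlgCl l)) :
    Subgroup K.fixingSubgroup := (inertiaLoc l).subgroupOf K.fixingSubgroup

/-- unramified levels of `G_K` -/
noncomputable abbrev unrLev (K : IntermediateField ℚ_[l] (PadicAlgCl l)) :
    Levels K.fixingSubgroup := (levK l K).above (inertiaK l K)

variable {l}

lemma mem_levK {K : IntermediateField ℚ_[l] (PadicAlgCl l)} [FiniteDimensional ℚ_[l] K]
    {H : Subgroup K.fixingSubgroup} :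
    H ∈ levK l K ↔ ∃ E : IntermediateField ℚ_[l] (PadicAlgCl l), FiniteDimensional ℚ_[l] E ∧
      K ≤ E ∧ E.fixingSubgroup.subgroupOf K.fixingSubgroup ≤ H := by
  rw [Levels.mem_restrict]
  constructor
  · rintro ⟨H₀, hH₀, h⟩
    obtain ⟨E, hE, hEH⟩ := mem_galLevels.1 hH₀
    refine ⟨K ⊔ E, IntermediateField.finiteDimensional_sup _ _, le_sup_left, ?_⟩
    refine le_trans ?_ h
    intro g hg
    rw [Subgroup.mem_subgroupOf] at hg ⊢
    rw [IntermediateField.fixingSubgroup_sup] at hg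
    exact hEH hg.2
  · rintro ⟨E, hE, -, h⟩
    exact ⟨_, fixingSubgroup_mem_galLevels E, h⟩

theorem unrLev_gen {K : IntermediateField ℚ_[l] (PadicAlgCl l)} [FiniteDimensional ℚ_[l] K]
    {φ : GalLoc l} (hφ : IsFrobLoc l K φ) {H : Subgroup K.fixingSubgroup} (hH : H ∈ unrLev l K)
    (g : K.fixingSubgroup) : ∃ i : ℕ, ((⟨φ, hφ.1⟩ : K.fixingSubgroup) ^ i)⁻¹ * g ∈ H := by
  obtain ⟨E, hE, hKE, hEH⟩ := mem_levK.1 hH.1
  obtain ⟨i, h, hh, t, ht, htK, hg⟩ := hφ.exists_eq_mul E hKE g.2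
  have hhK : h ∈ K.fixingSubgroup := IntermediateField.fixingSubgroup_antitone hKE hh
  refine ⟨i, ?_⟩
  have h1 : ((⟨φ, hφ.1⟩ : K.fixingSubgroup) ^ i)⁻¹ * g =
      (⟨h, hhK⟩ : K.fixingSubgroup) * ⟨t, htK⟩ := by
    apply Subtype.ext
    show (φ ^ i)⁻¹ * (g : GalLoc l) = h * t
    rw [hg]; group
  rw [h1]
  exact H.mul_mem (hEH (show h ∈ E.fixingSubgroup from hh)) (hH.2 (show t ∈ inertiaLoc l from ht))

theorem unrLev_div {K : IntermediateField ℚ_[l] (PadicAlgCl l)} [FiniteDimensional ℚ_[l] K]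
    {φ : GalLoc l} (hφ : IsFrobLoc l K φ) {n : ℕ} (hn : n ≠ 0) :
    ∃ H ∈ unrLev l K, ∀ i : ℤ, (⟨φ, hφ.1⟩ : K.fixingSubgroup) ^ i ∈ H → (n : ℤ) ∣ i := by
  classical
  set f := resDeg l K with hf
  have hf0 : f ≠ 0 := resDeg_ne_zero l K
  have hfn : f * n ≠ 0 := mul_ne_zero hf0 hn
  let H : Subgroup K.fixingSubgroup :=
    { carrier := {g | ∀ r : ResF l, r ^ l ^ (f * n) = r → resAct l (g : GalLoc l) r = r}
      one_mem' := fun r _ => by rw [Subgroup.coe_one, resAct_one]; rfl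
      mul_mem' := fun {g h} hg hh r hr => by
        rw [Subgroup.coe_mul, resAct_mul_apply, hh r hr, hg r hr]
      inv_mem' := fun {g} hg r hr => by
        rw [Subgroup.coe_inv]
        conv_lhs => rw [← hg r hr]
        exact resAct_inv_apply _ _ }
  have hmem : ∀ g, g ∈ H ↔ ∀ r : ResF l, r ^ l ^ (f * n) = r → resAct l (g : GalLoc l) r = r :=
    fun g => Iff.rfl
  refine ⟨H, ⟨?_, ?_⟩, ?_⟩
  · -- open
    have hl1 : 1 < l ^ (f * n) := Nat.one_lt_pow hfn (Fact.out : l.Prime).one_lt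
    have hne : (X ^ l ^ (f * n) - X : (ResF l)[X]) ≠ 0 :=
      FiniteField.X_pow_card_sub_X_ne_zero _ hl1
    have hfin : {r : ResF l | r ^ l ^ (f * n) = r}.Finite := by
      refine (Finset.finite_toSet (X ^ l ^ (f * n) - X : (ResF l)[X]).roots.toFinset).subset ?_
      intro x hx
      have hx' : x ^ l ^ (f * n) = x := hx
      rw [Finset.mem_coe, Multiset.mem_toFinset, mem_roots hne, IsRoot.def]
      simp [hx']
    choose u hu1 hu2 using fun r : ResF l => exists_red_eq r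
    have hfd : FiniteDimensional ℚ_[l]
        (IntermediateField.adjoin ℚ_[l] (u '' {r : ResF l | r ^ l ^ (f * n) = r})) := by
      have := (hfin.image u).to_subtype
      exact IntermediateField.finiteDimensional_adjoin fun x _ =>
        (Algebra.IsAlgebraic.isAlgebraic x).isIntegral
    refine Levels.mem_restrict.2 ⟨_, fixingSubgroup_mem_galLevels
      (IntermediateField.adjoin ℚ_[l] (u '' {r : ResF l | r ^ l ^ (f * n) = r})), ?_⟩
    intro g hg r hr
    rw [Subgroup.mem_subgroupOf, mem_fixingSubgroup_adjoin_iff] at hg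
    have h1 := hg (u r) ⟨r, hr, rfl⟩
    conv_lhs => rw [← hu2 r, resAct_red]
    conv_rhs => rw [← hu2 r]
    congr 1
  · intro g hg r _
    exact mem_inertiaLoc_iff.1 hg r
  · intro i hi
    have key : ∀ m : ℕ, (⟨φ, hφ.1⟩ : K.fixingSubgroup) ^ m ∈ H → n ∣ m := by
      intro m hm
      have h1 : f * n ∣ f * m := by
        apply dvd_of_forall_pow (κ := ResF l) l hfn
        intro x hx
        have h2 := hm x hx
        rw [SubmonoidClass.coe_pow] at h2
        rw [pow_mul, ← resAct_pow_apply hφ.2]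
        exact h2
      exact Nat.dvd_of_mul_dvd_mul_left (Nat.pos_of_ne_zero hf0) h1
    obtain ⟨m, rfl | rfl⟩ := i.eq_nat_or_neg
    · rw [zpow_natCast] at hi
      exact_mod_cast key m hi
    · rw [zpow_neg, zpow_natCast] at hi
      rw [dvd_neg]
      exact_mod_cast key m (by simpa using H.inv_mem hi)

/-- `H²` of unramified cocycles vanishes. -/
theorem unr_mem_B2 {k : Type*} [CommRing k] {V : Type*} [AddCommGroup V] [Module k V]
    {p : ℕ} (hp : p ≠ 0) (hV : ∀ v : V, p • v = 0)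
    (K : IntermediateField ℚ_[l] (PadicAlgCl l)) [FiniteDimensional ℚ_[l] K]
    {ρ : Representation k K.fixingSubgroup V}
    (htriv : ∃ H ∈ unrLev l K, ∀ s ∈ H, ρ s = 1) {f : K.fixingSubgroup → K.fixingSubgroup → V}
    (hf : f ∈ Z2 (unrLev l K) ρ) : f ∈ B2 (unrLev l K) ρ := by
  obtain ⟨φ, hφ⟩ := exists_isFrobLoc l K
  have h1 : ∀ H ∈ unrLev l K, ∀ g : K.fixingSubgroup,
      ∃ i : ℕ, ((⟨φ, hφ.1⟩ : K.fixingSubgroup) ^ i)⁻¹ * g ∈ H := fun H hH g => unrLev_gen hφ hH g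
  have h2 : ∀ n : ℕ, n ≠ 0 → ∃ H ∈ unrLev l K, ∀ i : ℤ,
      (⟨φ, hφ.1⟩ : K.fixingSubgroup) ^ i ∈ H → (n : ℤ) ∣ i := fun n hn => unrLev_div hφ hn
  exact mem_B2_of_procyclic hp hV _ h1 h2 htriv hf

lemma B2_unrLev_le {k : Type*} [CommRing k] {V : Type*} [AddCommGroup V] [Module k V]
    (K : IntermediateField ℚ_[l] (PadicAlgCl l)) {ρ : Representation k K.fixingSubgroup V} :
    B2 (unrLev l K) ρ ≤ B2 (levK l K) ρ := by
  intro f hf
  obtain ⟨c, ⟨H, hH, hc⟩, rfl⟩ := mem_B2.1 hf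
  exact mem_B2.2 ⟨c, ⟨H, hH.1, hc⟩, rfl⟩

/-- an unramified locally constant homomorphism -/
lemma LC_unr {X : Type*} [AddGroup X] {K : IntermediateField ℚ_[l] (PadicAlgCl l)}
    {κ : K.fixingSubgroup → X}
    (hκ : (levK l K).LC κ) (hκm : ∀ g h, κ (g * h) = κ g + κ h)
    (hκI : ∀ g ∈ inertiaK l K, κ g = 0) : (unrLev l K).LC κ := by
  have hone : κ 1 = 0 := by simpa using hκm 1 1
  obtain ⟨H, hH, h⟩ := hκ
  let J : Subgroup K.fixingSubgroup :=
    { carrier := {g | κ g = 0}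
      one_mem' := hone
      mul_mem' := fun {a b} ha hb => by
        show κ (a * b) = 0
        rw [hκm, ha, hb, add_zero]
      inv_mem' := fun {a} ha => by
        show κ a⁻¹ = 0
        have := hκm a a⁻¹
        rw [mul_inv_cancel, hone, ha, zero_add] at this
        exact this.symm }
  refine ⟨J, ⟨Levels.up_mem hH ?_, fun g hg => hκI g hg⟩, fun g s hs => ?_⟩
  · intro s hs
    show κ s = 0
    have := h 1 s hs
    rwa [one_mul, hone] at this
  · rw [hκm, show κ s = 0 from hs, add_zero]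

/-- cup products of unramified characters vanish -/
theorem cup_unr_mem_B2 {p : ℕ} [NeZero p] {K : IntermediateField ℚ_[l] (PadicAlgCl l)}
    [FiniteDimensional ℚ_[l] K] {κ lam : K.fixingSubgroup → ZMod p}
    (hκ : (levK l K).LC κ) (hκm : ∀ g h, κ (g * h) = κ g + κ h)
    (hκI : ∀ g ∈ inertiaK l K, κ g = 0)
    (hlam : (levK l K).LC lam) (hlamm : ∀ g h, lam (g * h) = lam g + lam h)
    (hlamI : ∀ g ∈ inertiaK l K, lam g = 0) :
    cup κ lam ∈ B2 (levK l K) (triv p K.fixingSubgroup) := by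
  apply B2_unrLev_le
  refine unr_mem_B2 (p := p) (NeZero.ne p) (fun v => ?_) K ⟨⊤, Levels.top_mem, fun s _ => rfl⟩ ?_
  · rw [nsmul_eq_mul, CharP.cast_eq_zero, zero_mul]
  · exact cup_mem_Z2 (LC_unr hκ hκm hκI) (LC_unr hlam hlamm hlamI) hκm hlamm

end Fermat.Agent.CFT.Loc
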