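import Fermat.Agent.CFT.Loc.ResField

/-!
# Frobenius elements, unramified extensions and value groups
-/

set_option autoImplicit false

open Polynomial IntermediateField

namespace Fermat.Agent.CFT.Loc

variable (l : ℕ) [Fact l.Prime]

/-- action of the local Galois group on the ring of integers -/
noncomputable def intAct (g : GalLoc l) : padicIntegers l →+* padicIntegers l where
  toFun := fun y => ⟨g y, by rw [mem_padicIntegers, norm_apply]; exact y.2⟩
  map_one' := by apply Subtype.ext; exact map_one g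
  map_mul' := fun x y => by apply Subtype.ext; exact map_mul g _ _
  map_zero' := by apply Subtype.ext; exact map_zero g
  map_add' := fun x y => by apply Subtype.ext; exact map_add g _ _

/-- action of the local Galois group on the residue field -/
noncomputable def resAct (g : GalLoc l) : ResF l →+* ResF l :=
  Ideal.Quotient.lift _ ((IsLocalRing.residue (padicIntegers l)).comp (intAct l g)) (by
    intro a ha
    rw [RingHom.comp_apply, IsLocalRing.residue_eq_zero_iff, mem_maximalIdeal_int]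
    rw [mem_maximalIdeal_int] at ha
    show ‖g a‖ < 1
    rwa [norm_apply])

variable {l}

@[simp] lemma resAct_red (g : GalLoc l) (x : PadicAlgCl l) (hx : ‖x‖ ≤ 1) :
    resAct l g (red l x hx) = red l (g x) (by rwa [norm_apply]) := rfl

lemma resAct_one : resAct l (1 : GalLoc l) = RingHom.id _ := by
  ext r
  obtain ⟨x, hx, rfl⟩ := exists_red_eq r
  rfl

lemma resAct_mul (g h : GalLoc l) : resAct l (g * h) = (resAct l g).comp (resAct l h) := by
  ext r
  obtain ⟨x, hx, rfl⟩ := exists_red_eq r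
  rfl

lemma resAct_mul_apply (g h : GalLoc l) (r : ResF l) :
    resAct l (g * h) r = resAct l g (resAct l h r) := by rw [resAct_mul]; rfl

lemma resAct_inv_apply (g : GalLoc l) (r : ResF l) :
    resAct l g⁻¹ (resAct l g r) = r := by
  rw [← resAct_mul_apply, inv_mul_cancel, resAct_one]; rfl

lemma mem_inertiaLoc_iff {g : GalLoc l} : g ∈ inertiaLoc l ↔ ∀ r, resAct l g r = r := by
  rw [mem_inertiaLoc]
  constructor
  · intro h r
    obtain ⟨x, hx, rfl⟩ := exists_red_eq r
    rw [resAct_red, red_eq_red_iff]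
    exact h x hx
  · intro h x hx
    have := h (red l x hx)
    rwa [resAct_red, red_eq_red_iff] at this

lemma inv_mul_mem_inertiaLoc_iff {g h : GalLoc l} :
    g⁻¹ * h ∈ inertiaLoc l ↔ ∀ r, resAct l g r = resAct l h r := by
  rw [mem_inertiaLoc_iff]
  constructor
  · intro H r
    have := H r
    rw [resAct_mul_apply] at this
    have h2 := congrArg (resAct l g) this
    rw [← resAct_mul_apply g g⁻¹, mul_inv_cancel, resAct_one] at h2
    exact h2.symm
  · intro H r
    rw [resAct_mul_apply, ← H, resAct_inv_apply]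

instance normal_inertiaLoc : (inertiaLoc l).Normal := by
  refine ⟨fun n hn g => ?_⟩
  rw [mem_inertiaLoc_iff] at hn ⊢
  intro r
  rw [resAct_mul_apply, resAct_mul_apply, hn, ← resAct_mul_apply, mul_inv_cancel, resAct_one]
  rfl

/-- elements of the fixing subgroup of `K` act trivially on the residue field of `K` -/
lemma resAct_of_mem_resSub {K : IntermediateField ℚ_[l] (PadicAlgCl l)} {g : GalLoc l}
    (hg : g ∈ K.fixingSubgroup) {r : ResF l} (hr : r ∈ resSub l K) : resAct l g r = r := by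
  obtain ⟨x, hx, hxK, rfl⟩ := hr
  rw [resAct_red]
  congr 1
  exact (IntermediateField.mem_fixingSubgroup_iff _ _).1 hg x hxK

/-- version of `exists_fixing_inertia` -/
theorem exists_fixing_of_resAct {K : IntermediateField ℚ_[l] (PadicAlgCl l)} (g : GalLoc l)
    (hg : ∀ r ∈ resSub l K, resAct l g r = r) :
    ∃ h ∈ K.fixingSubgroup, ∀ r, resAct l h r = resAct l g r := by
  obtain ⟨h, hh, hhg⟩ := exists_fixing_inertia K g (by
    intro x hxK hx
    have := hg _ ⟨x, hx, hxK, rfl⟩
    rwa [resAct_red, red_eq_red_iff] at this)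
  exact ⟨h, hh, inv_mul_mem_inertiaLoc_iff.1 hhg⟩

/-- Frobenius of `ℚ_l` acts on the residue field by `x ↦ x ^ l`. -/
theorem exists_frobenius_loc' : ∃ φ : GalLoc l, ∀ r : ResF l, resAct l φ r = r ^ l := by
  obtain ⟨φ, hφ⟩ := exists_frobenius_loc l
  refine ⟨φ, fun r => ?_⟩
  obtain ⟨x, hx, rfl⟩ := exists_red_eq r
  rw [resAct_red, red, red, ← map_pow]
  exact (red_eq_red_iff (l := l) _ (by rw [norm_pow]; exact pow_le_one₀ (norm_nonneg _) hx)).2
    (hφ x hx)

lemma resAct_pow_apply {φ : GalLoc l} {q : ℕ} (hφ : ∀ r : ResF l, resAct l φ r = r ^ q) (i : ℕ)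
    (r : ResF l) : resAct l (φ ^ i) r = r ^ q ^ i := by
  induction i generalizing r with
  | zero => rw [pow_zero, resAct_one, pow_zero, pow_one]; rfl
  | succ i ih =>
    rw [pow_succ, resAct_mul_apply, hφ, ih, ← pow_mul, pow_succ, mul_comm]

variable (l)

/-- `φ` is a Frobenius element of `K` -/
def IsFrobLoc (K : IntermediateField ℚ_[l] (PadicAlgCl l)) [FiniteDimensional ℚ_[l] K]
    (φ : GalLoc l) : Prop :=
  φ ∈ K.fixingSubgroup ∧ ∀ r : ResF l, resAct l φ r = r ^ l ^ resDeg l K

theorem exists_isFrobLoc (K : IntermediateField ℚ_[l] (PadicAlgCl l))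
    [FiniteDimensional ℚ_[l] K] : ∃ φ : GalLoc l, IsFrobLoc l K φ := by
  obtain ⟨φ₀, hφ₀⟩ := exists_frobenius_loc' (l := l)
  obtain ⟨φ, hφ, h⟩ := exists_fixing_of_resAct (K := K) (φ₀ ^ resDeg l K) (by
    intro r hr
    rw [resAct_pow_apply hφ₀]
    exact (mem_resSub_iff l K r).1 hr)
  exact ⟨φ, hφ, fun r => by rw [h, resAct_pow_apply hφ₀]⟩

variable {l}

/-- every element of `G_K` acts on a given finite field as a power of Frobenius -/
theorem IsFrobLoc.exists_pow {K : IntermediateField ℚ_[l] (PadicAlgCl l)}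
    [FiniteDimensional ℚ_[l] K] {φ : GalLoc l} (hφ : IsFrobLoc l K φ) {g : GalLoc l}
    (hg : g ∈ K.fixingSubgroup) {n : ℕ} (hn : n ≠ 0) :
    ∃ i : ℕ, ∀ r : ResF l, r ^ l ^ n = r → resAct l g r = resAct l (φ ^ i) r := by
  have hf := resDeg_ne_zero l K
  set f := resDeg l K with hfdef
  obtain ⟨j, hj⟩ := exists_frobenius_pow l (resAct l g) (n := f * n) (mul_ne_zero hf hn)
  have hpow : ∀ (a b : ℕ) (x : ResF l), x ^ l ^ a = x → x ^ l ^ (a * b) = x := by
    intro a b x hx
    induction b with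
    | zero => simp
    | succ b ih => rw [Nat.mul_succ, pow_add, pow_mul, ih, hx]
  have hdvd : f ∣ j := by
    apply dvd_of_forall_pow (κ := ResF l) l hf
    intro x hx
    rw [← hj x (hpow f n x hx)]
    exact resAct_of_mem_resSub hg ((mem_resSub_iff l K x).2 hx)
  obtain ⟨i, rfl⟩ := hdvd
  refine ⟨i, fun r hr => ?_⟩
  have hr' : r ^ l ^ (f * n) = r := by rw [mul_comm]; exact hpow n f r hr
  rw [hj r hr', resAct_pow_apply hφ.2, ← hfdef, pow_mul]

/-- Modulo inertia and modulo any open subgroup, `G_K` is generated by Frobenius. -/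
theorem IsFrobLoc.exists_eq_mul {K : IntermediateField ℚ_[l] (PadicAlgCl l)}
    [FiniteDimensional ℚ_[l] K] {φ : GalLoc l} (hφ : IsFrobLoc l K φ)
    (E : IntermediateField ℚ_[l] (PadicAlgCl l)) [FiniteDimensional ℚ_[l] E] (hKE : K ≤ E)
    {g : GalLoc l} (hg : g ∈ K.fixingSubgroup) :
    ∃ (i : ℕ), ∃ h ∈ E.fixingSubgroup, ∃ t ∈ inertiaLoc l, t ∈ K.fixingSubgroup ∧
      g = φ ^ i * h * t := by
  obtain ⟨i, hi⟩ := hφ.exists_pow hg (resDeg_ne_zero l E)
  obtain ⟨h, hh, hh'⟩ := exists_fixing_of_resAct (K := E) ((φ ^ i)⁻¹ * g) (by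
    intro r hr
    rw [resAct_mul_apply, hi r ((mem_resSub_iff l E r).1 hr), resAct_inv_apply])
  have hhK : h ∈ K.fixingSubgroup := IntermediateField.fixingSubgroup_antitone hKE hh
  refine ⟨i, h, hh, h⁻¹ * ((φ ^ i)⁻¹ * g), ?_, ?_, ?_⟩
  · exact inv_mul_mem_inertiaLoc_iff.2 hh'
  · exact mul_mem (inv_mem hhK) (mul_mem (inv_mem (pow_mem hφ.1 i)) hg)
  · group

/-- `E/K` is unramified -/
def Unr (K E : IntermediateField ℚ_[l] (PadicAlgCl l)) : Prop :=
  inertiaLoc l ⊓ K.fixingSubgroup ≤ E.fixingSubgroup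

/-- Elements of `G_K` which induce the same map on the residue field of an unramified `E/K`
agree on `E`. -/
theorem Unr.eqOn_of_resAct {K E : IntermediateField ℚ_[l] (PadicAlgCl l)} (hu : Unr K E)
    (hKE : K ≤ E)
    {g h : GalLoc l} (hg : g ∈ K.fixingSubgroup) (hh : h ∈ K.fixingSubgroup)
    (hgh : ∀ r ∈ resSub l E, resAct l g r = resAct l h r) : h⁻¹ * g ∈ E.fixingSubgroup := by
  obtain ⟨e, he, he'⟩ := exists_fixing_of_resAct (K := E) (h⁻¹ * g) (by
    intro r hr
    rw [resAct_mul_apply, hgh r hr, resAct_inv_apply])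
  have h1 : e⁻¹ * (h⁻¹ * g) ∈ inertiaLoc l := inv_mul_mem_inertiaLoc_iff.2 he'
  have h2 : e⁻¹ * (h⁻¹ * g) ∈ K.fixingSubgroup :=
    mul_mem (inv_mem (IntermediateField.fixingSubgroup_antitone hKE he)) (mul_mem (inv_mem hh) hg)
  have h3 := hu ⟨h1, h2⟩
  have h4 : h⁻¹ * g = e * (e⁻¹ * (h⁻¹ * g)) := by group
  rw [h4]
  exact mul_mem he h3

end Fermat.Agent.CFT.Loc
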