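import Fermat.Agent.CFT.Loc.Approx

/-!
# Unramified elements and valuations, global version
-/

set_option autoImplicit false
set_option linter.unusedSectionVars false

open Polynomial IntermediateField NumberField IsDedekindDomain
open scoped Pointwise

namespace Fermat.Agent.CFT.Loc

lemma norm_natCast_l (l : ℕ) [Fact l.Prime] : ‖(l : PadicAlgCl l)‖ = (l : ℝ)⁻¹ := by
  have := PadicAlgCl.valuation_p l
  rw [PadicAlgCl.valuation_def] at this
  have h := congrArg NNReal.toReal this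
  simpa using h

/-- elements of `A`, in terms of `jg` -/
lemma isUnit_iff_norm (l : ℕ) [Fact l.Prime] (g : GalGlob) (y : AlgebraicClosure ℚ) :
    (y ∈ g • padicPlace l ∧ y⁻¹ ∈ g • padicPlace l) ↔ (y = 0 ∨ ‖jg l g y‖ = 1) := by
  rw [mem_smul_padicPlace_iff, mem_smul_padicPlace_iff, map_inv₀, norm_inv]
  by_cases hy : y = 0
  · simp [hy]
  · have hpos : 0 < ‖jg l g y‖ := norm_pos_iff.2 ((_root_.map_ne_zero _).2 hy)
    constructor
    · rintro ⟨h1, h2⟩
      right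
      exact le_antisymm h1 ((inv_le_one₀ hpos).1 h2)
    · rintro (h | h)
      · exact absurd h hy
      · rw [h]; simp

/-- norms of elements fixed by inertia -/
lemma exists_norm_jg_of_inertia (l : ℕ) [Fact l.Prime] (g : GalGlob) {y : AlgebraicClosure ℚ}
    (hy : y ≠ 0) (h : ∀ τ ∈ (g • padicPlace l).inertiaSubgroupIn ℚ, τ y = y) :
    ∃ n : ℤ, ‖jg l g y‖ = ‖(l : PadicAlgCl l)‖ ^ n := by
  have hy0 : jg l g y ≠ 0 := (_root_.map_ne_zero _).2 hy
  obtain ⟨z, hz, hzn⟩ := exists_norm_eq_of_inertia (K := (⊥ : IntermediateField ℚ_[l] (PadicAlgCl l)))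
    (y := jg l g y) hy0 (by
      intro τ hτ _
      rw [← jg_rg, h _ ((rg_mem_inertia_iff l g τ).2 hτ)])
  obtain ⟨w, rfl⟩ := IntermediateField.mem_bot.1 hz
  have hw0 : w ≠ 0 := by
    rintro rfl
    rw [map_zero, norm_zero] at hzn
    exact hy0 (norm_eq_zero.1 hzn.symm)
  rw [norm_algebraMap'] at hzn
  refine ⟨w.valuation, ?_⟩
  rw [← hzn, norm_natCast_l, Padic.norm_eq_zpow_neg_valuation hw0, inv_zpow, zpow_neg]

/-- (U1) an element fixed by inertia has integral valuation -/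
theorem exists_zpow_of_inertia {q : ℕ} (hq : q.Prime) {A : ValuationSubring (AlgebraicClosure ℚ)}
    (hA : A.LiesOverPrime q) {y : AlgebraicClosure ℚ} (hy : y ≠ 0)
    (h : ∀ τ ∈ A.inertiaSubgroupIn ℚ, τ y = y) :
    ∃ n : ℤ, y * (q : AlgebraicClosure ℚ) ^ (-n) ∈ A ∧
      (y * (q : AlgebraicClosure ℚ) ^ (-n))⁻¹ ∈ A := by
  have : Fact q.Prime := ⟨hq⟩
  obtain ⟨g, rfl⟩ := exists_eq_smul_padicPlace q hA
  obtain ⟨n, hn⟩ := exists_norm_jg_of_inertia q g hy h
  have hq0 : ‖(q : PadicAlgCl q)‖ ≠ 0 := by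
    rw [norm_ne_zero_iff]; exact_mod_cast hq.ne_zero
  refine ⟨n, (isUnit_iff_norm q g _).2 (Or.inr ?_)⟩
  rw [map_mul, map_zpow₀, map_natCast, norm_mul, norm_zpow, hn, ← zpow_add₀ hq0,
    add_neg_cancel, zpow_zero]

section Num

variable {L : IntermediateField ℚ (AlgebraicClosure ℚ)} [NumberField L]

/-- if `L` is unramified at `A`, then `ordH` of the residue characteristic is one. -/
theorem ordH_natCast_eq_one {q : ℕ} (hq : q.Prime) {A : ValuationSubring (AlgebraicClosure ℚ)}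
    (hA : A.LiesOverPrime q) (hAL : A.inertiaSubgroupIn ℚ ≤ L.fixingSubgroup)
    {v : HeightOneSpectrum (𝓞 L)} (hv : Frob.below (𝓞 L) A = v.asIdeal) (qu : Lˣ)
    (hqu : (qu : L) = (q : L)) : ordH L v (Additive.ofMul qu) = 1 := by
  have : Fact q.Prime := ⟨hq⟩
  obtain ⟨g, rfl⟩ := exists_eq_smul_padicPlace q hA
  obtain ⟨c, hc0, hc1, hc⟩ := exists_norm_jg_eq q g hv
  obtain ⟨π, hπ⟩ := v.valuation_exists_uniformizer L
  have hπ0 : π ≠ 0 := by
    rintro rfl
    rw [map_zero] at hπ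
    exact WithZero.exp_ne_zero hπ.symm
  let πu : Lˣ := Units.mk0 π hπ0
  have hord : ordH L v (Additive.ofMul πu) = 1 := (ordH_eq_iff v πu 1).2 hπ
  have h1 := hc πu
  rw [hord, zpow_one] at h1
  have h2 := hc qu
  have hcoe : (((qu : L)) : AlgebraicClosure ℚ) = (q : AlgebraicClosure ℚ) := by
    rw [hqu]; push_cast; rfl
  rw [hcoe, map_natCast] at h2
  obtain ⟨n, hn⟩ := exists_norm_jg_of_inertia q g (y := ((πu : L) : AlgebraicClosure ℚ))
    (by exact_mod_cast hπ0) (fun τ hτ =>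
      (IntermediateField.mem_fixingSubgroup_iff _ _).1 (hAL hτ) _ (πu : L).2)
  set m := ordH L v (Additive.ofMul qu) with hm
  have h3 : c ^ (m * n) = c ^ (1 : ℤ) := by
    rw [zpow_mul, ← h2, ← hn, h1, zpow_one]
  have h4 : m * n = 1 := zpow_right_injective₀ hc0 hc1.ne h3
  have hmpos : 0 < m := by
    have hlt : ‖(q : PadicAlgCl q)‖ < 1 := by
      rw [norm_natCast_l]; exact inv_lt_one_of_one_lt₀ (by exact_mod_cast hq.one_lt)
    rw [h2] at hlt
    by_contra hneg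
    push Not at hneg
    exact absurd hlt (not_lt.2 (one_le_zpow_of_nonpos₀ hc0 hc1.le hneg))
  exact Int.eq_one_of_mul_eq_one_right hmpos.le h4

/-- (U2) -/
theorem mul_zpow_neg_ordH_mem {q : ℕ} (hq : q.Prime) {A : ValuationSubring (AlgebraicClosure ℚ)}
    (hA : A.LiesOverPrime q) (hAL : A.inertiaSubgroupIn ℚ ≤ L.fixingSubgroup)
    {v : HeightOneSpectrum (𝓞 L)} (hv : Frob.below (𝓞 L) A = v.asIdeal) (x : Lˣ) :
    ((x : L) : AlgebraicClosure ℚ) * (q : AlgebraicClosure ℚ) ^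
        (-(ordH L v (Additive.ofMul x))) ∈ A ∧
      (((x : L) : AlgebraicClosure ℚ) * (q : AlgebraicClosure ℚ) ^
        (-(ordH L v (Additive.ofMul x))))⁻¹ ∈ A := by
  have hq0 : (q : L) ≠ 0 := by exact_mod_cast hq.ne_zero
  have h1 := ordH_natCast_eq_one hq hA hAL hv (Units.mk0 (q : L) hq0) rfl
  have : Fact q.Prime := ⟨hq⟩
  obtain ⟨g, rfl⟩ := exists_eq_smul_padicPlace q hA
  obtain ⟨c, hc0, hc1, hc⟩ := exists_norm_jg_eq q g hv
  refine (isUnit_iff_norm q g _).2 (Or.inr ?_)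
  have h2 := hc (Units.mk0 (q : L) hq0)
  rw [h1, zpow_one] at h2
  have hcoe : (((Units.mk0 (q : L) hq0 : Lˣ) : L) : AlgebraicClosure ℚ) =
    (q : AlgebraicClosure ℚ) := rfl
  rw [hcoe] at h2
  rw [map_mul, map_zpow₀, norm_mul, norm_zpow, h2, hc x, ← zpow_add₀ hc0.ne', add_neg_cancel,
    zpow_zero]

end Num

end Fermat.Agent.CFT.Loc
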