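import Fermat.Agent.CFT.Loc.Val

/-!
# Openness of `p`-th powers, density, weak approximation
-/

set_option autoImplicit false
set_option linter.unusedSectionVars false

open Polynomial IntermediateField NumberField IsDedekindDomain
open scoped Pointwise

namespace Fermat.Agent.CFT.Loc

variable (l : ℕ) [Fact l.Prime]

/-- elements close to `1` have a canonical `p`-th root close to `1`. -/
theorem exists_root_near_one {p : ℕ} (hp : p.Prime) : ∃ ε : ℝ, 0 < ε ∧ ∀ x : PadicAlgCl l,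
    ‖x - 1‖ < ε → ∃ y : PadicAlgCl l, y ^ p = x ∧ ∀ g : GalLoc l, g x = x → g y = y := by
  classical
  have : NeZero p := ⟨hp.ne_zero⟩
  have hpc : NeZero (p : PadicAlgCl l) := ⟨by exact_mod_cast hp.ne_zero⟩
  obtain ⟨ζ, hζ⟩ : ∃ ζ : PadicAlgCl l, IsPrimitiveRoot ζ p :=
    HasEnoughRootsOfUnity.exists_primitiveRoot (PadicAlgCl l) p
  have hζn : ‖ζ‖ = 1 := by
    have h1 : ‖ζ‖ ^ p = 1 := by rw [← norm_pow, hζ.pow_eq_one, norm_one]
    exact (pow_eq_one_iff_of_nonneg (norm_nonneg _) hp.ne_zero).1 h1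
  obtain ⟨δ, hδ, hδ'⟩ : ∃ δ : ℝ, 0 < δ ∧ ∀ j, j < p → j ≠ 0 → δ ≤ ‖ζ ^ j - 1‖ := by
    by_cases hS : ((Finset.range p).filter (· ≠ 0)).Nonempty
    · refine ⟨(((Finset.range p).filter (· ≠ 0)).image (fun j => ‖ζ ^ j - 1‖)).min'
        (Finset.image_nonempty.mpr hS), ?_, ?_⟩
      · have h1 := Finset.min'_mem (((Finset.range p).filter (· ≠ 0)).image
          (fun j => ‖ζ ^ j - 1‖)) (Finset.image_nonempty.mpr hS)
        rw [Finset.mem_image] at h1
        obtain ⟨j, hj, hj'⟩ := h1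
        rw [← hj', norm_pos_iff, sub_ne_zero]
        rw [Finset.mem_filter, Finset.mem_range] at hj
        intro h
        exact hζ.pow_ne_one_of_pos_of_lt hj.2 hj.1 h
      · intro j hj hj0
        exact Finset.min'_le _ _ (Finset.mem_image_of_mem _
          (Finset.mem_filter.2 ⟨Finset.mem_range.2 hj, hj0⟩))
    · refine ⟨1, one_pos, fun j hj hj0 => absurd ⟨j, ?_⟩ hS⟩
      exact Finset.mem_filter.2 ⟨Finset.mem_range.2 hj, hj0⟩
  refine ⟨δ ^ p, by positivity, fun x hx => ?_⟩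
  obtain ⟨y₀, hy₀⟩ := IsAlgClosed.exists_pow_nat_eq x hp.pos
  -- some `y₀ - ζ^i` is small
  have hprod : ∏ i ∈ Finset.range p, (y₀ - ζ ^ i) = x - 1 := by
    have h1 := X_pow_sub_one_eq_prod hp.pos hζ
    have h2 := congrArg (Polynomial.eval y₀) h1
    rw [Polynomial.eval_prod] at h2
    simp only [eval_sub, eval_pow, eval_X, eval_one, eval_C] at h2
    rw [← hy₀, h2]
    refine Finset.prod_bij (fun i _ => ζ ^ i) ?_ ?_ ?_ ?_
    · intro i _
      rw [mem_nthRootsFinset hp.pos, ← pow_mul, mul_comm, pow_mul, hζ.pow_eq_one, one_pow]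
    · intro i hi j hj hij
      exact hζ.pow_inj (Finset.mem_range.1 hi) (Finset.mem_range.1 hj) hij
    · intro w hw
      rw [mem_nthRootsFinset hp.pos] at hw
      obtain ⟨i, hi, h⟩ := hζ.eq_pow_of_pow_eq_one hw
      exact ⟨i, Finset.mem_range.2 hi, h⟩
    · intro i _; rfl
  obtain ⟨i, hi, hiδ⟩ : ∃ i ∈ Finset.range p, ‖y₀ - ζ ^ i‖ < δ := by
    by_contra hcon
    push Not at hcon
    have h1 : δ ^ p ≤ ‖∏ i ∈ Finset.range p, (y₀ - ζ ^ i)‖ := by
      rw [norm_prod]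
      calc δ ^ p = ∏ _i ∈ Finset.range p, δ := by simp
        _ ≤ _ := Finset.prod_le_prod (fun _ _ => hδ.le) hcon
    rw [hprod] at h1
    exact absurd hx (not_lt.2 h1)
  have hζi : ζ ^ i ≠ 0 := pow_ne_zero _ (hζ.ne_zero hp.ne_zero)
  have hζin : ‖ζ ^ i‖ = 1 := by rw [norm_pow, hζn, one_pow]
  refine ⟨y₀ / ζ ^ i, ?_, fun g hg => ?_⟩
  · rw [div_pow, hy₀, ← pow_mul, mul_comm i p, pow_mul, hζ.pow_eq_one, one_pow, div_one]
  · set y := y₀ / ζ ^ i with hy
    have hy1 : ‖y - 1‖ < δ := by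
      have : y - 1 = (y₀ - ζ ^ i) / ζ ^ i := by rw [hy]; field_simp
      rw [this, norm_div, hζin, div_one]
      exact hiδ
    have hyp : y ^ p = x := by
      rw [hy, div_pow, hy₀, ← pow_mul, mul_comm i p, pow_mul, hζ.pow_eq_one, one_pow, div_one]
    by_cases hy0 : y = 0
    · rw [hy0, map_zero]
    have h1 : (g y / y) ^ p = 1 := by
      rw [div_pow, ← map_pow, hyp, hg, div_self]
      rw [← hyp]; exact pow_ne_zero _ hy0
    obtain ⟨j, hj, hj'⟩ := hζ.eq_pow_of_pow_eq_one h1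
    have hgy : g y = ζ ^ j * y := by rw [hj']; field_simp
    by_cases hj0 : j = 0
    · rw [hgy, hj0, pow_zero, one_mul]
    exfalso
    -- `‖y‖ = 1`
    have h2 : ‖g y - y‖ < δ := by
      have : g y - y = g (y - 1) + (1 - y) := by rw [map_sub, map_one]; ring
      rw [this]
      refine lt_of_le_of_lt (IsUltrametricDist.norm_add_le_max _ _) (max_lt ?_ ?_)
      · rwa [norm_apply]
      · rwa [← norm_neg, neg_sub]
    have hδ1 : δ ≤ 1 := by
      refine (hδ' j hj hj0).trans ?_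
      have : ζ ^ j - 1 = ζ ^ j + (-1) := by ring
      rw [this]
      refine (IsUltrametricDist.norm_add_le_max _ _).trans (max_le ?_ ?_)
      · rw [norm_pow, hζn, one_pow]
      · rw [norm_neg, norm_one]
    have hyn : ‖y‖ = 1 := by
      have h3 : ‖y - 1‖ < 1 := lt_of_lt_of_le hy1 hδ1
      have h4 : ‖(y - 1) + 1‖ = max ‖y - 1‖ ‖(1 : PadicAlgCl l)‖ :=
        IsUltrametricDist.norm_add_eq_max_of_norm_ne_norm (by rw [norm_one]; exact h3.ne)
      rw [sub_add_cancel, norm_one, max_eq_right h3.le] at h4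
      exact h4
    have h5 : g y - y = (ζ ^ j - 1) * y := by rw [hgy]; ring
    rw [h5, norm_mul, hyn, mul_one] at h2
    exact absurd h2 (not_lt.2 (hδ' j hj hj0))

/-- `p`-th powers in a finite extension `K` are open. -/
theorem exists_pow_of_near {p : ℕ} (hp : p.Prime) : ∃ ε : ℝ, 0 < ε ∧
    ∀ (K : IntermediateField ℚ_[l] (PadicAlgCl l)), ∀ x ∈ K, ‖x - 1‖ < ε → ∃ y ∈ K, y ^ p = x := by
  obtain ⟨ε, hε, h⟩ := exists_root_near_one l hp
  refine ⟨ε, hε, fun K x hx hx1 => ?_⟩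
  obtain ⟨y, hy, hg⟩ := h x hx1
  exact ⟨y, mem_of_forall_apply_eq fun g hgK => hg g (apply_eq_of_mem hgK hx), hy⟩

section Density

variable (L : IntermediateField ℚ (AlgebraicClosure ℚ))

/-- `L` is dense in its completion. -/
theorem KL_dense (g : GalGlob) {z : PadicAlgCl l} (hz : z ∈ KL l L g) {ε : ℝ} (hε : 0 < ε) :
    ∃ x ∈ L, ‖z - jg l g x‖ < ε := by
  let S : Subfield (PadicAlgCl l) := L.toSubfield.map (jg l g).toRingHom
  let T := S.topologicalClosure
  have hST : S ≤ T := S.le_topologicalClosure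
  have hQ : ∀ q : ℚ_[l], algebraMap ℚ_[l] (PadicAlgCl l) q ∈ T := by
    intro q
    have h1 : algebraMap ℚ_[l] (PadicAlgCl l) q ∈
        closure (algebraMap ℚ_[l] (PadicAlgCl l) '' Set.range (algebraMap ℚ ℚ_[l])) := by
      apply image_closure_subset_closure_image (continuous_algebraMap ℚ_[l] (PadicAlgCl l))
      exact ⟨q, denseRange_rat l q, rfl⟩
    refine closure_mono ?_ h1
    rintro _ ⟨_, ⟨r, rfl⟩, rfl⟩
    refine ⟨algebraMap ℚ _ r, L.algebraMap_mem r, ?_⟩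
    show jg l g (algebraMap ℚ _ r) = _
    rw [AlgHom.commutes, ← IsScalarTower.algebraMap_apply]
  let T' : IntermediateField ℚ_[l] (PadicAlgCl l) :=
    { T with algebraMap_mem' := hQ }
  have hle : KL l L g ≤ T' := by
    rw [KL, adjoin_le_iff]
    rintro _ ⟨x, hx, rfl⟩
    exact hST ⟨x, hx, rfl⟩
  have hzT : z ∈ closure (S : Set (PadicAlgCl l)) := hle hz
  obtain ⟨_, ⟨x, hx, rfl⟩, hw⟩ := Metric.mem_closure_iff.1 hzT ε hε
  rw [dist_eq_norm] at hw
  exact ⟨x, hx, hw⟩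

/-- `Lˣ → Kˣ/p` is surjective. -/
theorem exists_mul_pow_eq {p : ℕ} (hp : p.Prime) (g : GalGlob) {z : PadicAlgCl l}
    (hz : z ∈ KL l L g) (hz0 : z ≠ 0) :
    ∃ x ∈ L, x ≠ 0 ∧ ∃ y ∈ KL l L g, y ≠ 0 ∧ jg l g x = z * y ^ p := by
  obtain ⟨ε, hε, h⟩ := exists_pow_of_near l hp
  have hzn : 0 < ‖z‖ := norm_pos_iff.2 hz0
  obtain ⟨x, hx, hxz⟩ := KL_dense l L g hz (ε := min ε 1 * ‖z‖) (by positivity)
  have h1 : ‖jg l g x / z - 1‖ < min ε 1 := by
    have : jg l g x / z - 1 = -((z - jg l g x) / z) := by field_simp; ring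
    rw [this, norm_neg, norm_div, div_lt_iff₀ hzn]
    exact hxz
  obtain ⟨y, hy, hyx⟩ := h (KL l L g) (jg l g x / z) (div_mem (jg_mem_KL l L g hx) hz)
    (lt_of_lt_of_le h1 (min_le_left _ _))
  have hx0 : x ≠ 0 := by
    rintro rfl
    rw [map_zero, zero_div, zero_sub, norm_neg, norm_one] at h1
    exact absurd (lt_of_lt_of_le h1 (min_le_right _ _)) (lt_irrefl _)
  have hj0 : jg l g x ≠ 0 := (_root_.map_ne_zero _).2 hx0
  refine ⟨x, hx, hx0, y, hy, ?_, ?_⟩
  · rintro rfl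
    rw [zero_pow hp.ne_zero] at hyx
    exact (div_ne_zero hj0 hz0) hyx.symm
  · rw [hyx]; field_simp

end Density

section Weak

variable {L : IntermediateField ℚ (AlgebraicClosure ℚ)} [NumberField L]

/-- the absolute value of `L` attached to `g` -/
noncomputable def absL (L : IntermediateField ℚ (AlgebraicClosure ℚ)) (g : GalGlob) :
    AbsoluteValue L ℝ where
  toFun x := ‖jg l g (x : AlgebraicClosure ℚ)‖
  map_mul' x y := by
    show ‖jg l g ((x : AlgebraicClosure ℚ) * y)‖ = _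
    rw [map_mul, norm_mul]
  nonneg' x := norm_nonneg _
  eq_zero' x := by
    rw [norm_eq_zero, _root_.map_eq_zero]
    exact_mod_cast Iff.rfl
  add_le' x y := by
    show ‖jg l g ((x : AlgebraicClosure ℚ) + y)‖ ≤ _
    rw [map_add]
    exact norm_add_le _ _

lemma absL_apply (g : GalGlob) (x : L) : absL l L g x = ‖jg l g (x : AlgebraicClosure ℚ)‖ := rfl

lemma absL_isNontrivial (g : GalGlob) : (absL l L g).IsNontrivial := by
  have hl : (l : L) ≠ 0 := by exact_mod_cast (Fact.out : l.Prime).ne_zero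
  refine ⟨(l : L), hl, ?_⟩
  rw [absL_apply]
  have h1 := (mem_nonunits_smul_padicPlace_iff l g _).1 (smul_padicPlace_liesOverPrime l g)
  have h2 : (((l : L)) : AlgebraicClosure ℚ) = (l : AlgebraicClosure ℚ) := by push_cast; rfl
  rw [h2]
  exact h1.ne

end Weak

/-- Weak approximation for finitely many distinct finite places of `L`. -/
theorem weak_approx {L : IntermediateField ℚ (AlgebraicClosure ℚ)} [NumberField L]
    {ι : Type*} [Finite ι] (l : ι → ℕ) [∀ i, Fact (l i).Prime] (g : ι → GalGlob)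
    (v : ι → HeightOneSpectrum (𝓞 L)) (hv : Function.Injective v)
    (hgv : ∀ i, Frob.below (𝓞 L) (g i • padicPlace (l i)) = (v i).asIdeal)
    (z : ∀ i, PadicAlgCl (l i)) (hz : ∀ i, z i ∈ KL (l i) L (g i)) {ε : ℝ} (hε : 0 < ε) :
    ∃ x : L, ∀ i, ‖z i - jg (l i) (g i) (x : AlgebraicClosure ℚ)‖ < ε := by
  have := Fintype.ofFinite ι
  choose x₀ hx₀ hx₀z using fun i => KL_dense (l i) L (g i) (hz i) hε
  have hne : Pairwise fun i j => ¬ (absL (l i) L (g i)).IsEquiv (absL (l j) L (g j)) := by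
    intro i j hij h
    apply hij
    apply hv
    apply HeightOneSpectrum.ext
    ext a
    rw [← norm_jg_lt_one_iff (l i) (g i) (hgv i), ← norm_jg_lt_one_iff (l j) (g j) (hgv j)]
    exact h.lt_one_iff
  have hd := AbsoluteValue.denseRange_algebraMap_pi
    (fun i => absL_isNontrivial (L := L) (l i) (g i)) hne
  obtain ⟨x, hx⟩ := Metric.denseRange_iff.1 hd
    (fun i => WithAbs.toAbs _ (⟨x₀ i, hx₀ i⟩ : L)) ε hε
  refine ⟨x, fun i => ?_⟩
  have h1 : ‖jg (l i) (g i) (x₀ i) - jg (l i) (g i) (x : AlgebraicClosure ℚ)‖ < ε := by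
    have h2 := lt_of_le_of_lt (dist_le_pi_dist _ _ i) hx
    rw [dist_eq_norm] at h2
    have h3 : ‖WithAbs.toAbs (absL (l i) L (g i)) (⟨x₀ i, hx₀ i⟩ : L) -
      algebraMap L (∀ i, WithAbs (absL (l i) L (g i))) x i‖ =
      absL (l i) L (g i) ((⟨x₀ i, hx₀ i⟩ : L) - x) := rfl
    rw [h3, absL_apply] at h2
    have h4 : (((⟨x₀ i, hx₀ i⟩ : L) - x : L) : AlgebraicClosure ℚ) =
      x₀ i - (x : AlgebraicClosure ℚ) := rfl
    rwa [h4, map_sub] at h2
  have h5 : z i - jg (l i) (g i) (x : AlgebraicClosure ℚ) = (z i - jg (l i) (g i) (x₀ i)) +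
      (jg (l i) (g i) (x₀ i) - jg (l i) (g i) (x : AlgebraicClosure ℚ)) := by ring
  rw [h5]
  exact lt_of_le_of_lt (IsUltrametricDist.norm_add_le_max _ _) (max_lt (hx₀z i) h1)

end Fermat.Agent.CFT.Loc
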