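import Fermat.Agent.CFT.Loc.Residue
import Fermat.Agent.LocalF.Units

/-!
# Finite residue fields and the procyclic structure of `Gal(ℚ̄_l/K)` modulo inertia
-/

set_option autoImplicit false

open Polynomial IntermediateField

namespace Fermat.Agent.CFT.Loc

section FiniteFieldAut

/-- Automorphisms of a field of characteristic `l` act on the finite subfield with `l ^ n`
elements as a power of Frobenius. -/
theorem exists_frobenius_pow {κ : Type*} [Field κ] (l : ℕ) [Fact l.Prime] [CharP κ l]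
    (g : κ →+* κ) {n : ℕ} (hn : n ≠ 0) :
    ∃ j : ℕ, ∀ x : κ, x ^ l ^ n = x → g x = x ^ l ^ j := by
  classical
  have hl1 : 1 < l ^ n := Nat.one_lt_pow hn (Fact.out : l.Prime).one_lt
  let S : Subfield κ :=
    { carrier := {x | x ^ l ^ n = x}
      mul_mem' := fun {a b} ha hb => by
        show (a * b) ^ l ^ n = a * b
        rw [mul_pow]; exact congrArg₂ (· * ·) ha hb
      one_mem' := one_pow _
      add_mem' := fun {a b} ha hb => by
        show (a + b) ^ l ^ n = a + b
        rw [add_pow_char_pow]; exact congrArg₂ (· + ·) ha hb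
      zero_mem' := by
        show (0 : κ) ^ l ^ n = 0
        exact zero_pow (by positivity)
      neg_mem' := fun {a} ha => by
        show (-a) ^ l ^ n = -a
        have : (-a) ^ l ^ n = - a ^ l ^ n := by
          have h := sub_pow_char_pow (R := κ) (p := l) (n := n) 0 a
          rw [zero_sub, zero_pow (by positivity), zero_sub] at h
          exact h
        rw [this]; exact congrArg _ ha
      inv_mem' := fun a ha => by
        show (a⁻¹) ^ l ^ n = a⁻¹
        rw [inv_pow]; exact congrArg _ ha }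
  have hS : ∀ x, x ∈ S ↔ x ^ l ^ n = x := fun x => Iff.rfl
  have hfin : Finite S := by
    have hne : (X ^ l ^ n - X : κ[X]) ≠ 0 := FiniteField.X_pow_card_sub_X_ne_zero κ hl1
    have : (S : Set κ) ⊆ ((X ^ l ^ n - X : κ[X]).roots.toFinset : Set κ) := by
      intro x hx
      rw [Finset.mem_coe, Multiset.mem_toFinset, mem_roots hne, IsRoot.def]
      simp [(hS x).1 hx]
    exact (Set.Finite.subset (Finset.finite_toSet _) this).to_subtype
  have : CharP S l := (algebraMap S κ).charP (algebraMap S κ).injective l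
  let : Algebra (ZMod l) S := ZMod.algebra S l
  let gS : S →+* S := (g.comp S.subtype).codRestrict S (by
    intro x
    show g x ^ l ^ n = g x
    rw [← map_pow, (hS x).1 x.2])
  let gA : S →ₐ[ZMod l] S := ⟨gS, fun r => by
    have : (gS.comp (algebraMap (ZMod l) S)) = algebraMap (ZMod l) S := Subsingleton.elim _ _
    exact RingHom.congr_fun this r⟩
  have hbij : Function.Bijective gA := by
    rw [← Finite.injective_iff_bijective]
    exact gA.toRingHom.injective
  let gE : S ≃ₐ[ZMod l] S := AlgEquiv.ofBijective gA hbij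
  have := Fintype.ofFinite S
  obtain ⟨i, hi⟩ := (FiniteField.bijective_frobeniusAlgEquivOfAlgebraic_pow (ZMod l) S).2 gE
  refine ⟨i.1, fun x hx => ?_⟩
  have h1 := DFunLike.congr_fun hi ⟨x, (hS x).2 hx⟩
  simp only [AlgEquiv.coe_pow, FiniteField.coe_frobeniusAlgEquivOfAlgebraic_iterate,
    ZMod.card] at h1
  have h2 := congrArg (fun y : S => (y : κ)) h1
  exact h2.symm

/-- if all solutions of `x^(l^f) = x` satisfy `x^(l^j) = x`, then `f ∣ j`. -/
theorem dvd_of_forall_pow {κ : Type*} [Field κ] [IsAlgClosed κ] (l : ℕ) [Fact l.Prime]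
    [CharP κ l] {f j : ℕ} (hf : f ≠ 0) (h : ∀ x : κ, x ^ l ^ f = x → x ^ l ^ j = x) :
    f ∣ j := by
  classical
  have hl : 1 < l := (Fact.out : l.Prime).one_lt
  have hq : ∀ (q : ℕ) (x : κ), x ^ l ^ f = x → x ^ l ^ (f * q) = x := by
    intro q x hx
    induction q with
    | zero => simp
    | succ q ih => rw [Nat.mul_succ, pow_add, pow_mul, ih, hx]
  have hr : ∀ x : κ, x ^ l ^ f = x → x ^ l ^ (j % f) = x := by
    intro x hx
    have h1 := h x hx
    conv_lhs at h1 => rw [← Nat.div_add_mod j f, pow_add, pow_mul, hq _ x hx]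
    exact h1
  rw [Nat.dvd_iff_mod_eq_zero]
  by_contra hne
  have hlt : j % f < f := Nat.mod_lt _ (Nat.pos_of_ne_zero hf)
  have hl1 : 1 < l ^ f := Nat.one_lt_pow hf hl
  have hl2 : 1 < l ^ (j % f) := Nat.one_lt_pow hne hl
  have hcf : (l ^ f : κ) = 0 := by
    rw [CharP.cast_eq_zero κ l]
    exact zero_pow hf
  have hne1 : (X ^ l ^ f - X : κ[X]) ≠ 0 := FiniteField.X_pow_card_sub_X_ne_zero κ hl1
  have hne2 : (X ^ l ^ (j % f) - X : κ[X]) ≠ 0 := FiniteField.X_pow_card_sub_X_ne_zero κ hl2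
  have hsep : (X ^ l ^ f - X : κ[X]).Separable := by
    have := galois_poly_separable (K := κ) l (l ^ f) (dvd_pow_self l hf)
    exact this
  have hcard : (X ^ l ^ f - X : κ[X]).roots.toFinset.card = l ^ f := by
    rw [Multiset.toFinset_card_of_nodup (nodup_roots hsep)]
    have h1 := (IsAlgClosed.splits (X ^ l ^ f - X : κ[X])).natDegree_eq_card_roots
    rw [← h1, FiniteField.X_pow_card_sub_X_natDegree_eq κ hl1]
  have hsub : (X ^ l ^ f - X : κ[X]).roots.toFinset ⊆
      (X ^ l ^ (j % f) - X : κ[X]).roots.toFinset := by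
    intro x hx
    rw [Multiset.mem_toFinset, mem_roots hne1, IsRoot.def] at hx
    rw [Multiset.mem_toFinset, mem_roots hne2, IsRoot.def]
    simp only [eval_sub, eval_pow, eval_X, sub_eq_zero] at hx ⊢
    exact hr x hx
  have h1 := Finset.card_le_card hsub
  have h2 : (X ^ l ^ (j % f) - X : κ[X]).roots.toFinset.card ≤ l ^ (j % f) := by
    refine (Multiset.toFinset_card_le _).trans ?_
    refine (card_roots' _).trans ?_
    rw [FiniteField.X_pow_card_sub_X_natDegree_eq κ hl2]
  rw [hcard] at h1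
  exact absurd (h1.trans h2) (not_le.2 (Nat.pow_lt_pow_right hl hlt))

end FiniteFieldAut

variable (l : ℕ) [Fact l.Prime]

/-- for `x` in a finite extension `K`, `|x|^[K:ℚ_l] = |N x|`. -/
theorem norm_pow_finrank (K : IntermediateField ℚ_[l] (PadicAlgCl l)) [FiniteDimensional ℚ_[l] K]
    (x : K) : ‖(x : PadicAlgCl l)‖ ^ Module.finrank ℚ_[l] K = ‖Algebra.norm ℚ_[l] x‖ := by
  have hx : IsIntegral ℚ_[l] x := Algebra.IsIntegral.isIntegral x
  have hmin : minpoly ℚ_[l] (x : PadicAlgCl l) = minpoly ℚ_[l] x :=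
    minpoly.algebraMap_eq (algebraMap K (PadicAlgCl l)).injective x
  have h1 : ‖(x : PadicAlgCl l)‖ = ‖(minpoly ℚ_[l] x).coeff 0‖ ^
      (1 / (minpoly ℚ_[l] x).natDegree : ℝ) := by
    rw [← hmin]
    have h0 : ‖(x : PadicAlgCl l)‖ = spectralNorm ℚ_[l] (PadicAlgCl l) (x : PadicAlgCl l) := rfl
    rw [h0, spectralNorm.spectralNorm_eq_norm_coeff_zero_rpow]
  have hdeg : (minpoly ℚ_[l] x).natDegree * Module.finrank (IntermediateField.adjoin ℚ_[l] {x}) K
      = Module.finrank ℚ_[l] K := by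
    rw [← IntermediateField.adjoin.finrank hx]
    exact Module.finrank_mul_finrank _ _ _
  have hpos : (0:ℝ) < (minpoly ℚ_[l] x).natDegree := by
    exact_mod_cast minpoly.natDegree_pos hx
  rw [LocalF.norm_norm_eq, h1, ← hdeg, pow_mul]
  congr 1
  rw [← Real.rpow_natCast, ← Real.rpow_mul (norm_nonneg _), one_div, inv_mul_cancel₀ hpos.ne',
    Real.rpow_one]

/-- the residue field of `ℚ̄_l` -/
abbrev ResF := IsLocalRing.ResidueField (padicIntegers l)

/-- reduction map -/
noncomputable abbrev red (x : PadicAlgCl l) (hx : ‖x‖ ≤ 1) : ResF l :=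
  IsLocalRing.residue (padicIntegers l) ⟨x, hx⟩

variable {l}

lemma red_eq_red_iff {x y : PadicAlgCl l} (hx : ‖x‖ ≤ 1) (hy : ‖y‖ ≤ 1) :
    red l x hx = red l y hy ↔ ‖x - y‖ < 1 := by
  rw [← sub_eq_zero, red, red, ← map_sub, IsLocalRing.residue_eq_zero_iff, mem_maximalIdeal_int]
  rfl

lemma exists_red_eq (r : ResF l) : ∃ (x : PadicAlgCl l) (hx : ‖x‖ ≤ 1), red l x hx = r := by
  obtain ⟨⟨x, hx⟩, rfl⟩ := IsLocalRing.residue_surjective r
  exact ⟨x, hx, rfl⟩

instance charP_resF : CharP (ResF l) l := by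
  have hprime : l.Prime := Fact.out
  have h0 : ((l : ℕ) : ResF l) = 0 := by
    have : ((l : ℕ) : ResF l) = IsLocalRing.residue (padicIntegers l) (l : padicIntegers l) := by
      rw [map_natCast]
    rw [this, IsLocalRing.residue_eq_zero_iff, mem_maximalIdeal_int]
    have h1 : (((l : padicIntegers l)) : PadicAlgCl l) = (l : PadicAlgCl l) := by
      push_cast; rfl
    rw [h1]
    have := (mem_padicPlace_nonunits l (x := (l : AlgebraicClosure ℚ))).1
      (padicPlace_liesOverPrime l)
    rwa [map_natCast] at this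
  obtain ⟨q, hq⟩ := CharP.exists (ResF l)
  have hdvd : q ∣ l := (CharP.cast_eq_zero_iff (ResF l) q l).1 h0
  rcases (Nat.dvd_prime hprime).1 hdvd with h | h
  · subst h
    exfalso
    have := CharP.cast_eq_zero (ResF l) 1
    rw [Nat.cast_one] at this
    exact one_ne_zero this
  · rwa [h] at hq

instance isAlgClosed_resF : IsAlgClosed (ResF l) := by
  apply IsAlgClosed.of_exists_root
  intro P hPm hPi
  -- lift `P` to a monic polynomial over the integers
  have hlift : P ∈ Polynomial.lifts (IsLocalRing.residue (padicIntegers l)) := by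
    rw [Polynomial.lifts_iff_coeff_lifts]
    intro n
    exact IsLocalRing.residue_surjective _
  obtain ⟨Q, hQ, hdeg, hQm⟩ := Polynomial.lifts_and_natDegree_eq_and_monic hlift hPm
  have hdeg0 : P.natDegree ≠ 0 := hPi.natDegree_pos.ne'
  have hQdeg : (Q.map (algebraMap (padicIntegers l) (PadicAlgCl l))).degree ≠ 0 := by
    rw [hQm.degree_map, degree_eq_natDegree hQm.ne_zero, hdeg]
    exact_mod_cast hdeg0
  obtain ⟨z, hz⟩ := IsAlgClosed.exists_root _ hQdeg
  rw [IsRoot.def, eval_map] at hz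
  have hzint : IsIntegral (padicIntegers l) z := ⟨Q, hQm, hz⟩
  obtain ⟨w, hw⟩ := IsIntegrallyClosed.isIntegral_iff.1 hzint
  refine ⟨IsLocalRing.residue _ w, ?_⟩
  rw [← hQ, eval_map, eval₂_hom]
  have : eval w Q = 0 := by
    apply (FaithfulSMul.algebraMap_injective (padicIntegers l) (PadicAlgCl l))
    rw [map_zero, ← hz, ← hw, eval₂_at_apply]
  rw [this, map_zero]

variable (l)

/-- the residue field of a subfield `K` -/
noncomputable def resSub (K : IntermediateField ℚ_[l] (PadicAlgCl l)) : Subfield (ResF l) where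
  carrier := {r | ∃ (x : PadicAlgCl l) (hx : ‖x‖ ≤ 1), x ∈ K ∧ red l x hx = r}
  mul_mem' := by
    rintro _ _ ⟨x, hx, hxK, rfl⟩ ⟨y, hy, hyK, rfl⟩
    refine ⟨x * y, ?_, mul_mem hxK hyK, ?_⟩
    · rw [norm_mul]; exact mul_le_one₀ hx (norm_nonneg _) hy
    · rw [red, red, red, ← map_mul]; rfl
  one_mem' := ⟨1, by simp, one_mem _, map_one _⟩
  add_mem' := by
    rintro _ _ ⟨x, hx, hxK, rfl⟩ ⟨y, hy, hyK, rfl⟩
    refine ⟨x + y, ?_, add_mem hxK hyK, ?_⟩
    · exact (IsUltrametricDist.norm_add_le_max _ _).trans (max_le hx hy)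
    · rw [red, red, red, ← map_add]; rfl
  zero_mem' := ⟨0, by simp, zero_mem _, map_zero _⟩
  neg_mem' := by
    rintro _ ⟨x, hx, hxK, rfl⟩
    refine ⟨-x, by rwa [norm_neg], neg_mem hxK, ?_⟩
    rw [red, red, ← map_neg]; rfl
  inv_mem' := by
    rintro _ ⟨x, hx, hxK, rfl⟩
    by_cases h0 : red l x hx = 0
    · rw [h0, inv_zero]
      exact ⟨0, by simp, zero_mem _, map_zero _⟩
    · have hn : ‖x‖ = 1 := by
        apply le_antisymm hx
        by_contra hlt
        push Not at hlt
        apply h0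
        have := (red_eq_red_iff (l := l) (y := 0) hx (by simp)).2 (by simpa using hlt)
        rw [this]; exact map_zero _
      have hx0 : x ≠ 0 := by rintro rfl; simp at hn
      refine ⟨x⁻¹, by rw [norm_inv, hn, inv_one], inv_mem hxK, ?_⟩
      apply eq_inv_of_mul_eq_one_left
      rw [red, red, ← map_mul]
      convert map_one (IsLocalRing.residue (padicIntegers l)) using 2
      apply Subtype.ext
      exact inv_mul_cancel₀ hx0

lemma mem_resSub {K : IntermediateField ℚ_[l] (PadicAlgCl l)} {r : ResF l} :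
    r ∈ resSub l K ↔ ∃ (x : PadicAlgCl l) (hx : ‖x‖ ≤ 1), x ∈ K ∧ red l x hx = r := Iff.rfl

instance finite_resSub (K : IntermediateField ℚ_[l] (PadicAlgCl l)) [FiniteDimensional ℚ_[l] K] :
    Finite (resSub l K) := by
  have hpos : 0 < Module.finrank ℚ_[l] K := Module.finrank_pos
  have hOK : ∀ x : K, x ∈ LocalF.OK l K ↔ ‖(x : PadicAlgCl l)‖ ≤ 1 := by
    intro x
    rw [LocalF.mem_OK_iff_norm, ← norm_pow_finrank]
    exact pow_le_one_iff_of_nonneg (norm_nonneg _) hpos.ne'
  let ρ : LocalF.OK l K →+* ResF l :=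
    (IsLocalRing.residue (padicIntegers l)).comp
      { toFun := fun x => ⟨((x : K) : PadicAlgCl l), (hOK x).1 x.2⟩
        map_one' := rfl
        map_mul' := fun _ _ => rfl
        map_zero' := rfl
        map_add' := fun _ _ => rfl }
  have hρ : ∀ x ∈ Ideal.span {(l : LocalF.OK l K)}, ρ x = 0 := by
    intro x hx
    obtain ⟨y, rfl⟩ := Ideal.mem_span_singleton'.1 hx
    rw [map_mul, map_natCast, CharP.cast_eq_zero, mul_zero]
  let ρ' : (LocalF.OK l K ⧸ Ideal.span {(l : LocalF.OK l K)}) →+* ResF l :=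
    Ideal.Quotient.lift _ ρ hρ
  have hfin : Finite (LocalF.OK l K ⧸ Ideal.span {(l : LocalF.OK l K)}) := by
    apply Nat.finite_of_card_ne_zero
    rw [LocalF.card_OK_quot]
    exact pow_ne_zero _ (Fact.out : l.Prime).ne_zero
  have hsub : ((resSub l K : Subfield (ResF l)) : Set (ResF l)) ⊆ Set.range ρ' := by
    rintro r ⟨x, hx, hxK, rfl⟩
    exact ⟨Ideal.Quotient.mk _ ⟨⟨x, hxK⟩, (hOK ⟨x, hxK⟩).2 hx⟩, rfl⟩
  exact ((Set.finite_range ρ').subset hsub).to_subtype

/-- residue degree: the residue field of `K` is the field with `l ^ f` elements. -/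
theorem exists_resDegree (K : IntermediateField ℚ_[l] (PadicAlgCl l))
    [FiniteDimensional ℚ_[l] K] :
    ∃ f : ℕ, f ≠ 0 ∧ ∀ r : ResF l, r ∈ resSub l K ↔ r ^ l ^ f = r := by
  classical
  have := Fintype.ofFinite (resSub l K)
  have : CharP (resSub l K) l :=
    (algebraMap (resSub l K) (ResF l)).charP (algebraMap (resSub l K) (ResF l)).injective l
  obtain ⟨f, -, hf⟩ := FiniteField.card (resSub l K) l
  refine ⟨f, f.ne_zero, ?_⟩
  have h1 : ∀ r ∈ resSub l K, r ^ l ^ (f : ℕ) = r := by
    intro r hr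
    have := FiniteField.pow_card (⟨r, hr⟩ : resSub l K)
    rw [hf] at this
    exact congrArg Subtype.val this
  refine fun r => ⟨h1 r, fun hr => ?_⟩
  -- counting
  have hl1 : 1 < l ^ (f:ℕ) := Nat.one_lt_pow f.ne_zero (Fact.out : l.Prime).one_lt
  have hne : (X ^ l ^ (f:ℕ) - X : (ResF l)[X]) ≠ 0 :=
    FiniteField.X_pow_card_sub_X_ne_zero _ hl1
  have hroots : ∀ x, x ^ l ^ (f:ℕ) = x ↔ x ∈ (X ^ l ^ (f:ℕ) - X : (ResF l)[X]).roots.toFinset := by
    intro x
    rw [Multiset.mem_toFinset, mem_roots hne, IsRoot.def]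
    simp [sub_eq_zero]
  have hsub : (Finset.univ.image (fun x : resSub l K => (x : ResF l))) ⊆
      (X ^ l ^ (f:ℕ) - X : (ResF l)[X]).roots.toFinset := by
    intro x hx
    obtain ⟨y, -, rfl⟩ := Finset.mem_image.1 hx
    exact (hroots _).1 (h1 _ y.2)
  have hcard : (X ^ l ^ (f:ℕ) - X : (ResF l)[X]).roots.toFinset.card ≤
      (Finset.univ.image (fun x : resSub l K => (x : ResF l))).card := by
    rw [Finset.card_image_of_injective _ Subtype.val_injective, Finset.card_univ, hf]
    refine (Multiset.toFinset_card_le _).trans ((card_roots' _).trans ?_)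
    rw [FiniteField.X_pow_card_sub_X_natDegree_eq _ hl1]
  have heq := Finset.eq_of_subset_of_card_le hsub hcard
  have := (hroots r).1 hr
  rw [← heq] at this
  obtain ⟨y, -, hy⟩ := Finset.mem_image.1 this
  rw [← hy]; exact y.2

/-- the residue degree of `K` over `ℚ_l` -/
noncomputable def resDeg (K : IntermediateField ℚ_[l] (PadicAlgCl l))
    [FiniteDimensional ℚ_[l] K] : ℕ := (exists_resDegree l K).choose

lemma resDeg_ne_zero (K : IntermediateField ℚ_[l] (PadicAlgCl l))
    [FiniteDimensional ℚ_[l] K] : resDeg l K ≠ 0 := (exists_resDegree l K).choose_spec.1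

lemma mem_resSub_iff (K : IntermediateField ℚ_[l] (PadicAlgCl l))
    [FiniteDimensional ℚ_[l] K] (r : ResF l) : r ∈ resSub l K ↔ r ^ l ^ resDeg l K = r :=
  (exists_resDegree l K).choose_spec.2 r

end Fermat.Agent.CFT.Loc
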