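import Fermat.Agent.CFT.Loc.Decomp

/-!
# Residue field of `ℚ̄_l`, Frobenius elements

* `exists_fixing_inertia` : an element acting trivially on the residue field of `K` is congruent
  modulo inertia to an element of `Gal(ℚ̄_l/K)`;
* `exists_frobenius_loc` : a Frobenius element of `Gal(ℚ̄_l/ℚ_l)`.
-/

set_option autoImplicit false

open Polynomial IntermediateField
open scoped Pointwise

namespace Fermat.Agent.CFT.Loc

variable (l : ℕ) [Fact l.Prime]

section KS

variable (K : IntermediateField ℚ_[l] (PadicAlgCl l))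

variable {l K} in
lemma norm_apply' (g : PadicAlgCl l ≃ₐ[K] PadicAlgCl l) (x : PadicAlgCl l) : ‖g x‖ = ‖x‖ :=
  norm_apply (g.restrictScalars ℚ_[l]) x

lemma mem_padicIntegers {x : PadicAlgCl l} : x ∈ padicIntegers l ↔ ‖x‖ ≤ 1 := Iff.rfl

/-- the Galois group acts on the ring of integers -/
noncomputable local instance actInt :
    MulSemiringAction (PadicAlgCl l ≃ₐ[K] PadicAlgCl l) (padicIntegers l) where
  smul g x := ⟨g x, by rw [mem_padicIntegers, norm_apply']; exact x.2⟩
  one_smul x := by apply Subtype.ext; rfl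
  mul_smul g h x := by apply Subtype.ext; rfl
  smul_zero g := by apply Subtype.ext; exact map_zero g
  smul_add g x y := by apply Subtype.ext; exact map_add g _ _
  smul_one g := by apply Subtype.ext; exact map_one g
  smul_mul g x y := by apply Subtype.ext; exact map_mul g _ _

/-- integers of `K` -/
noncomputable abbrev OKv : ValuationSubring K :=
  (padicIntegers l).comap (algebraMap K (PadicAlgCl l))

/-- the inclusion of rings of integers -/
noncomputable def inclInt : OKv l K →+* padicIntegers l where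
  toFun x := ⟨algebraMap K (PadicAlgCl l) x, x.2⟩
  map_one' := by apply Subtype.ext; simp
  map_mul' x y := by apply Subtype.ext; simp
  map_zero' := by apply Subtype.ext; simp
  map_add' x y := by apply Subtype.ext; simp

noncomputable local instance algInt : Algebra (OKv l K) (padicIntegers l) :=
  (inclInt l K).toAlgebra

local instance : TopologicalSpace (padicIntegers l) := ⊥

local instance : DiscreteTopology (padicIntegers l) := ⟨rfl⟩

local instance smulComm :
    SMulCommClass (PadicAlgCl l ≃ₐ[K] PadicAlgCl l) (OKv l K) (padicIntegers l) := by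
  refine ⟨fun g a x => ?_⟩
  apply Subtype.ext
  show g (algebraMap K (PadicAlgCl l) a * x) = algebraMap K (PadicAlgCl l) a * g x
  rw [map_mul, AlgEquiv.commutes]

local instance invInt :
    Algebra.IsInvariant (OKv l K) (padicIntegers l) (PadicAlgCl l ≃ₐ[K] PadicAlgCl l) := by
  constructor
  intro b hb
  obtain ⟨q, hq⟩ := (InfiniteGalois.mem_range_algebraMap_iff_fixed (k := K) (b : PadicAlgCl l)).2
    (fun σ => congrArg Subtype.val (hb σ))
  refine ⟨⟨q, ?_⟩, ?_⟩
  · show algebraMap K (PadicAlgCl l) q ∈ padicIntegers l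
    rw [hq]; exact b.2
  · apply Subtype.ext
    exact hq

lemma stabilizer_isOpen_of_isIntegral' {K L : Type*} [Field K] [Field L] [Algebra K L]
    [Algebra.IsAlgebraic K L] (x : L) :
    IsOpen (MulAction.stabilizer (L ≃ₐ[K] L) x : Set (L ≃ₐ[K] L)) := by
  have hint : IsIntegral K x := (Algebra.IsAlgebraic.isAlgebraic x).isIntegral
  have : FiniteDimensional K K⟮x⟯ := adjoin.finiteDimensional hint
  have h : K⟮x⟯.fixingSubgroup ≤ MulAction.stabilizer (L ≃ₐ[K] L) x := by
    intro τ hτ
    exact (mem_fixingSubgroup_adjoin_simple_iff x τ).1 hτ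
  exact Subgroup.isOpen_mono h K⟮x⟯.fixingSubgroup_isOpen

local instance contInt : ContinuousSMul (PadicAlgCl l ≃ₐ[K] PadicAlgCl l) (padicIntegers l) := by
  rw [continuousSMul_iff_stabilizer_isOpen]
  intro x
  have h := stabilizer_isOpen_of_isIntegral' (K := K) (L := PadicAlgCl l) (x : PadicAlgCl l)
  convert h using 1
  ext σ
  simp only [SetLike.mem_coe, MulAction.mem_stabilizer_iff]
  rw [Subtype.ext_iff]
  rfl

lemma mem_maximalIdeal_int (x : padicIntegers l) :
    x ∈ IsLocalRing.maximalIdeal (padicIntegers l) ↔ ‖(x : PadicAlgCl l)‖ < 1 := by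
  rw [ValuationSubring.valuation_lt_one_iff]
  have h := ValuationSubring.mem_nonunits_iff (A := padicIntegers l) (x := (x : PadicAlgCl l))
  rw [← h, Frob.mem_nonunits_iff_inv]
  constructor
  · rintro (h | h)
    · rw [h]; simp
    · rw [mem_padicIntegers, not_le, norm_inv] at h
      by_contra hx
      push Not at hx
      exact absurd h (not_lt.2 (inv_le_one_of_one_le₀ hx))
  · intro h
    by_cases hx : (x : PadicAlgCl l) = 0
    · exact Or.inl hx
    · right
      rw [mem_padicIntegers, not_le, norm_inv]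
      exact (one_lt_inv₀ (norm_pos_iff.2 hx)).2 h

variable {l}

/-- An element acting trivially on the residue field of `K` is congruent modulo inertia to an
element of `Gal(ℚ̄_l/K)`. -/
theorem exists_fixing_inertia (g : GalLoc l)
    (hg : ∀ x ∈ K, ‖x‖ ≤ 1 → ‖g x - x‖ < 1) :
    ∃ h ∈ K.fixingSubgroup, h⁻¹ * g ∈ inertiaLoc l := by
  let Q := IsLocalRing.maximalIdeal (padicIntegers l)
  let P := IsLocalRing.maximalIdeal (OKv l K)
  have hover : Q.LiesOver P := by
    constructor
    apply le_antisymm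
    · intro x hx
      show algebraMap (OKv l K) (padicIntegers l) x ∈ Q
      rw [mem_maximalIdeal_int]
      rw [IsLocalRing.mem_maximalIdeal, mem_nonunits_iff] at hx
      by_contra hlt
      push Not at hlt
      apply hx
      have hxn : ‖algebraMap K (PadicAlgCl l) x‖ = 1 := le_antisymm x.2 hlt
      have hx0 : (x : K) ≠ 0 := by
        intro h0
        rw [h0, map_zero, norm_zero] at hxn
        exact zero_ne_one hxn
      refine isUnit_iff_exists_inv.2 ⟨⟨(x : K)⁻¹, ?_⟩, ?_⟩
      · show algebraMap K (PadicAlgCl l) (x : K)⁻¹ ∈ padicIntegers l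
        rw [map_inv₀, mem_padicIntegers, norm_inv, hxn, inv_one]
      · apply Subtype.ext
        show (x : K) * (x : K)⁻¹ = 1
        exact mul_inv_cancel₀ hx0
    · intro x hx
      have hx' : algebraMap (OKv l K) (padicIntegers l) x ∈ Q := hx
      rw [mem_maximalIdeal_int] at hx'
      rw [IsLocalRing.mem_maximalIdeal, mem_nonunits_iff]
      intro hu
      have h1 : IsUnit (algebraMap (OKv l K) (padicIntegers l) x) := hu.map _
      have h2 : ¬ (algebraMap (OKv l K) (padicIntegers l) x) ∈
          IsLocalRing.maximalIdeal (padicIntegers l) := by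
        rw [IsLocalRing.mem_maximalIdeal, mem_nonunits_iff]; exact not_not.2 h1
      exact h2 ((mem_maximalIdeal_int l _).2 hx')
  -- the automorphism induced by `g`
  have hgQ : ∀ y : padicIntegers l, ‖g (y : PadicAlgCl l)‖ ≤ 1 := fun y => by
    rw [norm_apply]; exact y.2
  let gB : padicIntegers l →+* padicIntegers l :=
    { toFun := fun y => ⟨g y, hgQ y⟩
      map_one' := by apply Subtype.ext; exact map_one g
      map_mul' := fun x y => by apply Subtype.ext; exact map_mul g _ _
      map_zero' := by apply Subtype.ext; exact map_zero g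
      map_add' := fun x y => by apply Subtype.ext; exact map_add g _ _ }
  have hgi : ∀ y : padicIntegers l, ‖g⁻¹ (y : PadicAlgCl l)‖ ≤ 1 := fun y => by
    rw [norm_apply]; exact y.2
  let gB' : padicIntegers l →+* padicIntegers l :=
    { toFun := fun y => ⟨g⁻¹ y, hgi y⟩
      map_one' := by apply Subtype.ext; exact map_one g⁻¹
      map_mul' := fun x y => by apply Subtype.ext; exact map_mul g⁻¹ _ _
      map_zero' := by apply Subtype.ext; exact map_zero g⁻¹
      map_add' := fun x y => by apply Subtype.ext; exact map_add g⁻¹ _ _ }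
  have hcomp1 : ∀ y, gB (gB' y) = y := by
    intro y
    apply Subtype.ext
    exact AlgEquiv.apply_symm_apply g (y : PadicAlgCl l)
  have hcomp2 : ∀ y, gB' (gB y) = y := by
    intro y
    apply Subtype.ext
    exact AlgEquiv.symm_apply_apply g (y : PadicAlgCl l)
  let f : (padicIntegers l ⧸ Q) →+* (padicIntegers l ⧸ Q) :=
    Ideal.quotientMap Q gB (by
      intro y hy
      show gB y ∈ Q
      rw [mem_maximalIdeal_int] at hy ⊢
      show ‖g y‖ < 1
      rwa [norm_apply])
  let f' : (padicIntegers l ⧸ Q) →+* (padicIntegers l ⧸ Q) :=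
    Ideal.quotientMap Q gB' (by
      intro y hy
      show gB' y ∈ Q
      rw [mem_maximalIdeal_int] at hy ⊢
      show ‖g⁻¹ y‖ < 1
      rwa [norm_apply])
  have hff' : f.comp f' = RingHom.id _ := by
    refine Ideal.Quotient.ringHom_ext ?_
    ext1 x
    show Ideal.Quotient.mk Q (gB (gB' x)) = Ideal.Quotient.mk Q x
    rw [hcomp1]
  have hf'f : f'.comp f = RingHom.id _ := by
    refine Ideal.Quotient.ringHom_ext ?_
    ext1 x
    show Ideal.Quotient.mk Q (gB' (gB x)) = Ideal.Quotient.mk Q x
    rw [hcomp2]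
  let e : (padicIntegers l ⧸ Q) ≃+* (padicIntegers l ⧸ Q) := RingEquiv.ofRingHom f f' hff' hf'f
  have he : ∀ x : padicIntegers l, e (Ideal.Quotient.mk Q x) = Ideal.Quotient.mk Q (gB x) :=
    fun x => rfl
  let e' : (padicIntegers l ⧸ Q) ≃ₐ[OKv l K ⧸ P] (padicIntegers l ⧸ Q) :=
    AlgEquiv.ofRingEquiv (f := e) (by
      intro r
      obtain ⟨r, rfl⟩ := Ideal.Quotient.mk_surjective r
      change e (Ideal.Quotient.mk Q (algebraMap _ (padicIntegers l) r)) =
        Ideal.Quotient.mk Q (algebraMap _ (padicIntegers l) r)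
      rw [he, Ideal.Quotient.eq, mem_maximalIdeal_int]
      exact hg _ (r : K).2 r.2)
  obtain ⟨⟨σ, hσ⟩, h⟩ := Ideal.Quotient.stabilizerHom_surjective_of_profinite
    (G := PadicAlgCl l ≃ₐ[K] PadicAlgCl l) P Q e'
  have hσx : ∀ x : PadicAlgCl l, ‖x‖ ≤ 1 → ‖σ x - g x‖ < 1 := by
    intro x hx
    have h1 : Ideal.Quotient.mk Q (σ • (⟨x, hx⟩ : padicIntegers l)) =
        Ideal.Quotient.mk Q (gB ⟨x, hx⟩) := DFunLike.congr_fun h (Ideal.Quotient.mk Q ⟨x, hx⟩)
    rw [Ideal.Quotient.eq, mem_maximalIdeal_int] at h1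
    exact h1
  refine ⟨σ.restrictScalars ℚ_[l], ?_, ?_⟩
  · rw [IntermediateField.mem_fixingSubgroup_iff]
    intro x hx
    exact σ.commutes ⟨x, hx⟩
  · rw [mem_inertiaLoc]
    intro x hx
    have h2 := hσx x hx
    have h3 : ((σ.restrictScalars ℚ_[l])⁻¹ * g) x - x =
        (σ.restrictScalars ℚ_[l])⁻¹ (g x - σ x) := by
      rw [map_sub]
      congr 1
      exact (AlgEquiv.symm_apply_apply (σ.restrictScalars ℚ_[l]) x).symm
    rw [h3, norm_apply, ← norm_neg, neg_sub]
    exact h2

end KS

/-- existence of a Frobenius element -/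
theorem exists_frobenius_loc : ∃ φ : GalLoc l, ∀ x : PadicAlgCl l, ‖x‖ ≤ 1 → ‖φ x - x ^ l‖ < 1 := by
  obtain ⟨σ, hσ⟩ := Frob.exists_isFrobeniusAt (padicPlace l) (Fact.out : l.Prime)
    (padicPlace_liesOverPrime l)
  rw [Frob.isFrobeniusAt_iff] at hσ
  obtain ⟨hσ, hσ'⟩ := hσ
  rw [← range_localGaloisToGlobal] at hσ
  obtain ⟨φ, rfl⟩ := hσ
  refine ⟨φ, fun x hx => ?_⟩
  obtain ⟨y, hy⟩ := Metric.denseRange_iff.1 (denseRange_padicEmbedding l) x 1 one_pos
  rw [dist_eq_norm] at hy
  have hy1 : ‖padicEmbedding l y‖ ≤ 1 := by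
    have : padicEmbedding l y = x - (x - padicEmbedding l y) := by ring
    rw [this, sub_eq_add_neg]
    refine (IsUltrametricDist.norm_add_le_max _ _).trans (max_le hx ?_)
    rw [norm_neg]; exact hy.le
  have h1 := hσ' y ((mem_padicPlace_iff l).2 hy1)
  rw [mem_padicPlace_nonunits, map_sub, padicEmbedding_localGaloisToGlobal, map_pow] at h1
  have h2 : φ x - x ^ l = φ (x - padicEmbedding l y) +
      ((φ (padicEmbedding l y) - padicEmbedding l y ^ l) + (padicEmbedding l y ^ l - x ^ l)) := by
    rw [map_sub]; ring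
  rw [h2]
  refine lt_of_le_of_lt (IsUltrametricDist.norm_add_le_max _ _) (max_lt ?_ ?_)
  · rwa [norm_apply]
  · refine lt_of_le_of_lt (IsUltrametricDist.norm_add_le_max _ _) (max_lt h1 ?_)
    obtain ⟨c, hc⟩ := sub_dvd_pow_sub_pow (⟨padicEmbedding l y, hy1⟩ : padicIntegers l) ⟨x, hx⟩ l
    have h3 : padicEmbedding l y ^ l - x ^ l = (padicEmbedding l y - x) * c :=
      congrArg Subtype.val hc
    rw [h3, norm_mul]
    have h4 : ‖padicEmbedding l y - x‖ < 1 := by rwa [← norm_neg, neg_sub]
    exact mul_lt_one_of_nonneg_of_lt_one_left (norm_nonneg _) h4 c.2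

end Fermat.Agent.CFT.Loc
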