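import Fermat.Agent.CFT.Loc.Dict
import Fermat.Agent.CFT.TUnits

/-!
# Comparison of valuations: `ordH` and the `l`-adic norm
-/

set_option autoImplicit false
set_option linter.unusedSectionVars false

open Polynomial IntermediateField NumberField IsDedekindDomain
open scoped Pointwise

namespace Fermat.Agent.CFT.Loc

variable (l : ℕ) [Fact l.Prime]
variable {L : IntermediateField ℚ (AlgebraicClosure ℚ)} [NumberField L]

lemma norm_jg_le_one_of_int (g : GalGlob) (a : 𝓞 L) :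
    ‖jg l g ((a : L) : AlgebraicClosure ℚ)‖ ≤ 1 := by
  rw [← mem_smul_padicPlace_iff]
  exact Frob.mem_of_isIntegral _ ((Algebra.IsIntegral.isIntegral (R := ℤ) a).map
    ((algebraMap (𝓞 L) (AlgebraicClosure ℚ)).toIntAlgHom))

lemma norm_jg_lt_one_iff (g : GalGlob) {v : HeightOneSpectrum (𝓞 L)}
    (hv : Frob.below (𝓞 L) (g • padicPlace l) = v.asIdeal) (a : 𝓞 L) :
    ‖jg l g ((a : L) : AlgebraicClosure ℚ)‖ < 1 ↔ a ∈ v.asIdeal := by
  rw [← mem_nonunits_smul_padicPlace_iff, ← hv, Frob.mem_below]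
  rfl

lemma norm_jg_eq_one_iff (g : GalGlob) {v : HeightOneSpectrum (𝓞 L)}
    (hv : Frob.below (𝓞 L) (g • padicPlace l) = v.asIdeal) (a : 𝓞 L) :
    ‖jg l g ((a : L) : AlgebraicClosure ℚ)‖ = 1 ↔ a ∉ v.asIdeal := by
  rw [← norm_jg_lt_one_iff l g hv, not_lt]
  exact ⟨fun h => h.ge, fun h => le_antisymm (norm_jg_le_one_of_int l g a) h⟩

lemma norm_jg_le_one_of_valuation (g : GalGlob) {v : HeightOneSpectrum (𝓞 L)}
    (hv : Frob.below (𝓞 L) (g • padicPlace l) = v.asIdeal) {x : L} (hx : v.valuation L x ≤ 1) :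
    ‖jg l g (x : AlgebraicClosure ℚ)‖ ≤ 1 := by
  obtain ⟨n, d, hnd⟩ := HeightOneSpectrum.exists_primeCompl_mul_eq_of_integer v x hx
  have hd : ‖jg l g (((d : 𝓞 L) : L) : AlgebraicClosure ℚ)‖ = 1 :=
    (norm_jg_eq_one_iff l g hv _).2 d.2
  have h1 := congrArg (fun z : L => ‖jg l g (z : AlgebraicClosure ℚ)‖) hnd
  have h2 : ((x * algebraMap (𝓞 L) L d : L) : AlgebraicClosure ℚ) =
      (x : AlgebraicClosure ℚ) * (((d : 𝓞 L) : L) : AlgebraicClosure ℚ) := rfl
  rw [h2, map_mul, norm_mul, hd, mul_one] at h1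
  rw [h1]
  exact norm_jg_le_one_of_int l g n

lemma norm_jg_eq_one_of_valuation (g : GalGlob) {v : HeightOneSpectrum (𝓞 L)}
    (hv : Frob.below (𝓞 L) (g • padicPlace l) = v.asIdeal) {x : L} (hx : v.valuation L x = 1) :
    ‖jg l g (x : AlgebraicClosure ℚ)‖ = 1 := by
  apply le_antisymm (norm_jg_le_one_of_valuation l g hv hx.le)
  have h1 : v.valuation L x⁻¹ ≤ 1 := by rw [map_inv₀, hx, inv_one]
  have h2 := norm_jg_le_one_of_valuation l g hv h1
  have h3 : ((x⁻¹ : L) : AlgebraicClosure ℚ) = (x : AlgebraicClosure ℚ)⁻¹ := rfl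
  rw [h3, map_inv₀, norm_inv] at h2
  have hx0 : x ≠ 0 := by
    rintro rfl
    rw [map_zero] at hx
    exact zero_ne_one hx
  have hpos : 0 < ‖jg l g (x : AlgebraicClosure ℚ)‖ := by
    rw [norm_pos_iff]
    exact (_root_.map_ne_zero _).2 (by exact_mod_cast hx0)
  exact (inv_le_one₀ hpos).1 h2

/-- The `l`-adic norm on `L` is a power of `ordH`. -/
theorem exists_norm_jg_eq (g : GalGlob) {v : HeightOneSpectrum (𝓞 L)}
    (hv : Frob.below (𝓞 L) (g • padicPlace l) = v.asIdeal) :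
    ∃ c : ℝ, 0 < c ∧ c < 1 ∧ ∀ x : Lˣ,
      ‖jg l g ((x : L) : AlgebraicClosure ℚ)‖ = c ^ (ordH L v (Additive.ofMul x)) := by
  obtain ⟨π, hπ⟩ := v.valuation_exists_uniformizer' L
  have hπmem : π ∈ v.asIdeal := by
    rw [← v.valuation_lt_one_iff_mem (K := L)]
    have : v.valuation L (algebraMap (𝓞 L) L π) = WithZero.exp (-1) := hπ
    rw [this, ← WithZero.exp_zero]
    exact WithZero.exp_lt_exp.2 (by norm_num)
  have hπ0 : (algebraMap (𝓞 L) L π) ≠ 0 := by
    intro h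
    have : v.valuation L (algebraMap (𝓞 L) L π) = WithZero.exp (-1) := hπ
    rw [h, map_zero] at this
    exact WithZero.exp_ne_zero this.symm
  let πu : Lˣ := Units.mk0 _ hπ0
  have hord : ordH L v (Additive.ofMul πu) = 1 := (ordH_eq_iff v πu 1).2 hπ
  refine ⟨‖jg l g ((πu : L) : AlgebraicClosure ℚ)‖, ?_, ?_, ?_⟩
  · rw [norm_pos_iff]
    exact (_root_.map_ne_zero _).2 (by exact_mod_cast hπ0)
  · exact (norm_jg_lt_one_iff l g hv π).2 hπmem
  · intro x
    set n := ordH L v (Additive.ofMul x) with hn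
    have h1 : ordH L v (Additive.ofMul (x * πu ^ (-n))) = 0 := by
      rw [ofMul_mul, map_add, ofMul_zpow, map_zsmul, hord, ← hn]
      simp
    have h2 := norm_jg_eq_one_of_valuation l g hv ((ordH_eq_zero_iff v _).1 h1)
    have h3 : (((x * πu ^ (-n) : Lˣ) : L) : AlgebraicClosure ℚ) =
        ((x : L) : AlgebraicClosure ℚ) * ((πu : L) : AlgebraicClosure ℚ) ^ (-n) := by
      push_cast
      rfl
    rw [h3, map_mul, map_zpow₀, norm_mul, norm_zpow, zpow_neg, mul_inv_eq_one₀] at h2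
    · exact h2
    · apply zpow_ne_zero
      rw [norm_ne_zero_iff]
      exact (_root_.map_ne_zero _).2 (by exact_mod_cast hπ0)

/-- every maximal ideal below a place is a height one prime -/
theorem exists_heightOne_below {A : ValuationSubring (AlgebraicClosure ℚ)}
    (hA : A.LiesOverPrime l) : ∃ v : HeightOneSpectrum (𝓞 L), Frob.below (𝓞 L) A = v.asIdeal := by
  have hmax := Frob.below_isMaximal (𝓞 L) (Fact.out : l.Prime) hA
  refine ⟨⟨Frob.below (𝓞 L) A, inferInstance, ?_⟩, rfl⟩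
  intro h
  have h1 : (l : 𝓞 L) ∈ Frob.below (𝓞 L) A := Frob.natCast_mem_below hA
  rw [h, Ideal.mem_bot] at h1
  exact (Fact.out : l.Prime).ne_zero (by exact_mod_cast h1)

end Fermat.Agent.CFT.Loc
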